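import Fermat.Agent.R.CaseIUnit

/-!
# Project R, track R1: Case I of Fermat's Last Theorem for a prime `p ≥ 5` with `ℤ[ζ_p]` a PID

Main result: `FA_R_caseI : FA_R_Target_CaseI`.
-/

set_option autoImplicit false

open NumberField IsCyclotomicExtension Polynomial

namespace Fermat.Agent.R

section Main

variable {p : ℕ} [hp : Fact p.Prime] {K : Type*} [Field K] [NumberField K]
  [IsCyclotomicExtension {p} ℚ K] {ζ : K} (hζ : IsPrimitiveRoot ζ p)

include hζ

/-- The factors `a + η b` (`η` running over the `p`-th roots of unity) are pairwise coprime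
in Case I. -/
theorem FA_R_caseI_isCoprime (hodd : p ≠ 2) [IsPrincipalIdealRing (𝓞 K)] {a b c : ℤ}
    (hab : IsCoprime a b) (hpc : ¬ (p : ℤ) ∣ c) (H : a ^ p + b ^ p = c ^ p) {η₁ η₂ : 𝓞 K}
    (h₁ : η₁ ∈ nthRootsFinset p (1 : 𝓞 K)) (h₂ : η₂ ∈ nthRootsFinset p (1 : 𝓞 K))
    (hne : η₁ ≠ η₂) :
    IsCoprime ((a : 𝓞 K) + η₁ * b) ((a : 𝓞 K) + η₂ * b) := by
  have hpodd : Odd p := hp.out.odd_of_ne_two hodd
  have hζ' := hζ.toInteger_isPrimitiveRoot
  have hprod : (c : 𝓞 K) ^ p = ∏ η ∈ nthRootsFinset p (1 : 𝓞 K), ((a : 𝓞 K) + η * b) := by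
    rw [← hζ'.pow_add_pow_eq_prod_add_mul _ _ hpodd]
    exact_mod_cast congrArg (Int.cast : ℤ → 𝓞 K) H.symm
  have hc0 : (c : 𝓞 K) ≠ 0 := by
    intro h
    have : c = 0 := by exact_mod_cast h
    exact hpc (this ▸ dvd_zero _)
  have hx_dvd : ((a : 𝓞 K) + η₁ * b) ∣ (c : 𝓞 K) ^ p := by
    rw [hprod]; exact Finset.dvd_prod_of_mem _ h₁
  have hassoc : Associated (hζ.toInteger - 1) (η₁ - η₂) :=
    hζ'.nthRootsFinset_pairwise_associated_sub_one_sub_of_prime hp.out h₁ h₂ hne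
  have hlam : Prime (hζ.toInteger - 1) := hζ.zeta_sub_one_prime'
  refine isCoprime_of_prime_dvd ?_ ?_
  · rintro ⟨hx, -⟩
    rw [hx, zero_dvd_iff] at hx_dvd
    exact hc0 (pow_eq_zero_iff hp.out.ne_zero |>.mp hx_dvd)
  · intro π hπ hπx hπy
    have h1 : π ∣ (η₁ - η₂) * b := by
      have : (η₁ - η₂) * (b : 𝓞 K) = ((a : 𝓞 K) + η₁ * b) - ((a : 𝓞 K) + η₂ * b) := by ring
      rw [this]; exact dvd_sub hπx hπy
    have h2 : π ∣ (η₁ - η₂) * a := by
      have : (η₁ - η₂) * (a : 𝓞 K)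
          = η₁ * ((a : 𝓞 K) + η₂ * b) - η₂ * ((a : 𝓞 K) + η₁ * b) := by ring
      rw [this]; exact dvd_sub (dvd_mul_of_dvd_right hπy _) (dvd_mul_of_dvd_right hπx _)
    by_cases hπl : π ∣ η₁ - η₂
    · -- then `π` is associated to `ζ - 1`, which divides `c`, so `p ∣ c`
      have hπl' : π ∣ hζ.toInteger - 1 := hπl.trans hassoc.symm.dvd
      have hassoc' : Associated π (hζ.toInteger - 1) :=
        hπ.associated_of_dvd hlam hπl'
      have : hζ.toInteger - 1 ∣ (c : 𝓞 K) ^ p := hassoc'.symm.dvd.trans (hπx.trans hx_dvd)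
      have := hlam.dvd_of_dvd_pow this
      rw [FA_R_lam_dvd_int_iff hζ hodd] at this
      exact hpc this
    · have ha' : π ∣ (a : 𝓞 K) := (hπ.dvd_or_dvd h2).resolve_left hπl
      have hb' : π ∣ (b : 𝓞 K) := (hπ.dvd_or_dvd h1).resolve_left hπl
      obtain ⟨u, v, huv⟩ := hab
      have : π ∣ (1 : 𝓞 K) := by
        have h1' : ((u * a + v * b : ℤ) : 𝓞 K) = 1 := by rw [huv]; simp
        rw [← h1']
        push_cast
        exact dvd_add (dvd_mul_of_dvd_right ha' _) (dvd_mul_of_dvd_right hb' _)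
      exact hπ.not_dvd_one this

/-- In Case I, `a + ζ b` is a unit times a `p`-th power. -/
theorem FA_R_caseI_exists_pow (hodd : p ≠ 2) [IsPrincipalIdealRing (𝓞 K)] {a b c : ℤ}
    (hab : IsCoprime a b) (hpc : ¬ (p : ℤ) ∣ c) (H : a ^ p + b ^ p = c ^ p) :
    ∃ (α : 𝓞 K) (v : (𝓞 K)ˣ), α ^ p * v = (a : 𝓞 K) + hζ.toInteger * b := by
  classical
  have hpodd : Odd p := hp.out.odd_of_ne_two hodd
  have hζ' := hζ.toInteger_isPrimitiveRoot
  have hmem : hζ.toInteger ∈ nthRootsFinset p (1 : 𝓞 K) :=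
    hζ'.mem_nthRootsFinset hp.out.pos
  have hprod : ∏ η ∈ nthRootsFinset p (1 : 𝓞 K), ((a : 𝓞 K) + η * b) = (c : 𝓞 K) ^ p := by
    rw [← hζ'.pow_add_pow_eq_prod_add_mul _ _ hpodd]
    exact_mod_cast congrArg (Int.cast : ℤ → 𝓞 K) H
  rw [← Finset.mul_prod_erase _ _ hmem] at hprod
  have hcop : IsCoprime ((a : 𝓞 K) + hζ.toInteger * b)
      (∏ η ∈ (nthRootsFinset p (1 : 𝓞 K)).erase hζ.toInteger, ((a : 𝓞 K) + η * b)) := by
    refine IsCoprime.prod_right fun η hη => ?_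
    rw [Finset.mem_erase] at hη
    exact FA_R_caseI_isCoprime hζ hodd hab hpc H hmem hη.2 (Ne.symm hη.1)
  obtain ⟨α, v, hv⟩ := exists_associated_pow_of_mul_eq_pow' hcop hprod
  exact ⟨α, v, hv⟩

variable [IsCMField K]

/-- In Case I, `a + ζ b ≡ ζ^k (a + ζ^(p-1) b)` modulo `p` for some `k`. -/
theorem FA_R_caseI_congr (hodd : p ≠ 2) [IsPrincipalIdealRing (𝓞 K)] {a b c : ℤ}
    (hab : IsCoprime a b) (hpc : ¬ (p : ℤ) ∣ c) (H : a ^ p + b ^ p = c ^ p) :
    ∃ k : ℕ, (p : 𝓞 K) ∣ ((a : 𝓞 K) + hζ.toInteger * b)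
      - hζ.toInteger ^ k * ((a : 𝓞 K) + hζ.toInteger ^ (p - 1) * b) := by
  obtain ⟨α, v, hv⟩ := FA_R_caseI_exists_pow hζ hodd hab hpc H
  obtain ⟨k, hk⟩ := FA_R_unit_lemma hζ hodd v
  obtain ⟨n, hn⟩ := FA_R_exists_int_pow_prime hζ α
  refine ⟨k, ?_⟩
  set σ := IsCMField.ringOfIntegersComplexConj K with hσ
  have hσp : σ (p : 𝓞 K) = p := by simp [hσ]
  have hσn : σ (n : 𝓞 K) = n := by simp [hσ]
  have h1 : (p : 𝓞 K) ∣ σ (α ^ p) - n := by
    obtain ⟨y, hy⟩ := hn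
    refine ⟨σ y, ?_⟩
    have := congrArg σ hy
    rw [map_sub, map_mul, hσp, hσn] at this
    exact this
  have h2 : σ ((a : 𝓞 K) + hζ.toInteger * b) = (a : 𝓞 K) + hζ.toInteger ^ (p - 1) * b := by
    rw [map_add, map_mul, hσ, FA_R_conj_zeta hζ]
    simp
  have h3 : (a : 𝓞 K) + hζ.toInteger ^ (p - 1) * b = σ (α ^ p) * σ v := by
    rw [← h2, ← hv, map_mul]
  have h4 : ((a : 𝓞 K) + hζ.toInteger * b)
      - hζ.toInteger ^ k * ((a : 𝓞 K) + hζ.toInteger ^ (p - 1) * b)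
      = hζ.toInteger ^ k * σ v * ((α ^ p - n) - (σ (α ^ p) - n)) := by
    rw [h3, ← hv]
    nth_rewrite 1 [hk]
    ring
  rw [h4]
  exact dvd_mul_of_dvd_right (dvd_sub hn h1) _

/-- Case I for `a ≢ b` modulo `p`. -/
theorem FA_R_caseI_main (hp5 : 5 ≤ p) [IsPrincipalIdealRing (𝓞 K)] {a b c : ℤ}
    (hab : IsCoprime a b) (hpa : ¬ (p : ℤ) ∣ a) (hpb : ¬ (p : ℤ) ∣ b) (hpc : ¬ (p : ℤ) ∣ c)
    (hne : ¬ (p : ℤ) ∣ a - b) (H : a ^ p + b ^ p = c ^ p) : False := by
  have hodd : p ≠ 2 := by omega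
  obtain ⟨k, hk⟩ := FA_R_caseI_congr hζ hodd hab hpc H
  have hζ' := hζ.toInteger_isPrimitiveRoot
  set z := hζ.toInteger with hz
  set k₁ := k % p with hk₁
  set k₂ := (k + (p - 1)) % p with hk₂
  have hppos : 0 < p := by omega
  have hk₁lt : k₁ < p := Nat.mod_lt _ hppos
  have hk₂lt : k₂ < p := Nat.mod_lt _ hppos
  have hzk₁ : z ^ k = z ^ k₁ := pow_eq_pow_mod k hζ'.pow_eq_one
  have hzk₂ : z ^ (k + (p - 1)) = z ^ k₂ := pow_eq_pow_mod _ hζ'.pow_eq_one
  -- relation between `k₁` and `k₂`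
  have hk₁₂ : (k₁ = 0 ∧ k₂ = p - 1) ∨ (1 ≤ k₁ ∧ k₂ = k₁ - 1) := by
    have hdiv : k = k₁ + p * (k / p) := by rw [hk₁]; exact (Nat.mod_add_div k p).symm
    rcases Nat.eq_zero_or_pos k₁ with h0 | h0
    · left
      refine ⟨h0, ?_⟩
      rw [hk₂]
      have : k + (p - 1) = (p - 1) + p * (k / p) := by omega
      rw [this, Nat.add_mul_mod_self_left, Nat.mod_eq_of_lt (by omega)]
    · right
      refine ⟨h0, ?_⟩
      rw [hk₂]
      have : k + (p - 1) = (k₁ - 1) + p * (k / p + 1) := by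
        rw [mul_add, mul_one]; omega
      rw [this, Nat.add_mul_mod_self_left, Nat.mod_eq_of_lt (by omega)]
  -- the coefficient function
  set f : ℕ → ℤ := fun i => (if i = 0 then a else 0) + (if i = 1 then b else 0)
    - (if i = k₁ then a else 0) - (if i = k₂ then b else 0) with hf
  have hsum : ∑ i ∈ Finset.range p, (f i : 𝓞 K) * z ^ i
      = ((a : 𝓞 K) + z * b) - z ^ k * ((a : 𝓞 K) + z ^ (p - 1) * b) := by
    have e1 : z ^ k * ((a : 𝓞 K) + z ^ (p - 1) * b) = a * z ^ k₁ + b * z ^ k₂ := by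
      rw [mul_add, ← mul_assoc, ← pow_add, hzk₁, hzk₂]; ring
    rw [e1]
    simp only [hf, Int.cast_add, Int.cast_sub, Int.cast_ite, Int.cast_zero, add_mul, sub_mul,
      ite_mul, zero_mul, Finset.sum_add_distrib, Finset.sum_sub_distrib, Finset.sum_ite_eq',
      Finset.mem_range]
    rw [if_pos hppos, if_pos (by omega : 1 < p), if_pos hk₁lt, if_pos hk₂lt]
    ring
  rw [← hsum] at hk
  -- a vanishing coefficient
  have hzero : ∃ i < p, f i = 0 := by
    obtain ⟨i, hi2, hi4, hi1, hi2'⟩ : ∃ i, 2 ≤ i ∧ i ≤ 4 ∧ i ≠ k₁ ∧ i ≠ k₂ := by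
      by_cases h2 : k₁ = 2 ∨ k₂ = 2
      · by_cases h3 : k₁ = 3 ∨ k₂ = 3
        · exact ⟨4, by omega, by omega, by omega, by omega⟩
        · exact ⟨3, by omega, by omega, by omega, by omega⟩
      · exact ⟨2, by omega, by omega, by omega, by omega⟩
    refine ⟨i, by omega, ?_⟩
    simp only [hf]
    rw [if_neg (by omega), if_neg (by omega), if_neg hi1, if_neg hi2']
    simp
  have key := FA_R_dvd_coeff_of_dvd_sum_range hζ (p : ℤ) f hzero (by exact_mod_cast hk)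
  have hf0 : (p : ℤ) ∣ a - (if 0 = k₁ then a else 0) - (if 0 = k₂ then b else 0) := by
    have := key 0 hppos
    simpa [hf] using this
  have hf1 : (p : ℤ) ∣ b - (if 1 = k₁ then a else 0) - (if 1 = k₂ then b else 0) := by
    have := key 1 (by omega)
    simpa [hf] using this
  rcases hk₁₂ with ⟨h0, h2⟩ | ⟨h1, h2⟩
  · -- `k₁ = 0`, `k₂ = p - 1`
    rw [if_neg (by omega), if_neg (by omega)] at hf1
    simp only [sub_zero] at hf1
    exact hpb hf1
  · rcases Nat.eq_or_lt_of_le h1 with h1' | h1'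
    · -- `k₁ = 1`, `k₂ = 0`
      rw [if_neg (by omega), if_pos (by omega)] at hf0
      simp only [sub_zero] at hf0
      exact hne hf0
    · -- `k₁ ≥ 2`
      rw [if_neg (by omega), if_neg (by omega)] at hf0
      simp only [sub_zero] at hf0
      exact hpa hf0

end Main

/-- Coprimality of `a, b` and of `a, c` from the equation and `gcd (a, b, c) = 1`. -/
theorem FA_R_caseI_coprime {p : ℕ} {a b c : ℤ} (ha : a ≠ 0)
    (hgcd : ({a, b, c} : Finset ℤ).gcd id = 1) (H : a ^ p + b ^ p = c ^ p) (hp0 : p ≠ 0) :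
    IsCoprime a b ∧ IsCoprime a c := by
  constructor
  · refine isCoprime_of_prime_dvd (fun h => ha h.1) (fun q hq hqa hqb => hq.not_dvd_one ?_)
    rw [← hgcd]
    refine Finset.dvd_gcd_iff.mpr fun x hx => ?_
    simp only [Finset.mem_insert, Finset.mem_singleton] at hx
    rcases hx with rfl | rfl | rfl
    · exact hqa
    · exact hqb
    · exact hq.dvd_of_dvd_pow (H ▸ dvd_add (dvd_pow hqa hp0) (dvd_pow hqb hp0))
  · refine isCoprime_of_prime_dvd (fun h => ha h.1) (fun q hq hqa hqc => hq.not_dvd_one ?_)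
    rw [← hgcd]
    refine Finset.dvd_gcd_iff.mpr fun x hx => ?_
    simp only [Finset.mem_insert, Finset.mem_singleton] at hx
    rcases hx with rfl | rfl | rfl
    · exact hqa
    · have : x ^ p = c ^ p - a ^ p := by rw [← H]; ring
      exact hq.dvd_of_dvd_pow (this ▸ dvd_sub (dvd_pow hqc hp0) (dvd_pow hqa hp0))
    · exact hqc

/-- **Case I** of Fermat's Last Theorem for primes `p ≥ 5` such that `ℤ[ζ_p]` is a PID. -/
theorem FA_R_caseI : FA_R_Target_CaseI := by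
  intro p hp hp5 hpid a b c hgcd hnd H
  have : Fact p.Prime := ⟨hp⟩
  have : NeZero ((p : ℕ) : ℚ) := ⟨by exact_mod_cast hp.ne_zero⟩
  have : IsCyclotomicExtension {p} ℚ (FA_R_K p) := CyclotomicField.isCyclotomicExtension p ℚ
  have : NumberField (FA_R_K p) := IsCyclotomicExtension.numberField {p} ℚ (FA_R_K p)
  have : IsCMField (FA_R_K p) :=
    IsCyclotomicExtension.Rat.isCMField (FA_R_K p) (S := {p}) ⟨p, rfl, by omega⟩
  have : IsPrincipalIdealRing (𝓞 (FA_R_K p)) := hpid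
  have hζ : IsPrimitiveRoot (IsCyclotomicExtension.zeta p ℚ (FA_R_K p)) p :=
    IsCyclotomicExtension.zeta_spec p ℚ (FA_R_K p)
  have hpodd : Odd p := hp.odd_of_ne_two (by omega)
  have hpa : ¬ (p : ℤ) ∣ a := fun h => hnd (Dvd.dvd.mul_right (Dvd.dvd.mul_right h b) c)
  have hpb : ¬ (p : ℤ) ∣ b := fun h => hnd (Dvd.dvd.mul_right (Dvd.dvd.mul_left h a) c)
  have hpc : ¬ (p : ℤ) ∣ c := fun h => hnd (Dvd.dvd.mul_left h (a * b))
  have ha0 : a ≠ 0 := fun h => hpa (h ▸ dvd_zero _)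
  obtain ⟨hab, hac⟩ := FA_R_caseI_coprime ha0 hgcd H hp.ne_zero
  by_cases hne : (p : ℤ) ∣ a - b
  · -- use the permuted equation `a^p + (-c)^p = (-b)^p`
    have H' : a ^ p + (-c) ^ p = (-b) ^ p := by
      rw [hpodd.neg_pow, hpodd.neg_pow, ← H]; ring
    have hne' : ¬ (p : ℤ) ∣ a - (-c) := by
      intro h
      have hZ : ((a : ZMod p)) + b = c := by
        have := congrArg (Int.cast : ℤ → ZMod p) H
        push_cast at this
        rwa [ZMod.pow_card, ZMod.pow_card, ZMod.pow_card] at this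
      have h1 : (a : ZMod p) = b := by
        have := (ZMod.intCast_zmod_eq_zero_iff_dvd (a - b) p).mpr hne
        push_cast at this
        exact sub_eq_zero.mp this
      have h2 : (a : ZMod p) + c = 0 := by
        have := (ZMod.intCast_zmod_eq_zero_iff_dvd (a - (-c)) p).mpr h
        push_cast at this
        rw [sub_neg_eq_add] at this
        exact this
      have h3 : ((3 * a : ℤ) : ZMod p) = 0 := by
        push_cast
        rw [← hZ, ← h1] at h2
        rw [← h2]; ring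
      rw [ZMod.intCast_zmod_eq_zero_iff_dvd] at h3
      rcases (Nat.prime_iff_prime_int.mp hp).dvd_or_dvd h3 with h4 | h4
      · have := Int.le_of_dvd (by norm_num) h4
        omega
      · exact hpa h4
    exact FA_R_caseI_main hζ hp5 hac.neg_right hpa (by rwa [dvd_neg]) (by rwa [dvd_neg])
      hne' H'
  · exact FA_R_caseI_main hζ hp5 hab hpa hpb hpc hne H

end Fermat.Agent.R
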