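import Fermat.Agent.R.Interface

/-!
# Project R, track R1 (Case I): basic lemmas on `ℤ[ζ_p]`

* `FA_R_lam_dvd_int_iff` : `ζ - 1 ∣ n ↔ p ∣ n` for `n : ℤ`.
* `FA_R_dvd_coeff_of_dvd_sum_range_pred`, `FA_R_dvd_coeff_of_dvd_sum_range` : comparison of
  coefficients in the basis `1, ζ, …, ζ^(p-2)`.
* `FA_R_exists_int_pow_prime` : `x ^ p` is congruent to a rational integer modulo `p`.
-/

set_option autoImplicit false

open NumberField IsCyclotomicExtension Polynomial

namespace Fermat.Agent.R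

section Basic

variable {p : ℕ} [hp : Fact p.Prime] {K : Type*} [Field K] [NumberField K]
  [IsCyclotomicExtension {p} ℚ K] {ζ : K} (hζ : IsPrimitiveRoot ζ p)

include hζ

/-- `ζ - 1` divides the rational integer `n` iff `p` does. -/
theorem FA_R_lam_dvd_int_iff (hodd : p ≠ 2) (n : ℤ) :
    hζ.toInteger - 1 ∣ (n : 𝓞 K) ↔ (p : ℤ) ∣ n := by
  rw [← Ideal.norm_dvd_iff, hζ.norm_toInteger_sub_one_of_prime_ne_two' hodd]
  rw [hζ.norm_toInteger_sub_one_of_prime_ne_two' hodd]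
  exact Nat.prime_iff_prime_int.1 hp.1

/-- Comparison of coefficients in the integral power basis `1, ζ, …, ζ^(p-2)`. -/
theorem FA_R_dvd_coeff_of_dvd_sum_range_pred (m : ℤ) (c : ℕ → ℤ)
    (h : (m : 𝓞 K) ∣ ∑ i ∈ Finset.range (p - 1), (c i : 𝓞 K) * hζ.toInteger ^ i) :
    ∀ i < p - 1, m ∣ c i := by
  intro i hi
  set pB := hζ.integralPowerBasis with hpB
  have hdim : pB.dim = p - 1 := by
    rw [hpB, hζ.integralPowerBasis_dim, Nat.totient_prime hp.out]
  obtain ⟨x, hx⟩ := h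
  have h1 : ∑ j ∈ Finset.range (p - 1), (c j : 𝓞 K) * hζ.toInteger ^ j
      = ∑ j : Fin pB.dim, (c j) • pB.basis j := by
    rw [← hdim, ← Fin.sum_univ_eq_sum_range]
    refine Finset.sum_congr rfl fun j _ => ?_
    have hgen : pB.gen = hζ.toInteger := hζ.integralPowerBasis_gen
    rw [PowerBasis.coe_basis, hgen, zsmul_eq_mul]
  rw [h1] at hx
  have h2 := congrArg (fun y => pB.basis.repr y ⟨i, hdim ▸ hi⟩) hx
  rw [Module.Basis.repr_sum_self] at h2
  have h3 : (m : 𝓞 K) * x = m • x := by rw [zsmul_eq_mul]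
  rw [h3, map_smul, Finsupp.smul_apply, smul_eq_mul] at h2
  exact ⟨_, h2⟩

/-- Comparison of coefficients for sums `∑_{i<p} f i ζ^i` with at least one vanishing
coefficient. -/
theorem FA_R_dvd_coeff_of_dvd_sum_range (m : ℤ) (f : ℕ → ℤ) (hf : ∃ i < p, f i = 0)
    (h : (m : 𝓞 K) ∣ ∑ i ∈ Finset.range p, (f i : 𝓞 K) * hζ.toInteger ^ i) :
    ∀ i < p, m ∣ f i := by
  have hp1 : 1 < p := hp.out.one_lt
  have hpp : p = (p - 1) + 1 := by omega
  have hr : Finset.range p = Finset.range (p - 1 + 1) := by rw [← hpp]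
  have hgeom : ∑ i ∈ Finset.range p, hζ.toInteger ^ i = 0 :=
    hζ.toInteger_isPrimitiveRoot.geom_sum_eq_zero hp1
  have hlast : hζ.toInteger ^ (p - 1) = - ∑ i ∈ Finset.range (p - 1), hζ.toInteger ^ i := by
    have h0 := hgeom
    rw [hr, Finset.sum_range_succ] at h0
    rw [eq_neg_iff_add_eq_zero, add_comm]
    exact h0
  have hsum : ∑ i ∈ Finset.range p, (f i : 𝓞 K) * hζ.toInteger ^ i
      = ∑ i ∈ Finset.range (p - 1), ((f i - f (p - 1) : ℤ) : 𝓞 K) * hζ.toInteger ^ i := by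
    rw [hr, Finset.sum_range_succ]
    rw [hlast, mul_neg, Finset.mul_sum, ← sub_eq_add_neg, ← Finset.sum_sub_distrib]
    refine Finset.sum_congr rfl fun i _ => ?_
    push_cast; ring
  rw [hsum] at h
  have key := FA_R_dvd_coeff_of_dvd_sum_range_pred hζ m (fun i => f i - f (p - 1)) h
  have hlastdvd : m ∣ f (p - 1) := by
    obtain ⟨i, hi, hfi⟩ := hf
    rcases Nat.lt_or_ge i (p - 1) with hi' | hi'
    · have := key i hi'
      simp only [hfi, zero_sub, dvd_neg] at this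
      exact this
    · have : i = p - 1 := by omega
      rw [← this, hfi]; exact dvd_zero _
  intro i hi
  rcases Nat.lt_or_ge i (p - 1) with hi' | hi'
  · have := key i hi'
    have := dvd_add this hlastdvd
    simpa using this
  · have : i = p - 1 := by omega
    rw [this]; exact hlastdvd

/-- Every `p`-th power in `ℤ[ζ]` is congruent to a rational integer modulo `p`. -/
theorem FA_R_exists_int_pow_prime (x : 𝓞 K) : ∃ n : ℤ, (p : 𝓞 K) ∣ x ^ p - (n : 𝓞 K) := by
  have htop : Algebra.adjoin ℤ ({hζ.toInteger} : Set (𝓞 K)) = ⊤ :=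
    IsCyclotomicExtension.adjoin_primitive_root_eq_top hζ.toInteger_isPrimitiveRoot
  have hx : x ∈ Algebra.adjoin ℤ ({hζ.toInteger} : Set (𝓞 K)) := by rw [htop]; trivial
  induction hx using Algebra.adjoin_induction with
  | mem y hy =>
    rw [Set.mem_singleton_iff] at hy
    refine ⟨1, ?_⟩
    rw [hy, hζ.toInteger_isPrimitiveRoot.pow_eq_one]
    simp
  | algebraMap r =>
    refine ⟨r ^ p, ?_⟩
    simp
  | add y z _ _ hy hz =>
    obtain ⟨n, hn⟩ := hy
    obtain ⟨m, hm⟩ := hz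
    obtain ⟨r, hr⟩ := exists_add_pow_prime_eq hp.out y z
    refine ⟨n + m, ?_⟩
    rw [hr]
    have : y ^ p + z ^ p + (p : 𝓞 K) * y * z * r - ((n + m : ℤ) : 𝓞 K)
        = (y ^ p - n) + (z ^ p - m) + (p : 𝓞 K) * (y * z * r) := by push_cast; ring
    rw [this]
    exact dvd_add (dvd_add hn hm) (dvd_mul_right _ _)
  | mul y z _ _ hy hz =>
    obtain ⟨n, hn⟩ := hy
    obtain ⟨m, hm⟩ := hz
    refine ⟨n * m, ?_⟩
    have : (y * z) ^ p - ((n * m : ℤ) : 𝓞 K)
        = y ^ p * (z ^ p - m) + m * (y ^ p - n) := by push_cast; ring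
    rw [this]
    exact dvd_add (dvd_mul_of_dvd_right hm _) (dvd_mul_of_dvd_right hn _)

end Basic

end Fermat.Agent.R
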