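import Mathlib

set_option autoImplicit false
set_option linter.unusedSectionVars false
set_option linter.unusedVariables false

open NumberField Polynomial Ideal Finset

namespace Fermat.Agent.R

section Step

variable {p : ℕ} [hp : Fact p.Prime] {K : Type} [Field K] [NumberField K]
  [IsCyclotomicExtension {p} ℚ K] {ζ : K} (hζ : IsPrimitiveRoot ζ p)

local notation3 "π" => (IsPrimitiveRoot.toInteger hζ - 1 : 𝓞 K)
local notation3 "Rts" => (nthRootsFinset p (1 : 𝓞 K))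

/-- every element of `𝓞 K` is an integer polynomial in `ζ`. -/
theorem FA_R_c2_exists_aeval (x : 𝓞 K) :
    ∃ g : ℤ[X], aeval hζ.toInteger g = x := by
  have h := IsCyclotomicExtension.Rat.adjoin_singleton_eq_top hζ
  have hx : x ∈ Algebra.adjoin ℤ ({hζ.toInteger} : Set (𝓞 K)) := by rw [h]; trivial
  rw [Algebra.adjoin_singleton_eq_range_aeval] at hx
  exact hx

include hζ in
/-- `p`-th powers are congruent to rational integers modulo `p`. -/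
theorem FA_R_c2_exists_int_pow_sub (α : 𝓞 K) :
    ∃ n : ℤ, (p : 𝓞 K) ∣ α ^ p - (n : 𝓞 K) := by
  obtain ⟨g, rfl⟩ := FA_R_c2_exists_aeval hζ α
  induction g using Polynomial.induction_on with
  | C a =>
    refine ⟨a ^ p, ?_⟩
    simp
  | add f g hf hg =>
    obtain ⟨n₁, h₁⟩ := hf
    obtain ⟨n₂, h₂⟩ := hg
    obtain ⟨r, hr⟩ := exists_add_pow_prime_eq hp.out (aeval hζ.toInteger f) (aeval hζ.toInteger g)
    refine ⟨n₁ + n₂, ?_⟩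
    rw [map_add, hr]
    obtain ⟨c₁, hc₁⟩ := h₁
    obtain ⟨c₂, hc₂⟩ := h₂
    refine ⟨c₁ + c₂ + aeval hζ.toInteger f * aeval hζ.toInteger g * r, ?_⟩
    push_cast
    linear_combination hc₁ + hc₂
  | monomial n a h =>
    refine ⟨a ^ p, ?_⟩
    have hZ : (hζ.toInteger) ^ p = 1 := hζ.toInteger_isPrimitiveRoot.pow_eq_one
    have : (aeval hζ.toInteger (C a * X ^ (n + 1))) ^ p = ((a ^ p : ℤ) : 𝓞 K) := by
      simp only [map_mul, aeval_C, map_pow, aeval_X, mul_pow]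
      rw [← pow_mul, mul_comm (n + 1) p, pow_mul, hZ, one_pow, mul_one]
      simp
    rw [this, sub_self]
    exact dvd_zero _

theorem FA_R_c2_pi_ne_zero : π ≠ 0 := hζ.zeta_sub_one_prime'.ne_zero

/-- distinct `p`-th roots of unity differ by a unit times `π`. -/
theorem FA_R_c2_root_sub {η₁ η₂ : 𝓞 K} (h₁ : η₁ ∈ Rts) (h₂ : η₂ ∈ Rts) (hne : η₁ ≠ η₂) :
    ∃ u : (𝓞 K)ˣ, η₁ - η₂ = π * u := by
  obtain ⟨u, hu⟩ := hζ.toInteger_isPrimitiveRoot.nthRootsFinset_pairwise_associated_sub_one_sub_of_prime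
    hp.out h₁ h₂ hne
  exact ⟨u, hu.symm⟩

theorem FA_R_c2_pi_dvd_root_sub {η₁ η₂ : 𝓞 K} (h₁ : η₁ ∈ Rts) (h₂ : η₂ ∈ Rts) :
    π ∣ η₁ - η₂ :=
  hζ.toInteger_isPrimitiveRoot.sub_one_dvd_sub hp.out h₁ h₂

variable {x y z : 𝓞 K} {ε : (𝓞 K)ˣ} {m : ℕ}

/-- S1: `π` divides every factor. -/
theorem FA_R_c2_pi_dvd_factor (hodd : p ≠ 2)
    (e : x ^ p + y ^ p = ε * (π ^ (m + 1) * z) ^ p) {η : 𝓞 K} (hη : η ∈ Rts) :
    π ∣ x + η * y := by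
  have hoddp : Odd p := hp.out.odd_of_ne_two hodd
  have hprod := hζ.toInteger_isPrimitiveRoot.pow_add_pow_eq_prod_add_mul x y hoddp
  have h1 : π ∣ ∏ η ∈ Rts, (x + η * y) := by
    rw [← hprod, e, mul_pow, ← pow_mul]
    refine Dvd.dvd.mul_left (Dvd.dvd.mul_right (dvd_pow_self _ ?_) _) _
    exact Nat.mul_ne_zero (Nat.succ_ne_zero m) hp.out.ne_zero
  obtain ⟨η₀, hη₀, h0⟩ := (Prime.dvd_finsetProd_iff hζ.zeta_sub_one_prime' _).mp h1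
  have h2 : x + η * y = (x + η₀ * y) + (η - η₀) * y := by ring
  rw [h2]
  exact dvd_add h0 (Dvd.dvd.mul_right (FA_R_c2_pi_dvd_root_sub hζ hη hη₀) _)

/-- S2: the quotients `A η = (x + η y)/π`. -/
theorem FA_R_c2_exists_A (hodd : p ≠ 2)
    (e : x ^ p + y ^ p = ε * (π ^ (m + 1) * z) ^ p) :
    ∃ A : 𝓞 K → 𝓞 K, ∀ η ∈ Rts, x + η * y = π * A η := by
  have : ∀ η : 𝓞 K, ∃ a : 𝓞 K, η ∈ Rts → x + η * y = π * a := by
    intro η
    by_cases hη : η ∈ Rts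
    · obtain ⟨a, ha⟩ := FA_R_c2_pi_dvd_factor hζ hodd e hη
      exact ⟨a, fun _ => ha⟩
    · exact ⟨0, fun h => absurd h hη⟩
  choose A hA using this
  exact ⟨A, hA⟩

variable {A : 𝓞 K → 𝓞 K}

/-- difference of two quotients. -/
theorem FA_R_c2_A_sub (hA : ∀ η ∈ Rts, x + η * y = π * A η)
    {η₁ η₂ : 𝓞 K} (h₁ : η₁ ∈ Rts) (h₂ : η₂ ∈ Rts) {u : (𝓞 K)ˣ} (hu : η₁ - η₂ = π * u) :
    A η₁ - A η₂ = u * y ∧ η₂ * A η₁ - η₁ * A η₂ = - (u * x) := by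
  have hπ := FA_R_c2_pi_ne_zero hζ
  constructor
  · apply mul_left_cancel₀ hπ
    have e1 := hA η₁ h₁
    have e2 := hA η₂ h₂
    linear_combination (-1 : 𝓞 K) * e1 + e2 + y * hu
  · apply mul_left_cancel₀ hπ
    have e1 := hA η₁ h₁
    have e2 := hA η₂ h₂
    linear_combination (- η₂) * e1 + η₁ * e2 - x * hu

/-- S3: the quotients are pairwise coprime. -/
theorem FA_R_c2_A_coprime (hxy : IsCoprime x y) (hA : ∀ η ∈ Rts, x + η * y = π * A η)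
    {η₁ η₂ : 𝓞 K} (h₁ : η₁ ∈ Rts) (h₂ : η₂ ∈ Rts) (hne : η₁ ≠ η₂) :
    IsCoprime (A η₁) (A η₂) := by
  obtain ⟨u, hu⟩ := FA_R_c2_root_sub hζ h₁ h₂ hne
  obtain ⟨ha, hb⟩ := FA_R_c2_A_sub hζ hA h₁ h₂ hu
  obtain ⟨s, t, hst⟩ := hxy
  refine ⟨(-s * ↑u⁻¹ * η₂ + t * ↑u⁻¹), (s * ↑u⁻¹ * η₁ - t * ↑u⁻¹), ?_⟩
  have hu1 : (↑u⁻¹ : 𝓞 K) * (u : 𝓞 K) = 1 := by simp
  linear_combination hst + (-s * ↑u⁻¹) * hb + (t * ↑u⁻¹) * ha + (s * x + t * y) * hu1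

/-- S4: product of the quotients. -/
theorem FA_R_c2_prod_A (hodd : p ≠ 2)
    (e : x ^ p + y ^ p = ε * (π ^ (m + 1) * z) ^ p)
    (hA : ∀ η ∈ Rts, x + η * y = π * A η) :
    ∏ η ∈ Rts, A η = ε * π ^ (m * p) * z ^ p := by
  have hπ := FA_R_c2_pi_ne_zero hζ
  have hoddp : Odd p := hp.out.odd_of_ne_two hodd
  have hprod := hζ.toInteger_isPrimitiveRoot.pow_add_pow_eq_prod_add_mul x y hoddp
  have hcard : (Rts).card = p := hζ.toInteger_isPrimitiveRoot.card_nthRootsFinset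
  have h1 : ∏ η ∈ Rts, (x + η * y) = π ^ p * ∏ η ∈ Rts, A η := by
    rw [Finset.prod_congr rfl hA, Finset.prod_mul_distrib, Finset.prod_const, hcard]
  apply mul_left_cancel₀ (pow_ne_zero p hπ)
  rw [← h1, ← hprod, e, mul_pow, ← pow_mul, add_mul, one_mul, pow_add]
  ring

/-- the residue ring modulo `π` has `p` elements. -/
theorem FA_R_c2_card_quot : Nat.card (𝓞 K ⧸ span {π}) = p := by
  have hK' : IsCyclotomicExtension {p ^ (0 + 1)} ℚ K := by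
    simpa using ‹IsCyclotomicExtension {p} ℚ K›
  have hζ' : IsPrimitiveRoot ζ (p ^ (0 + 1)) := by simpa using hζ
  have h := IsCyclotomicExtension.Rat.absNorm_span_zeta_sub_one p 0 hζ'
  rw [Ideal.absNorm_apply, Submodule.cardQuot_apply] at h
  exact h

/-- S5: some quotient is divisible by `π` (pigeonhole). -/
theorem FA_R_c2_exists_root_dvd (hy : ¬ π ∣ y)
    (hA : ∀ η ∈ Rts, x + η * y = π * A η) :
    ∃ η₀ ∈ Rts, π ∣ A η₀ := by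
  have hcardQ := FA_R_c2_card_quot hζ
  have hfin : Finite (𝓞 K ⧸ span {π}) :=
    Nat.finite_of_card_ne_zero (by rw [hcardQ]; exact hp.out.ne_zero)
  have hcard : (Rts).card = p := hζ.toInteger_isPrimitiveRoot.card_nthRootsFinset
  let f : (Rts : Finset (𝓞 K)) → (𝓞 K ⧸ span {π}) := fun η => Ideal.Quotient.mk _ (A η.1)
  have hinj : Function.Injective f := by
    rintro ⟨η₁, h₁⟩ ⟨η₂, h₂⟩ h12
    by_contra hne
    have hne' : η₁ ≠ η₂ := fun h => hne (Subtype.ext h)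
    obtain ⟨u, hu⟩ := FA_R_c2_root_sub hζ h₁ h₂ hne'
    obtain ⟨ha, -⟩ := FA_R_c2_A_sub hζ hA h₁ h₂ hu
    have h3 : A η₁ - A η₂ ∈ span {π} := by
      rw [← Ideal.Quotient.eq]; exact h12
    rw [Ideal.mem_span_singleton, ha] at h3
    exact hy ((u.isUnit.dvd_mul_left).mp h3)
  have hbij : Function.Bijective f := by
    apply hinj.bijective_of_nat_card_le
    rw [hcardQ, Nat.card_eq_fintype_card, Fintype.card_coe, hcard]
  obtain ⟨⟨η₀, h₀⟩, hη₀⟩ := hbij.2 0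
  refine ⟨η₀, h₀, ?_⟩
  have : A η₀ ∈ span {π} := by
    rw [← Ideal.Quotient.eq_zero_iff_mem]; exact hη₀
  exact Ideal.mem_span_singleton.mp this

/-- S6: the exponent is at least one. -/
theorem FA_R_c2_one_le_m (hodd : p ≠ 2) (hy : ¬ π ∣ y) (hz : ¬ π ∣ z)
    (e : x ^ p + y ^ p = ε * (π ^ (m + 1) * z) ^ p) : 1 ≤ m := by
  obtain ⟨A, hA⟩ := FA_R_c2_exists_A hζ hodd e
  obtain ⟨η₀, h₀, hdvd⟩ := FA_R_c2_exists_root_dvd hζ hy hA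
  have hprod := FA_R_c2_prod_A hζ hodd e hA
  by_contra hm
  have hm0 : m = 0 := by omega
  subst hm0
  have h1 : π ∣ ∏ η ∈ Rts, A η := hdvd.trans (Finset.dvd_prod_of_mem _ h₀)
  rw [hprod, zero_mul, pow_zero, mul_one] at h1
  have h2 := (ε.isUnit.dvd_mul_left).mp h1
  exact hz (hζ.zeta_sub_one_prime'.dvd_of_dvd_pow h2)

/-- S7: the other quotients are prime to `π`. -/
theorem FA_R_c2_not_dvd_A (hxy : IsCoprime x y)
    (hA : ∀ η ∈ Rts, x + η * y = π * A η) {η₀ : 𝓞 K} (h₀ : η₀ ∈ Rts) (hdvd : π ∣ A η₀)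
    {η : 𝓞 K} (hη : η ∈ Rts) (hne : η ≠ η₀) : ¬ π ∣ A η := by
  intro h
  have hcop := FA_R_c2_A_coprime hζ hxy hA hη h₀ hne
  exact hζ.zeta_sub_one_prime'.not_isUnit (hcop.isUnit_of_dvd' h hdvd)

variable [DecidableEq (𝓞 K)]

/-- S8: the distinguished quotient is `π ^ (m p)` times something prime to `π`. -/
theorem FA_R_c2_exists_B (hodd : p ≠ 2) (hxy : IsCoprime x y) (hz : ¬ π ∣ z)
    (e : x ^ p + y ^ p = ε * (π ^ (m + 1) * z) ^ p)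
    (hA : ∀ η ∈ Rts, x + η * y = π * A η) {η₀ : 𝓞 K} (h₀ : η₀ ∈ Rts) (hdvd : π ∣ A η₀) :
    ∃ B : 𝓞 K, A η₀ = π ^ (m * p) * B ∧ ¬ π ∣ B ∧
      B * ∏ η ∈ (Rts).erase η₀, A η = ε * z ^ p := by
  have hπ := FA_R_c2_pi_ne_zero hζ
  have hprime := hζ.zeta_sub_one_prime'
  have hprod := FA_R_c2_prod_A hζ hodd e hA
  rw [← Finset.mul_prod_erase _ _ h₀] at hprod
  have hnd : ¬ π ∣ ∏ η ∈ (Rts).erase η₀, A η := by
    intro h
    obtain ⟨η, hη, hη'⟩ := (Prime.dvd_finsetProd_iff hprime _).mp h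
    exact FA_R_c2_not_dvd_A hζ hxy hA h₀ hdvd (Finset.mem_of_mem_erase hη)
      (Finset.ne_of_mem_erase hη) hη'
  have h1 : π ^ (m * p) ∣ A η₀ * ∏ η ∈ (Rts).erase η₀, A η := by
    rw [hprod]; exact Dvd.dvd.mul_right (Dvd.dvd.mul_left (dvd_refl _) _) _
  obtain ⟨B, hB⟩ := hprime.pow_dvd_of_dvd_mul_right (m * p) hnd h1
  have hBprod : B * ∏ η ∈ (Rts).erase η₀, A η = ε * z ^ p := by
    apply mul_left_cancel₀ (pow_ne_zero (m * p) hπ)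
    rw [← mul_assoc, ← hB, hprod]; ring
  refine ⟨B, hB, ?_, hBprod⟩
  intro h
  have h2 : π ∣ (ε : 𝓞 K) * z ^ p := by
    rw [← hBprod]; exact Dvd.dvd.mul_right h _
  exact hz (hprime.dvd_of_dvd_pow ((ε.isUnit.dvd_mul_left).mp h2))

/-- S9: the pairwise coprime factors are `p`-th powers up to units. -/
theorem FA_R_c2_exists_pow [IsPrincipalIdealRing (𝓞 K)] (hxy : IsCoprime x y)
    (hA : ∀ η ∈ Rts, x + η * y = π * A η) {η₀ : 𝓞 K} (h₀ : η₀ ∈ Rts) {B : 𝓞 K}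
    (hB : A η₀ = π ^ (m * p) * B)
    (hBprod : B * ∏ η ∈ (Rts).erase η₀, A η = ε * z ^ p) :
    (∃ c₀ : 𝓞 K, Associated (c₀ ^ p) B) ∧
      ∀ η ∈ (Rts).erase η₀, ∃ c : 𝓞 K, Associated (c ^ p) (A η) := by
  have hcopB : ∀ η ∈ (Rts).erase η₀, IsCoprime B (A η) := by
    intro η hη
    have h := FA_R_c2_A_coprime hζ hxy hA h₀ (Finset.mem_of_mem_erase hη)
      (Finset.ne_of_mem_erase hη).symm
    rw [hB] at h
    exact h.of_mul_left_right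
  constructor
  · refine exists_associated_pow_of_associated_pow_mul (c := z)
      (IsCoprime.prod_right hcopB) ⟨ε, ?_⟩
    rw [hBprod]; ring
  · intro η hη
    have hsplit := Finset.mul_prod_erase ((Rts).erase η₀) A hη
    have hcop : IsCoprime (A η) (B * ∏ η' ∈ ((Rts).erase η₀).erase η, A η') := by
      refine IsCoprime.mul_right (hcopB η hη).symm (IsCoprime.prod_right ?_)
      intro η' hη'
      exact FA_R_c2_A_coprime hζ hxy hA (Finset.mem_of_mem_erase hη)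
        (Finset.mem_of_mem_erase (Finset.mem_of_mem_erase hη'))
        (Finset.ne_of_mem_erase hη').symm
    refine exists_associated_pow_of_associated_pow_mul (c := z) hcop ⟨ε, ?_⟩
    rw [show A η * (B * ∏ η' ∈ ((Rts).erase η₀).erase η, A η')
      = B * (A η * ∏ η' ∈ ((Rts).erase η₀).erase η, A η') by ring, hsplit, hBprod]
    ring

omit [DecidableEq (𝓞 K)] in
/-- S10: a new equation with unit coefficients and exponent `m`. -/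
theorem FA_R_c2_exists_solution [IsPrincipalIdealRing (𝓞 K)] (hodd : p ≠ 2)
    (hxy : IsCoprime x y) (hy : ¬ π ∣ y) (hz : ¬ π ∣ z)
    (e : x ^ p + y ^ p = ε * (π ^ (m + 1) * z) ^ p) :
    ∃ (x' y' z' : 𝓞 K) (ε₁ ε₂ ε₃ : (𝓞 K)ˣ), IsCoprime x' y' ∧ ¬ π ∣ x' ∧ ¬ π ∣ y' ∧ ¬ π ∣ z' ∧
      ε₁ * x' ^ p + ε₂ * y' ^ p = ε₃ * (π ^ m * z') ^ p := by
  classical
  have hπ := FA_R_c2_pi_ne_zero hζ
  have hprime := hζ.zeta_sub_one_prime'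
  have hZ := hζ.toInteger_isPrimitiveRoot
  obtain ⟨A, hA⟩ := FA_R_c2_exists_A hζ hodd e
  obtain ⟨η₀, h₀, hdvd⟩ := FA_R_c2_exists_root_dvd hζ hy hA
  obtain ⟨B, hB, hBnd, hBprod⟩ := FA_R_c2_exists_B hζ hodd hxy hz e hA h₀ hdvd
  obtain ⟨⟨c₀, hc₀⟩, hc⟩ := FA_R_c2_exists_pow hζ hxy hA h₀ hB hBprod
  have hη₀pow : η₀ ^ p = 1 := (mem_nthRootsFinset hp.out.pos 1).mp h₀
  have hη₀ne : η₀ ≠ 0 := by
    intro h; rw [h, zero_pow hp.out.ne_zero] at hη₀pow; exact zero_ne_one hη₀pow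
  have hZ1 : hζ.toInteger ≠ 1 := hZ.ne_one hp.out.one_lt
  have hZ2 : hζ.toInteger ^ 2 ≠ 1 := by
    intro h
    have := (hZ.pow_eq_one_iff_dvd 2).mp h
    have h2 := Nat.le_of_dvd (by norm_num) this
    have := hp.out.two_le
    omega
  -- the two other roots
  have h₁ : η₀ * hζ.toInteger ∈ Rts := by
    rw [mem_nthRootsFinset hp.out.pos 1, mul_pow, hη₀pow, hZ.pow_eq_one, one_mul]
  have h₂ : η₀ * hζ.toInteger ^ 2 ∈ Rts := by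
    rw [mem_nthRootsFinset hp.out.pos 1, mul_pow, hη₀pow, one_mul, ← pow_mul, mul_comm 2 p,
      pow_mul, hZ.pow_eq_one, one_pow]
  have hne10 : η₀ * hζ.toInteger ≠ η₀ := by
    intro h
    exact hZ1 (mul_left_cancel₀ hη₀ne (by rw [h, mul_one]))
  have hne20 : η₀ * hζ.toInteger ^ 2 ≠ η₀ := by
    intro h
    exact hZ2 (mul_left_cancel₀ hη₀ne (by rw [h, mul_one]))
  have hne12 : η₀ * hζ.toInteger ≠ η₀ * hζ.toInteger ^ 2 := by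
    intro h
    have h3 := mul_left_cancel₀ hη₀ne h
    have hZne : hζ.toInteger ≠ 0 := hZ.ne_zero hp.out.ne_zero
    apply hZ1
    apply mul_left_cancel₀ hZne
    rw [mul_one, ← pow_two]; exact h3.symm
  have hm₁ : η₀ * hζ.toInteger ∈ (Rts).erase η₀ := Finset.mem_erase.mpr ⟨hne10, h₁⟩
  have hm₂ : η₀ * hζ.toInteger ^ 2 ∈ (Rts).erase η₀ := Finset.mem_erase.mpr ⟨hne20, h₂⟩
  obtain ⟨c₁, hc₁⟩ := hc _ hm₁
  obtain ⟨c₂, hc₂⟩ := hc _ hm₂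
  obtain ⟨v₀, hv₀⟩ := hc₀
  obtain ⟨v₁, hv₁⟩ := hc₁
  obtain ⟨v₂, hv₂⟩ := hc₂
  obtain ⟨u₀, hu₀⟩ := FA_R_c2_root_sub hζ h₁ h₂ hne12
  obtain ⟨u₁, hu₁⟩ := FA_R_c2_root_sub hζ h₂ h₀ hne20
  obtain ⟨u₂, hu₂⟩ := FA_R_c2_root_sub hζ h₀ h₁ hne10.symm
  have e₀ := hA _ h₀
  have e₁ := hA _ h₁
  have e₂ := hA _ h₂
  have hnd₁ := FA_R_c2_not_dvd_A hζ hxy hA h₀ hdvd h₁ hne10
  have hnd₂ := FA_R_c2_not_dvd_A hζ hxy hA h₀ hdvd h₂ hne20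
  have hcop12 := FA_R_c2_A_coprime hζ hxy hA h₁ h₂ hne12
  refine ⟨c₁, c₂, c₀, u₁ * v₁, u₂ * v₂, -(u₀ * v₀), ?_, ?_, ?_, ?_, ?_⟩
  · rw [← hv₁, ← hv₂] at hcop12
    have h3 := hcop12.of_mul_left_left.of_mul_right_left
    exact (IsCoprime.pow_iff hp.out.pos hp.out.pos).mp h3
  · intro h
    apply hnd₁
    rw [← hv₁]
    exact Dvd.dvd.mul_right (dvd_pow h hp.out.ne_zero) _
  · intro h
    apply hnd₂
    rw [← hv₂]
    exact Dvd.dvd.mul_right (dvd_pow h hp.out.ne_zero) _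
  · intro h
    apply hBnd
    rw [← hv₀]
    exact Dvd.dvd.mul_right (dvd_pow h hp.out.ne_zero) _
  · apply mul_left_cancel₀ (mul_ne_zero hπ hπ)
    have hrel : (η₀ * hζ.toInteger - η₀ * hζ.toInteger ^ 2) * (x + η₀ * y)
        + (η₀ * hζ.toInteger ^ 2 - η₀) * (x + η₀ * hζ.toInteger * y)
        + (η₀ - η₀ * hζ.toInteger) * (x + η₀ * hζ.toInteger ^ 2 * y) = 0 := by ring
    rw [hu₀, hu₁, hu₂, e₀, e₁, e₂, hB, ← hv₀, ← hv₁, ← hv₂] at hrel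
    rw [mul_pow, ← pow_mul]
    push_cast
    linear_combination hrel

omit [DecidableEq (𝓞 K)] in
/-- `p` divides `π ^ (m p)` as soon as `1 ≤ m`. -/
theorem FA_R_c2_p_dvd_pi_pow (hm : 1 ≤ m) : (p : 𝓞 K) ∣ π ^ (m * p) := by
  have h := IsCyclotomicExtension.Rat.associated_zeta_sub_one_pow_prime p hζ
  refine h.symm.dvd.trans (pow_dvd_pow _ ?_)
  calc p - 1 ≤ p := Nat.sub_le _ _
    _ = 1 * p := (one_mul p).symm
    _ ≤ m * p := Nat.mul_le_mul_right p hm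

omit [DecidableEq (𝓞 K)] in
/-- S11: Kummer's lemma turns the unit coefficients into `1`: descent `m + 1 ↦ m`. -/
theorem FA_R_c2_descent [IsPrincipalIdealRing (𝓞 K)] (hodd : p ≠ 2)
    (hKum : ∀ (u : (𝓞 K)ˣ) (n : ℤ), (p : 𝓞 K) ∣ ((u : 𝓞 K) - (n : 𝓞 K)) →
      ∃ v : (𝓞 K)ˣ, u = v ^ p)
    (hxy : IsCoprime x y) (hy : ¬ π ∣ y) (hz : ¬ π ∣ z)
    (e : x ^ p + y ^ p = ε * (π ^ (m + 1) * z) ^ p) :
    ∃ (x' y' z' : 𝓞 K) (ε' : (𝓞 K)ˣ), IsCoprime x' y' ∧ ¬ π ∣ y' ∧ ¬ π ∣ z' ∧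
      x' ^ p + y' ^ p = ε' * (π ^ m * z') ^ p := by
  have hoddp : Odd p := hp.out.odd_of_ne_two hodd
  have hm := FA_R_c2_one_le_m hζ hodd hy hz e
  obtain ⟨x', y', z', ε₁, ε₂, ε₃, hcop, hx', hy', hz', e'⟩ :=
    FA_R_c2_exists_solution hζ hodd hxy hy hz e
  -- `w = ε₂ / ε₁` is congruent to an integer mod `p`
  have hpdvd : (p : 𝓞 K) ∣ x' ^ p + ((ε₂ * ε₁⁻¹ : (𝓞 K)ˣ) : 𝓞 K) * y' ^ p := by
    have h1 : (p : 𝓞 K) ∣ (ε₁ : 𝓞 K) * x' ^ p + ε₂ * y' ^ p := by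
      rw [e', mul_pow, ← pow_mul]
      exact Dvd.dvd.mul_left (Dvd.dvd.mul_right (FA_R_c2_p_dvd_pi_pow hζ hm) _) _
    have h2 : x' ^ p + ((ε₂ * ε₁⁻¹ : (𝓞 K)ˣ) : 𝓞 K) * y' ^ p
        = (↑ε₁⁻¹ : 𝓞 K) * ((ε₁ : 𝓞 K) * x' ^ p + ε₂ * y' ^ p) := by
      have : (↑ε₁⁻¹ : 𝓞 K) * (ε₁ : 𝓞 K) = 1 := by simp
      push_cast
      linear_combination (-(x' ^ p)) * this
    rw [h2]
    exact Dvd.dvd.mul_left h1 _
  obtain ⟨a, b, hab⟩ := IsCyclotomicExtension.Rat.isCoprime_of_not_zeta_sub_one_dvd p hζ hy'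
  obtain ⟨r, hr⟩ := exists_add_pow_prime_eq hp.out (a * (p : 𝓞 K)) (b * y')
  obtain ⟨n, hn⟩ := FA_R_c2_exists_int_pow_sub hζ (-(b * x'))
  have hcong : (p : 𝓞 K) ∣ (((ε₂ * ε₁⁻¹ : (𝓞 K)ˣ) : 𝓞 K) - (n : 𝓞 K)) := by
    obtain ⟨d₁, hd₁⟩ := hpdvd
    obtain ⟨d₂, hd₂⟩ := hn
    rw [hab, one_pow] at hr
    have hpp : (p : 𝓞 K) ^ p = (p : 𝓞 K) * (p : 𝓞 K) ^ (p - 1) := by
      rw [← pow_succ', Nat.sub_add_cancel hp.out.one_le]
    rw [hoddp.neg_pow] at hd₂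
    refine ⟨((ε₂ * ε₁⁻¹ : (𝓞 K)ˣ) : 𝓞 K) * (a ^ p * (p : 𝓞 K) ^ (p - 1)
      + a * (p : 𝓞 K) * b * y' * r) + b ^ p * d₁ + d₂, ?_⟩
    rw [mul_pow] at hd₂
    rw [mul_pow, mul_pow] at hr
    linear_combination ((ε₂ * ε₁⁻¹ : (𝓞 K)ˣ) : 𝓞 K) * hr
      + (((ε₂ * ε₁⁻¹ : (𝓞 K)ˣ) : 𝓞 K) * a ^ p) * hpp + b ^ p * hd₁ + hd₂
  obtain ⟨t, ht⟩ := hKum _ n hcong
  refine ⟨x', t * y', z', ε₃ * ε₁⁻¹, ?_, ?_, hz', ?_⟩
  · exact (isCoprime_mul_unit_left_right t.isUnit x' y').mpr hcop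
  · intro h
    exact hy' ((t.isUnit.dvd_mul_left).mp h)
  · have h3 : ((t : 𝓞 K)) ^ p = ((ε₂ * ε₁⁻¹ : (𝓞 K)ˣ) : 𝓞 K) := by
      rw [ht]; push_cast; rfl
    have : (↑ε₁⁻¹ : 𝓞 K) * (ε₁ : 𝓞 K) = 1 := by simp
    rw [mul_pow, h3]
    push_cast
    linear_combination (↑ε₁⁻¹ : 𝓞 K) * e' + (-(x' ^ p)) * this

omit [DecidableEq (𝓞 K)] in
/-- The generalised equation has no solution (induction on the exponent of `π`). -/
theorem FA_R_c2_not_exists [IsPrincipalIdealRing (𝓞 K)] (hodd : p ≠ 2)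
    (hKum : ∀ (u : (𝓞 K)ˣ) (n : ℤ), (p : 𝓞 K) ∣ ((u : 𝓞 K) - (n : 𝓞 K)) →
      ∃ v : (𝓞 K)ˣ, u = v ^ p) (m : ℕ) :
    ¬ ∃ (x y z : 𝓞 K) (ε : (𝓞 K)ˣ), IsCoprime x y ∧ ¬ π ∣ y ∧ ¬ π ∣ z ∧
      x ^ p + y ^ p = ε * (π ^ (m + 1) * z) ^ p := by
  induction m with
  | zero =>
    rintro ⟨x, y, z, ε, hxy, hy, hz, e⟩
    have := FA_R_c2_one_le_m hζ hodd hy hz e
    omega
  | succ m ih =>
    rintro ⟨x, y, z, ε, hxy, hy, hz, e⟩
    exact ih (FA_R_c2_descent hζ hodd hKum hxy hy hz e)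

omit [DecidableEq (𝓞 K)] in
include hζ in
/-- Case II over `ℤ`, normalised so that `p ∣ z`. -/
theorem FA_R_c2_int [IsPrincipalIdealRing (𝓞 K)] (hodd : p ≠ 2)
    (hKum : ∀ (u : (𝓞 K)ˣ) (n : ℤ), (p : 𝓞 K) ∣ ((u : 𝓞 K) - (n : 𝓞 K)) →
      ∃ v : (𝓞 K)ˣ, u = v ^ p)
    (a b c : ℤ) (hc0 : c ≠ 0) (hab : IsCoprime a b) (hpc : (p : ℤ) ∣ c) :
    a ^ p + b ^ p ≠ c ^ p := by
  intro e
  have hpprime : Prime (p : ℤ) := Nat.prime_iff_prime_int.mp hp.out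
  have hpb : ¬ (p : ℤ) ∣ b := by
    intro h
    have hpa : (p : ℤ) ∣ a := by
      have h2 : (p : ℤ) ∣ a ^ p := by
        have h1 : a ^ p = c ^ p - b ^ p := by linarith
        rw [h1]; exact dvd_sub (dvd_pow hpc hp.out.ne_zero) (dvd_pow h hp.out.ne_zero)
      exact hpprime.dvd_of_dvd_pow h2
    exact hpprime.not_isUnit (hab.isUnit_of_dvd' hpa h)
  have hfin : FiniteMultiplicity (p : ℤ) c := by
    rw [Int.finiteMultiplicity_iff]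
    refine ⟨?_, hc0⟩
    simpa using hp.out.ne_one
  obtain ⟨c', hc', hnd⟩ := hfin.exists_eq_pow_mul_and_not_dvd
  set k := multiplicity (p : ℤ) c with hk
  have hk1 : 1 ≤ k := by
    by_contra h
    have hk0 : k = 0 := by omega
    rw [hk0, pow_zero, one_mul] at hc'
    exact hnd (hc' ▸ hpc)
  obtain ⟨u, hu⟩ := IsCyclotomicExtension.Rat.associated_zeta_sub_one_pow_prime p hζ
  have hM : 1 ≤ (p - 1) * k := by
    have : 1 ≤ p - 1 := by have := hp.out.two_le; omega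
    exact Nat.one_le_iff_ne_zero.mpr (Nat.mul_ne_zero (by omega) (by omega))
  obtain ⟨m, hm⟩ : ∃ m, (p - 1) * k = m + 1 := ⟨(p - 1) * k - 1, by omega⟩
  refine FA_R_c2_not_exists hζ hodd hKum m ⟨(a : 𝓞 K), (b : 𝓞 K), (c' : 𝓞 K), (u ^ k) ^ p,
    hab.intCast, ?_, ?_, ?_⟩
  · rwa [IsCyclotomicExtension.Rat.zeta_sub_one_dvd_intCast_iff' p hζ]
  · rwa [IsCyclotomicExtension.Rat.zeta_sub_one_dvd_intCast_iff' p hζ]
  · have e' := congrArg (Int.cast : ℤ → 𝓞 K) e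
    push_cast at e'
    rw [e', hc']
    push_cast
    rw [← hu, ← hm, pow_mul]
    ring

end Step

end Fermat.Agent.R
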