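import Fermat.Agent.R.Interface
import Fermat.Agent.R.CaseIIStep

/-!
# Project R, track R3 (item 66): Case II of Fermat's Last Theorem for `p`
from class number one + Kummer's lemma.  `FA_R_caseII : FA_R_Target_CaseII`.
-/

set_option autoImplicit false

open NumberField

namespace Fermat.Agent.R

/-- no prime divides all of `a, b, c` when their gcd is one. -/
theorem FA_R_c2_gcd_aux {a b c : ℤ} (hgcd : ({a, b, c} : Finset ℤ).gcd id = 1) {q : ℤ}
    (hq : Prime q) (h1 : q ∣ a) (h2 : q ∣ b) (h3 : q ∣ c) : False := by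
  apply hq.not_dvd_one
  rw [← hgcd]
  refine Finset.dvd_gcd fun x hx => ?_
  simp only [Finset.mem_insert, Finset.mem_singleton] at hx
  rcases hx with rfl | rfl | rfl <;> simpa

theorem FA_R_caseII : FA_R_Target_CaseII := by
  intro p hp h5 hPID hKum a b c ha hb hc hgcd hdvd heq
  have : Fact p.Prime := ⟨hp⟩
  have : NeZero p := ⟨hp.ne_zero⟩
  have : NeZero ((p : ℕ) : ℚ) := ⟨by exact_mod_cast hp.ne_zero⟩
  have : IsCyclotomicExtension {p} ℚ (CyclotomicField p ℚ) :=
    CyclotomicField.isCyclotomicExtension p ℚ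
  have hodd : p ≠ 2 := by omega
  have hoddp : Odd p := hp.odd_of_ne_two hodd
  have : IsPrincipalIdealRing (𝓞 (CyclotomicField p ℚ)) := hPID
  have hζ := IsCyclotomicExtension.zeta_spec p ℚ (CyclotomicField p ℚ)
  have core := FA_R_c2_int hζ hodd hKum
  have hp0 : p ≠ 0 := hp.ne_zero
  have hpprime : Prime (p : ℤ) := Nat.prime_iff_prime_int.mp hp
  rcases hpprime.dvd_mul.mp hdvd with h | h3c
  · rcases hpprime.dvd_mul.mp h with h3a | h3b
    · -- `p ∣ a`: use `c ^ p + (-b) ^ p = a ^ p`
      have hcb : IsCoprime c b := by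
        refine isCoprime_of_prime_dvd (fun h => hc h.1) fun q hq hqc hqb => ?_
        have hqa : q ∣ a := by
          have h2 : q ∣ a ^ p := by
            have h1 : a ^ p = c ^ p - b ^ p := by linarith
            rw [h1]; exact dvd_sub (dvd_pow hqc hp0) (dvd_pow hqb hp0)
          exact hq.dvd_of_dvd_pow h2
        exact FA_R_c2_gcd_aux hgcd hq hqa hqb hqc
      refine core c (-b) a ha hcb.neg_right h3a ?_
      rw [hoddp.neg_pow]; linarith
    · -- `p ∣ b`: use `c ^ p + (-a) ^ p = b ^ p`
      have hca : IsCoprime c a := by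
        refine isCoprime_of_prime_dvd (fun h => hc h.1) fun q hq hqc hqa => ?_
        have hqb : q ∣ b := by
          have h2 : q ∣ b ^ p := by
            have h1 : b ^ p = c ^ p - a ^ p := by linarith
            rw [h1]; exact dvd_sub (dvd_pow hqc hp0) (dvd_pow hqa hp0)
          exact hq.dvd_of_dvd_pow h2
        exact FA_R_c2_gcd_aux hgcd hq hqa hqb hqc
      refine core c (-a) b hb hca.neg_right h3b ?_
      rw [hoddp.neg_pow]; linarith
  · -- `p ∣ c`
    have hab : IsCoprime a b := by
      refine isCoprime_of_prime_dvd (fun h => ha h.1) fun q hq hqa hqb => ?_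
      have hqc : q ∣ c := by
        have h2 : q ∣ c ^ p := by
          rw [← heq]; exact dvd_add (dvd_pow hqa hp0) (dvd_pow hqb hp0)
        exact hq.dvd_of_dvd_pow h2
      exact FA_R_c2_gcd_aux hgcd hq hqa hqb hqc
    exact core a b c hc hab h3c heq

end Fermat.Agent.R
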