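import Fermat.Agent.R.CaseIBasic

/-!
# Project R, track R3 (Case II): `λ`-adic analysis of the factors `x + η y`

`λ = ζ - 1`, `K = ℚ(ζ_p)`, `p` an odd prime.

* `FA_R_exists_int_lam_dvd_sub` : every element of `ℤ[ζ]` is congruent to a rational integer mod `λ`.
* `FA_R_lam_dvd_add_mul` (B1) : `λ ∣ x + y → λ ∣ x + η y` for every `p`-th root of unity `η`.
* `FA_R_exists_unique_lam_sq_dvd` (B2) : if `λ ∤ y` and `λ ∣ x + y`, there is exactly one `i < p`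
  with `λ² ∣ x + ζ^i y`.
* `FA_R_caseII_factor_coprime` (B3) : the quotients `(x + η y)/λ` are pairwise coprime.
* `FA_R_caseII_unit_congr` (B4) : `p ∣ X^p + ε Y^p`, `λ ∤ Y` ⟹ `ε` is congruent to a rational
  integer mod `p` (the input of Kummer's lemma).
-/

set_option autoImplicit false

open NumberField IsCyclotomicExtension Polynomial

namespace Fermat.Agent.R

section Lam

variable {p : ℕ} [hp : Fact p.Prime] {K : Type*} [Field K] [NumberField K]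
  [IsCyclotomicExtension {p} ℚ K] {ζ : K} (hζ : IsPrimitiveRoot ζ p)

include hζ

/-- Every element of `ℤ[ζ]` is congruent to a rational integer modulo `ζ - 1`. -/
theorem FA_R_exists_int_lam_dvd_sub (x : 𝓞 K) : ∃ n : ℤ, hζ.toInteger - 1 ∣ x - (n : 𝓞 K) := by
  have htop : Algebra.adjoin ℤ ({hζ.toInteger} : Set (𝓞 K)) = ⊤ :=
    IsCyclotomicExtension.adjoin_primitive_root_eq_top hζ.toInteger_isPrimitiveRoot
  have hx : x ∈ Algebra.adjoin ℤ ({hζ.toInteger} : Set (𝓞 K)) := by rw [htop]; trivial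
  induction hx using Algebra.adjoin_induction with
  | mem y hy =>
    rw [Set.mem_singleton_iff] at hy
    exact ⟨1, by rw [hy]; simp⟩
  | algebraMap r => exact ⟨r, by simp⟩
  | add y z _ _ hy hz =>
    obtain ⟨n, hn⟩ := hy
    obtain ⟨m, hm⟩ := hz
    refine ⟨n + m, ?_⟩
    have : y + z - ((n + m : ℤ) : 𝓞 K) = (y - n) + (z - m) := by push_cast; ring
    rw [this]; exact dvd_add hn hm
  | mul y z _ _ hy hz =>
    obtain ⟨n, hn⟩ := hy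
    obtain ⟨m, hm⟩ := hz
    refine ⟨n * m, ?_⟩
    have : y * z - ((n * m : ℤ) : 𝓞 K) = y * (z - m) + m * (y - n) := by push_cast; ring
    rw [this]; exact dvd_add (dvd_mul_of_dvd_right hm _) (dvd_mul_of_dvd_right hn _)

/-- `ζ^i - 1 = (ζ - 1) * ∑_{j<i} ζ^j`. -/
theorem FA_R_zeta_pow_sub_one (i : ℕ) :
    hζ.toInteger ^ i - 1 = (hζ.toInteger - 1) * ∑ j ∈ Finset.range i, hζ.toInteger ^ j := by
  rw [mul_comm, geom_sum_mul]

/-- `∑_{j<i} ζ^j ≡ i` modulo `ζ - 1`. -/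
theorem FA_R_lam_dvd_geom_sum_sub (i : ℕ) :
    hζ.toInteger - 1 ∣ (∑ j ∈ Finset.range i, hζ.toInteger ^ j) - (i : 𝓞 K) := by
  induction i with
  | zero => simp
  | succ i ih =>
    rw [Finset.sum_range_succ]
    have : ∑ j ∈ Finset.range i, hζ.toInteger ^ j + hζ.toInteger ^ i - ((i + 1 : ℕ) : 𝓞 K)
        = (∑ j ∈ Finset.range i, hζ.toInteger ^ j - (i : 𝓞 K)) + (hζ.toInteger ^ i - 1) := by
      push_cast; ring
    rw [this]
    exact dvd_add ih (by simpa using sub_dvd_pow_sub_pow hζ.toInteger 1 i)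

/-- (B1) If `λ ∣ x + y` then `λ ∣ x + η y` for every `p`-th root of unity `η`. -/
theorem FA_R_lam_dvd_add_mul {x y : 𝓞 K} (h : hζ.toInteger - 1 ∣ x + y) {η : 𝓞 K}
    (hη : η ∈ nthRootsFinset p (1 : 𝓞 K)) : hζ.toInteger - 1 ∣ x + η * y := by
  have h1 : hζ.toInteger - 1 ∣ η - 1 :=
    hζ.toInteger_isPrimitiveRoot.sub_one_dvd_sub hp.out hη (one_mem_nthRootsFinset hp.out.pos)
  have : x + η * y = (x + y) + (η - 1) * y := by ring
  rw [this]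
  exact dvd_add h (dvd_mul_of_dvd_left h1 _)

/-- Key computation for (B2): if `x + y = λ t` then `x + ζ^i y = λ (t + s_i y)` with
`s_i = ∑_{j<i} ζ^j`. -/
theorem FA_R_add_zeta_pow_mul {x y t : 𝓞 K} (h : x + y = (hζ.toInteger - 1) * t) (i : ℕ) :
    x + hζ.toInteger ^ i * y
      = (hζ.toInteger - 1) * (t + (∑ j ∈ Finset.range i, hζ.toInteger ^ j) * y) := by
  have : x + hζ.toInteger ^ i * y = (x + y) + (hζ.toInteger ^ i - 1) * y := by ring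
  rw [this, h, FA_R_zeta_pow_sub_one hζ i]; ring

/-- `λ² ∣ x + ζ^i y ↔ p ∣ n_t + i n_y`, where `x + y = λ t`, `t ≡ n_t`, `y ≡ n_y` mod `λ`. -/
theorem FA_R_lam_sq_dvd_iff (hodd : p ≠ 2) {x y t : 𝓞 K} (h : x + y = (hζ.toInteger - 1) * t)
    {nt ny : ℤ} (hnt : hζ.toInteger - 1 ∣ t - (nt : 𝓞 K))
    (hny : hζ.toInteger - 1 ∣ y - (ny : 𝓞 K)) (i : ℕ) :
    (hζ.toInteger - 1) ^ 2 ∣ x + hζ.toInteger ^ i * y ↔ (p : ℤ) ∣ nt + i * ny := by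
  have hlam0 : hζ.toInteger - 1 ≠ 0 := (hζ.zeta_sub_one_prime').ne_zero
  rw [FA_R_add_zeta_pow_mul hζ h i, pow_two, mul_dvd_mul_iff_left hlam0,
    ← FA_R_lam_dvd_int_iff hζ hodd]
  have hs := FA_R_lam_dvd_geom_sum_sub hζ i
  have hdiff : hζ.toInteger - 1 ∣ (t + (∑ j ∈ Finset.range i, hζ.toInteger ^ j) * y)
      - ((nt + i * ny : ℤ) : 𝓞 K) := by
    have : (t + (∑ j ∈ Finset.range i, hζ.toInteger ^ j) * y) - ((nt + i * ny : ℤ) : 𝓞 K)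
        = (t - nt) + ((∑ j ∈ Finset.range i, hζ.toInteger ^ j) - (i : 𝓞 K)) * y
          + (i : 𝓞 K) * (y - ny) := by push_cast; ring
    rw [this]
    exact dvd_add (dvd_add hnt (dvd_mul_of_dvd_left hs _)) (dvd_mul_of_dvd_right hny _)
  constructor
  · intro h1
    have := dvd_sub h1 hdiff
    simpa using this
  · intro h1
    have := dvd_add hdiff h1
    simpa using this

/-- (B2) If `λ ∤ y` and `λ ∣ x + y`, there is exactly one `i < p` with `λ² ∣ x + ζ^i y`. -/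
theorem FA_R_exists_unique_lam_sq_dvd (hodd : p ≠ 2) {x y : 𝓞 K}
    (hy : ¬ hζ.toInteger - 1 ∣ y) (hxy : hζ.toInteger - 1 ∣ x + y) :
    ∃ i < p, (hζ.toInteger - 1) ^ 2 ∣ x + hζ.toInteger ^ i * y ∧
      ∀ j < p, (hζ.toInteger - 1) ^ 2 ∣ x + hζ.toInteger ^ j * y → j = i := by
  obtain ⟨t, ht⟩ := hxy
  obtain ⟨nt, hnt⟩ := FA_R_exists_int_lam_dvd_sub hζ t
  obtain ⟨ny, hny⟩ := FA_R_exists_int_lam_dvd_sub hζ y
  have hpny : ¬ (p : ℤ) ∣ ny := by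
    intro h
    rw [← FA_R_lam_dvd_int_iff hζ hodd] at h
    apply hy
    have := dvd_add hny h
    simpa using this
  have hny0 : (ny : ZMod p) ≠ 0 := by
    rwa [Ne, ZMod.intCast_zmod_eq_zero_iff_dvd]
  -- the solution `i = -nt / ny` in `ZMod p`
  set i₀ : ZMod p := -(nt : ZMod p) * (ny : ZMod p)⁻¹ with hi₀
  have hiff : ∀ j : ℕ, (p : ℤ) ∣ nt + j * ny ↔ (j : ZMod p) = i₀ := by
    intro j
    rw [← ZMod.intCast_zmod_eq_zero_iff_dvd]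
    push_cast
    constructor
    · intro h
      rw [hi₀]
      field_simp
      linear_combination h
    · intro h
      rw [h, hi₀]
      field_simp
      ring
  refine ⟨i₀.val, ZMod.val_lt i₀, ?_, ?_⟩
  · rw [FA_R_lam_sq_dvd_iff hζ hodd ht hnt hny, hiff]
    exact ZMod.natCast_zmod_val i₀
  · intro j hj hdvd
    rw [FA_R_lam_sq_dvd_iff hζ hodd ht hnt hny, hiff] at hdvd
    rw [← hdvd, ZMod.val_natCast, Nat.mod_eq_of_lt hj]

/-- (B3) The quotients `(x + η y)/λ` are pairwise coprime when `x, y` are coprime. -/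
theorem FA_R_caseII_factor_coprime {x y : 𝓞 K} (hxy : IsCoprime x y) {η₁ η₂ : 𝓞 K}
    (h₁ : η₁ ∈ nthRootsFinset p (1 : 𝓞 K)) (h₂ : η₂ ∈ nthRootsFinset p (1 : 𝓞 K))
    (hne : η₁ ≠ η₂) {u₁ u₂ : 𝓞 K} (hu₁ : x + η₁ * y = (hζ.toInteger - 1) * u₁)
    (hu₂ : x + η₂ * y = (hζ.toInteger - 1) * u₂) : IsCoprime u₁ u₂ := by
  have hlam0 : hζ.toInteger - 1 ≠ 0 := (hζ.zeta_sub_one_prime').ne_zero
  obtain ⟨ε, hε⟩ : Associated (hζ.toInteger - 1) (η₁ - η₂) :=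
    hζ.toInteger_isPrimitiveRoot.nthRootsFinset_pairwise_associated_sub_one_sub_of_prime
      hp.out h₁ h₂ hne
  -- `u₁ - u₂ = ε y` and `η₁ u₂ - η₂ u₁ = ε x`
  have e1 : u₁ - u₂ = ε * y := by
    apply mul_left_cancel₀ hlam0
    have : (hζ.toInteger - 1) * (u₁ - u₂) = (η₁ - η₂) * y := by
      rw [mul_sub, ← hu₁, ← hu₂]; ring
    rw [this, ← hε]; ring
  have e2 : η₁ * u₂ - η₂ * u₁ = ε * x := by
    apply mul_left_cancel₀ hlam0
    have : (hζ.toInteger - 1) * (η₁ * u₂ - η₂ * u₁) = (η₁ - η₂) * x := by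
      have h1 : (hζ.toInteger - 1) * (η₁ * u₂ - η₂ * u₁)
          = η₁ * ((hζ.toInteger - 1) * u₂) - η₂ * ((hζ.toInteger - 1) * u₁) := by ring
      rw [h1, ← hu₁, ← hu₂]; ring
    rw [this, ← hε]; ring
  obtain ⟨a, b, hab⟩ := hxy
  refine ⟨(ε⁻¹ : (𝓞 K)ˣ) * (b - a * η₂), (ε⁻¹ : (𝓞 K)ˣ) * (a * η₁ - b), ?_⟩
  have h3 : ((ε⁻¹ : (𝓞 K)ˣ) : 𝓞 K) * (ε : 𝓞 K) = 1 := by simp
  calc ((ε⁻¹ : (𝓞 K)ˣ) : 𝓞 K) * (b - a * η₂) * u₁ + ((ε⁻¹ : (𝓞 K)ˣ) : 𝓞 K) * (a * η₁ - b) * u₂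
      = ((ε⁻¹ : (𝓞 K)ˣ) : 𝓞 K) * (a * (η₁ * u₂ - η₂ * u₁) + b * (u₁ - u₂)) := by ring
    _ = ((ε⁻¹ : (𝓞 K)ˣ) : 𝓞 K) * (ε : 𝓞 K) * (a * x + b * y) := by rw [e1, e2]; ring
    _ = 1 := by rw [h3, hab, one_mul]

/-- If `λ ∤ y` then `y ^ p` is congruent modulo `p` to an integer prime to `p`. -/
theorem FA_R_exists_int_pow_prime_not_dvd (hodd : p ≠ 2) {y : 𝓞 K}
    (hy : ¬ hζ.toInteger - 1 ∣ y) :
    ∃ n : ℤ, (p : 𝓞 K) ∣ y ^ p - (n : 𝓞 K) ∧ ¬ (p : ℤ) ∣ n := by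
  obtain ⟨n, hn⟩ := FA_R_exists_int_pow_prime hζ y
  refine ⟨n, hn, fun h => hy ?_⟩
  have hlam : Prime (hζ.toInteger - 1) := hζ.zeta_sub_one_prime'
  have h1 : hζ.toInteger - 1 ∣ (n : 𝓞 K) := (FA_R_lam_dvd_int_iff hζ hodd n).mpr h
  have h2 : hζ.toInteger - 1 ∣ y ^ p - (n : 𝓞 K) := (hζ.toInteger_sub_one_dvd_prime').trans hn
  have h3 : hζ.toInteger - 1 ∣ y ^ p := by
    have := dvd_add h2 h1
    simpa using this
  exact hlam.dvd_of_dvd_pow h3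

/-- (B4) If `p ∣ X^p + ε Y^p` and `λ ∤ Y`, then `ε` is congruent to a rational integer modulo
`p`: this is the hypothesis of Kummer's lemma. -/
theorem FA_R_caseII_unit_congr (hodd : p ≠ 2) {X Y ε : 𝓞 K} (hY : ¬ hζ.toInteger - 1 ∣ Y)
    (h : (p : 𝓞 K) ∣ X ^ p + ε * Y ^ p) : ∃ n : ℤ, (p : 𝓞 K) ∣ ε - (n : 𝓞 K) := by
  obtain ⟨a, ha⟩ := FA_R_exists_int_pow_prime hζ X
  obtain ⟨b, hb, hpb⟩ := FA_R_exists_int_pow_prime_not_dvd hζ hodd hY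
  -- `b` is invertible modulo `p`
  have hcop : IsCoprime (p : ℤ) b :=
    ((Nat.prime_iff_prime_int.mp hp.out).coprime_iff_not_dvd).mpr hpb
  obtain ⟨u, v, huv⟩ := hcop
  -- `u p + v b = 1`
  refine ⟨-(a * v), ?_⟩
  have h1 : (p : 𝓞 K) ∣ (a : 𝓞 K) + ε * b := by
    have : (a : 𝓞 K) + ε * b = (X ^ p + ε * Y ^ p) - (X ^ p - a) - ε * (Y ^ p - b) := by ring
    rw [this]
    exact dvd_sub (dvd_sub h ha) (dvd_mul_of_dvd_right hb _)
  have h2 : ((u * p + v * b : ℤ) : 𝓞 K) = 1 := by rw [huv]; simp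
  push_cast at h2
  have h3 : (p : 𝓞 K) ∣ 1 - (v : 𝓞 K) * b := by
    refine ⟨u, ?_⟩
    rw [← h2]; ring
  have h4 : ε - ((-(a * v) : ℤ) : 𝓞 K)
      = (v : 𝓞 K) * ((a : 𝓞 K) + ε * b) + ε * (1 - (v : 𝓞 K) * b) := by
    push_cast; ring
  rw [h4]
  exact dvd_add (dvd_mul_of_dvd_right h1 _) (dvd_mul_of_dvd_right h3 _)

end Lam

end Fermat.Agent.R
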