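import Fermat.Agent.R.CaseIBasic

/-!
# Project R, track R1 (Case I): complex conjugation on `ℤ[ζ_p]` and the unit lemma

* `FA_R_conj_zeta_mul` : `conj ζ * ζ = 1`.
* `FA_R_lam_dvd_conj_sub` : `ζ - 1 ∣ conj x - x` for all `x`.
* `FA_R_unit_lemma` : every unit `u` satisfies `u = ζ ^ k * conj u` for some `k`.
-/

set_option autoImplicit false

open NumberField IsCyclotomicExtension Polynomial

namespace Fermat.Agent.R

section Unit

variable {p : ℕ} [hp : Fact p.Prime] {K : Type*} [Field K] [NumberField K]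
  [IsCyclotomicExtension {p} ℚ K] [IsCMField K] {ζ : K} (hζ : IsPrimitiveRoot ζ p)

include hζ

/-- Complex conjugation inverts `ζ` (in `K`). -/
theorem FA_R_complexConj_zeta_mul : IsCMField.complexConj K ζ * ζ = 1 := by
  let φ : K →+* ℂ := Classical.choice inferInstance
  apply φ.injective
  rw [map_mul, IsCMField.complexEmbedding_complexConj, map_one]
  have h1 : (φ ζ) ^ p = 1 := by rw [← map_pow, hζ.pow_eq_one, map_one]
  have h2 : ‖φ ζ‖ = 1 := Complex.norm_eq_one_of_pow_eq_one h1 hp.out.ne_zero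
  rw [Complex.conj_mul', h2]; simp

/-- Complex conjugation inverts `ζ` (in `𝓞 K`). -/
theorem FA_R_conj_zeta_mul :
    IsCMField.ringOfIntegersComplexConj K hζ.toInteger * hζ.toInteger = 1 := by
  apply RingOfIntegers.ext
  show IsCMField.complexConj K ζ * ζ = 1
  exact FA_R_complexConj_zeta_mul hζ

/-- Complex conjugation sends `ζ` to `ζ ^ (p - 1)`. -/
theorem FA_R_conj_zeta :
    IsCMField.ringOfIntegersComplexConj K hζ.toInteger = hζ.toInteger ^ (p - 1) := by
  have h1 := FA_R_conj_zeta_mul hζ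
  have h2 : hζ.toInteger ^ (p - 1) * hζ.toInteger = 1 := by
    rw [← pow_succ, Nat.sub_add_cancel hp.out.one_le, hζ.toInteger_isPrimitiveRoot.pow_eq_one]
  have hu : IsUnit hζ.toInteger := hζ.toInteger_isPrimitiveRoot.isUnit hp.out.ne_zero
  exact hu.mul_left_injective (h1.trans h2.symm)

/-- Complex conjugation is trivial modulo `ζ - 1`. -/
theorem FA_R_lam_dvd_conj_sub (x : 𝓞 K) :
    hζ.toInteger - 1 ∣ IsCMField.ringOfIntegersComplexConj K x - x := by
  have htop : Algebra.adjoin ℤ ({hζ.toInteger} : Set (𝓞 K)) = ⊤ :=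
    IsCyclotomicExtension.adjoin_primitive_root_eq_top hζ.toInteger_isPrimitiveRoot
  have hx : x ∈ Algebra.adjoin ℤ ({hζ.toInteger} : Set (𝓞 K)) := by rw [htop]; trivial
  induction hx using Algebra.adjoin_induction with
  | mem y hy =>
    rw [Set.mem_singleton_iff] at hy
    rw [hy, FA_R_conj_zeta hζ]
    have h1 : hζ.toInteger - 1 ∣ hζ.toInteger ^ (p - 1) - 1 := by
      simpa using sub_dvd_pow_sub_pow hζ.toInteger 1 (p - 1)
    have : hζ.toInteger ^ (p - 1) - hζ.toInteger
        = (hζ.toInteger ^ (p - 1) - 1) - (hζ.toInteger - 1) := by ring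
    rw [this]
    exact dvd_sub h1 dvd_rfl
  | algebraMap r =>
    simp
  | add y z _ _ hy hz =>
    rw [map_add]
    have : IsCMField.ringOfIntegersComplexConj K y + IsCMField.ringOfIntegersComplexConj K z
        - (y + z) = (IsCMField.ringOfIntegersComplexConj K y - y)
          + (IsCMField.ringOfIntegersComplexConj K z - z) := by ring
    rw [this]
    exact dvd_add hy hz
  | mul y z _ _ hy hz =>
    rw [map_mul]
    have : IsCMField.ringOfIntegersComplexConj K y * IsCMField.ringOfIntegersComplexConj K z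
        - y * z = IsCMField.ringOfIntegersComplexConj K y
            * (IsCMField.ringOfIntegersComplexConj K z - z)
          + (IsCMField.ringOfIntegersComplexConj K y - y) * z := by ring
    rw [this]
    exact dvd_add (dvd_mul_of_dvd_right hz _) (dvd_mul_of_dvd_left hy _)

/-- Complex conjugation fixes rational integers. -/
theorem FA_R_conj_intCast (n : ℤ) :
    IsCMField.ringOfIntegersComplexConj K (n : 𝓞 K) = (n : 𝓞 K) := by
  simp

/-- The unit lemma: `u / conj u` is a power of `ζ`. -/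
theorem FA_R_unit_lemma (hodd : p ≠ 2) (u : (𝓞 K)ˣ) :
    ∃ k : ℕ, (u : 𝓞 K) = hζ.toInteger ^ k * IsCMField.ringOfIntegersComplexConj K (u : 𝓞 K) := by
  have hpodd : Odd p := hp.out.odd_of_ne_two hodd
  set t := IsCMField.unitsMulComplexConjInv K u with ht
  set τ : 𝓞 K := ((t : (𝓞 K)ˣ) : 𝓞 K) with hτ
  have hτu : τ * IsCMField.ringOfIntegersComplexConj K (u : 𝓞 K) = u := by
    have h1 : (t : (𝓞 K)ˣ) * IsCMField.unitsComplexConj K u = u := by
      rw [ht, IsCMField.unitsMulComplexConjInv_apply]; simp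
    have h2 : ((t : (𝓞 K)ˣ) : 𝓞 K) * ((IsCMField.unitsComplexConj K u : (𝓞 K)ˣ) : 𝓞 K)
        = u := by rw [← Units.val_mul, h1]
    exact h2
  have hord : τ ^ (2 * p) = 1 := by
    have h1 : t ^ (Units.torsionOrder K) = 1 := pow_card_eq_one'
    have h2 : Units.torsionOrder K = 2 * p := by
      rw [IsCyclotomicExtension.Rat.torsionOrder_eq (n := p) (K := K),
        if_neg (Nat.not_even_iff_odd.mpr hpodd)]
    rw [h2] at h1
    have h3 := congrArg (fun v : Units.torsion K => (((v : (𝓞 K)ˣ)) : 𝓞 K)) h1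
    simpa using h3
  have hsq : τ ^ p * τ ^ p = 1 := by rw [← pow_add, ← two_mul, hord]
  rcases mul_self_eq_one_iff.mp hsq with h | h
  · obtain ⟨i, -, hi⟩ := hζ.toInteger_isPrimitiveRoot.eq_pow_of_pow_eq_one h
    exact ⟨i, by rw [hi, hτu]⟩
  · exfalso
    have h' : (-τ) ^ p = 1 := by rw [hpodd.neg_pow, h, neg_neg]
    obtain ⟨i, -, hi⟩ := hζ.toInteger_isPrimitiveRoot.eq_pow_of_pow_eq_one h'
    -- `u + ζ^i * conj u = 0`
    have h0 : (u : 𝓞 K) + hζ.toInteger ^ i * IsCMField.ringOfIntegersComplexConj K (u : 𝓞 K)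
        = 0 := by
      rw [hi, neg_mul, hτu]; ring
    have h1 : hζ.toInteger - 1 ∣ hζ.toInteger ^ i - 1 := by
      simpa using sub_dvd_pow_sub_pow hζ.toInteger 1 i
    have h2 := FA_R_lam_dvd_conj_sub hζ (u : 𝓞 K)
    have h3 : hζ.toInteger - 1 ∣ 2 * (u : 𝓞 K) := by
      have : 2 * (u : 𝓞 K) = ((u : 𝓞 K)
            + hζ.toInteger ^ i * IsCMField.ringOfIntegersComplexConj K (u : 𝓞 K))
          - (hζ.toInteger ^ i - 1) * IsCMField.ringOfIntegersComplexConj K (u : 𝓞 K)
          - (IsCMField.ringOfIntegersComplexConj K (u : 𝓞 K) - u) := by ring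
      rw [this, h0]
      exact dvd_sub (dvd_sub (dvd_zero _) (dvd_mul_of_dvd_left h1 _)) h2
    have h4 : hζ.toInteger - 1 ∣ ((2 : ℤ) : 𝓞 K) := by
      have := (u.isUnit.dvd_mul_right).mp h3
      simpa using this
    rw [FA_R_lam_dvd_int_iff hζ hodd] at h4
    have := Int.le_of_dvd (by norm_num) h4
    have h5 : 2 ≤ p := hp.out.two_le
    have : p = 2 := by omega
    exact hodd this

end Unit

end Fermat.Agent.R
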