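import Fermat.Agent.R.Interface

/-!
# Project R, item 68 — Hilbert 94 for class number one, and Kummer's lemma assembly

* `FA_R_Unramified K L` : every nonzero prime of `𝓞 L` has ramification index one over `𝓞 K`.
* `FA_R_Hilbert92For K L σ` : the conclusion of Hilbert's Satz 92 for `L/K` and a generator `σ`.
* `FA_R_invariant_ideal_extended` : in an unramified Galois extension, a Galois-invariant nonzero
  ideal of `𝓞 L` is extended from `𝓞 K`.
* `FA_R_hilbert94` : if `𝓞 K` is a PID there is no unramified cyclic `L/K` satisfying Hilbert 92.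
* `FA_R_kummer_of` : Kummer's lemma from the targets of items 67 and 69.
-/

set_option autoImplicit false
set_option linter.style.haveILetI false
set_option linter.unusedSectionVars false

open NumberField
open scoped Pointwise

namespace Fermat.Agent.R

/-- `L/K` is unramified at every finite prime. -/
def FA_R_Unramified (K L : Type) [Field K] [Field L] [NumberField K] [NumberField L]
    [Algebra K L] : Prop :=
  ∀ P : Ideal (𝓞 L), P.IsPrime → P ≠ ⊥ → P.ramificationIdx (𝓞 K) = 1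

/-- The conclusion of Hilbert's Satz 92 for `L/K` and `σ`. -/
def FA_R_Hilbert92For (K L : Type) [Field K] [Field L] [NumberField K] [NumberField L]
    [Algebra K L] (σ : L ≃ₐ[K] L) : Prop :=
  ∃ η : (𝓞 L)ˣ, Algebra.norm K (((η : 𝓞 L) : L)) = 1 ∧
    ∀ ε : (𝓞 L)ˣ, (((η : 𝓞 L) : L)) ≠ (((ε : 𝓞 L) : L)) / σ (((ε : 𝓞 L) : L))

/-- Target of item 67 (Hilbert 92), in the generality needed here: `K` contains a primitive
`p`-th root of unity. -/
def FA_R_Target_Hilbert92 : Prop :=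
  ∀ (K L : Type) [Field K] [Field L] [NumberField K] [NumberField L] [Algebra K L]
    [IsGalois K L] (p : ℕ), p.Prime → p ≠ 2 → Module.finrank K L = p →
    (∃ ζ : K, IsPrimitiveRoot ζ p) →
    ∀ σ : L ≃ₐ[K] L, (∀ x, x ∈ Subgroup.zpowers σ) → FA_R_Hilbert92For K L σ

/-- Target of item 69: a unit congruent to an integer mod `p` that is not a `p`-th power gives an
unramified Galois extension of degree `p`. -/
def FA_R_Target_Unramified : Prop :=
  ∀ (p : ℕ), p.Prime → 3 ≤ p → ∀ (u : (𝓞 (FA_R_K p))ˣ) (n : ℤ),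
    (p : 𝓞 (FA_R_K p)) ∣ ((u : 𝓞 (FA_R_K p)) - (n : 𝓞 (FA_R_K p))) →
    (¬ ∃ v : (𝓞 (FA_R_K p))ˣ, u = v ^ p) →
    ∃ (L : Type) (_ : Field L) (_ : NumberField L) (_ : Algebra (FA_R_K p) L)
      (_ : IsGalois (FA_R_K p) L),
      Module.finrank (FA_R_K p) L = p ∧ FA_R_Unramified (FA_R_K p) L

section

variable {K L : Type} [Field K] [Field L] [NumberField K] [NumberField L] [Algebra K L]
  [IsGalois K L]

theorem FA_R_smul_map_algebraMap (σ : L ≃ₐ[K] L) (J : Ideal (𝓞 K)) :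
    σ • (J.map (algebraMap (𝓞 K) (𝓞 L))) = J.map (algebraMap (𝓞 K) (𝓞 L)) := by
  rw [Ideal.pointwise_smul_def, Ideal.map_map]
  congr 1
  ext x
  simp

end

section

variable {K L : Type} [Field K] [Field L] [NumberField K] [NumberField L] [Algebra K L]
  [IsGalois K L]

/-- In an unramified extension, `𝔭 𝓞_L` is the product of the primes above `𝔭`. -/
theorem FA_R_map_eq_prod_primesOver (hunr : FA_R_Unramified K L) (𝔭 : Ideal (𝓞 K))
    [𝔭.IsMaximal] (h𝔭 : 𝔭 ≠ ⊥) :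
    𝔭.map (algebraMap (𝓞 K) (𝓞 L)) = ∏ P ∈ (𝔭.primesOver (𝓞 L)).toFinset, P := by
  rw [Ideal.map_algebraMap_eq_finsetProd_pow h𝔭]
  refine Finset.prod_congr rfl (fun P hP => ?_)
  rw [Set.mem_toFinset] at hP
  have hPprime : P.IsPrime := hP.1
  have hPne : P ≠ ⊥ := by
    haveI := hP.2
    exact Ideal.ne_bot_of_liesOver_of_ne_bot h𝔭 P
  rw [hunr P hPprime hPne, pow_one]

theorem FA_R_invariant_ideal_extended (hunr : FA_R_Unramified K L) (I : Ideal (𝓞 L))
    (hI : I ≠ ⊥) (hinv : ∀ σ : L ≃ₐ[K] L, σ • I = I) :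
    ∃ J : Ideal (𝓞 K), J.map (algebraMap (𝓞 K) (𝓞 L)) = I := by
  induction I using IsNoetherian.induction with
  | _ I ih =>
  by_cases htop : I = ⊤
  · exact ⟨⊤, by rw [htop, Ideal.map_top]⟩
  obtain ⟨M, hM, hIM⟩ := Ideal.exists_le_maximal I htop
  have hMne : M ≠ ⊥ := fun h => hI (le_bot_iff.mp (h ▸ hIM))
  set 𝔭 : Ideal (𝓞 K) := M.under (𝓞 K) with h𝔭def
  haveI : 𝔭.IsMaximal := Ideal.IsMaximal.under (𝓞 K) M
  haveI hlies : M.LiesOver 𝔭 := ⟨rfl⟩
  have h𝔭ne : 𝔭 ≠ ⊥ := Ideal.under_ne_bot (𝓞 K) hMne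
  set Q : Ideal (𝓞 L) := 𝔭.map (algebraMap (𝓞 K) (𝓞 L)) with hQdef
  have hQprod := FA_R_map_eq_prod_primesOver hunr 𝔭 h𝔭ne
  have hQne : Q ≠ ⊥ := by
    rw [hQdef, Ne, Ideal.map_eq_bot_iff_of_injective
      (FaithfulSMul.algebraMap_injective (𝓞 K) (𝓞 L))]
    exact h𝔭ne
  have hQM : Q ≤ M := Ideal.map_le_iff_le_comap.mpr le_rfl
  -- Q ∣ I
  have hQI : Q ∣ I := by
    rw [hQdef, hQprod]
    refine Finset.prod_primes_dvd I ?_ ?_
    · intro P hP
      rw [Set.mem_toFinset] at hP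
      haveI := hP.2
      haveI := hP.1
      exact Ideal.prime_of_isPrime (Ideal.ne_bot_of_liesOver_of_ne_bot h𝔭ne P) hP.1
    · intro P hP
      rw [Set.mem_toFinset] at hP
      haveI := hP.2
      haveI := hP.1
      obtain ⟨σ, hσ⟩ := Ideal.exists_smul_eq_of_isGaloisGroup 𝔭 M P (L ≃ₐ[K] L)
      rw [Ideal.dvd_iff_le, ← hσ, ← hinv σ]
      exact Ideal.pointwise_smul_le_pointwise_smul_iff.mpr hIM
  obtain ⟨I', hI'⟩ := hQI
  have hI'ne : I' ≠ ⊥ := by
    rintro rfl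
    exact hI (by simpa using hI')
  have hlt : I < I' := by
    refine lt_of_le_of_ne (hI' ▸ Ideal.mul_le_right) ?_
    intro h
    have h1 : Q * I' = 1 * I' := by rw [one_mul, ← hI', h]
    have h2 : Q = 1 := mul_right_cancel₀ (by simpa using hI'ne) h1
    exact hM.ne_top (top_le_iff.mp (by simpa [h2] using hQM))
  have hinv' : ∀ σ : L ≃ₐ[K] L, σ • I' = I' := by
    intro σ
    have h1 := hinv σ
    rw [hI'] at h1
    have h2 : σ • (Q * I') = Q * (σ • I') := by
      rw [Ideal.pointwise_smul_def, Ideal.map_mul, ← Ideal.pointwise_smul_def,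
        ← Ideal.pointwise_smul_def, hQdef, FA_R_smul_map_algebraMap]
    rw [h2] at h1
    exact mul_left_cancel₀ (by simpa using hQne) h1
  obtain ⟨J', hJ'⟩ := ih I' hlt hI'ne hinv'
  exact ⟨𝔭 * J', by rw [Ideal.map_mul, hJ', hI']⟩

/-- **Hilbert 94 for class number one**: if `𝓞 K` is a PID, an unramified cyclic extension `L/K`
cannot satisfy the conclusion of Hilbert 92. -/
theorem FA_R_hilbert94 (hunr : FA_R_Unramified K L) (hpid : IsPrincipalIdealRing (𝓞 K))
    (σ : L ≃ₐ[K] L) (hσ : ∀ x, x ∈ Subgroup.zpowers σ) (h92 : FA_R_Hilbert92For K L σ) :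
    False := by
  obtain ⟨η, hη1, hη2⟩ := h92
  haveI : IsCyclic (L ≃ₐ[K] L) := ⟨σ, hσ⟩
  obtain ⟨α, hα0, hα⟩ := groupCohomology.exists_mul_galRestrict_of_norm_eq_one
    (A := 𝓞 K) (B := 𝓞 L) hσ (η := (η : 𝓞 L)) hη1
  -- the ideal `(α)` is stable under `σ`
  set I : Ideal (𝓞 L) := Ideal.span {α} with hIdef
  have hIne : I ≠ ⊥ := by
    rw [hIdef, Ne, Ideal.span_singleton_eq_bot]
    exact hα0
  have hσI : σ • I = I := by
    rw [hIdef, Ideal.pointwise_smul_def, Ideal.map_span, Set.image_singleton]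
    have : (MulSemiringAction.toRingHom (L ≃ₐ[K] L) (𝓞 L) σ) α
        = galRestrict (𝓞 K) K L (𝓞 L) σ α := by
      apply RingOfIntegers.ext
      have h1 := algebraMap_galRestrict_apply (𝓞 K) (K := K) (L := L) (B := 𝓞 L) σ α
      exact Eq.trans rfl h1.symm
    rw [this]
    conv_rhs => rw [← hα]
    exact (Ideal.span_singleton_mul_left_unit η.isUnit _).symm
  have hinv : ∀ τ : L ≃ₐ[K] L, τ • I = I := by
    intro τ
    have h1 : σ ∈ MulAction.stabilizer (L ≃ₐ[K] L) I := hσI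
    have h2 : Subgroup.zpowers σ ≤ MulAction.stabilizer (L ≃ₐ[K] L) I :=
      (Subgroup.zpowers_le).mpr h1
    exact h2 (hσ τ)
  obtain ⟨J, hJ⟩ := FA_R_invariant_ideal_extended hunr I hIne hinv
  obtain ⟨a, ha⟩ := (IsPrincipalIdealRing.principal J).principal
  rw [ha, Ideal.submodule_span_eq, Ideal.map_span, Set.image_singleton, hIdef,
    Ideal.span_singleton_eq_span_singleton] at hJ
  obtain ⟨ε, hε⟩ := hJ
  -- α = a ε
  have ha0 : algebraMap (𝓞 K) (𝓞 L) a ≠ 0 := by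
    rintro h
    rw [h, zero_mul] at hε
    exact hα0 hε.symm
  refine hη2 ε ?_
  have hgal : galRestrict (𝓞 K) K L (𝓞 L) σ α
      = algebraMap (𝓞 K) (𝓞 L) a * galRestrict (𝓞 K) K L (𝓞 L) σ ε := by
    rw [← hε, map_mul]
    congr 1
    exact (galRestrict (𝓞 K) K L (𝓞 L) σ).commutes a
  rw [hgal, ← hε] at hα
  have h3 : (η : 𝓞 L) * galRestrict (𝓞 K) K L (𝓞 L) σ ε = ε := by
    apply mul_left_cancel₀ ha0
    rw [← hα]
    ring
  have h4 : ((η : 𝓞 L) : L) * σ ((ε : 𝓞 L) : L) = ((ε : 𝓞 L) : L) := by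
    have := congrArg (algebraMap (𝓞 L) L) h3
    rw [map_mul, algebraMap_galRestrict_apply] at this
    exact this
  have h5 : σ ((ε : 𝓞 L) : L) ≠ 0 := by
    rw [Ne, map_eq_zero_iff _ σ.injective]
    exact_mod_cast ε.ne_zero
  exact eq_div_of_mul_eq h5 h4

end

/-- **Kummer's lemma** from Hilbert 92 (item 67) and unramifiedness (item 69), for class
number one. -/
theorem FA_R_kummer_of (h92 : FA_R_Target_Hilbert92) (hun : FA_R_Target_Unramified) :
    FA_R_Target_Kummer := by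
  intro p hp hp3 hpid u n hu
  by_contra hnot
  obtain ⟨L, _, _, _, _, hdeg, hunr⟩ := hun p hp hp3 u n hu hnot
  -- the Galois group has prime order, hence is cyclic
  have hcard : Nat.card (L ≃ₐ[FA_R_K p] L) = p := by
    rw [IsGalois.card_aut_eq_finrank, hdeg]
  haveI : Fact p.Prime := ⟨hp⟩
  haveI : IsCyclic (L ≃ₐ[FA_R_K p] L) := isCyclic_of_prime_card hcard
  obtain ⟨σ, hσ⟩ := IsCyclic.exists_generator (α := L ≃ₐ[FA_R_K p] L)
  have hζ : ∃ ζ : FA_R_K p, IsPrimitiveRoot ζ p := by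
    haveI : NeZero ((p : ℕ) : ℚ) := ⟨by exact_mod_cast hp.ne_zero⟩
    haveI : NeZero p := ⟨hp.ne_zero⟩
    haveI : IsCyclotomicExtension {p} ℚ (CyclotomicField p ℚ) :=
      CyclotomicField.isCyclotomicExtension p ℚ
    exact ⟨_, IsCyclotomicExtension.zeta_spec p ℚ (CyclotomicField p ℚ)⟩
  exact FA_R_hilbert94 hunr hpid σ hσ
    (h92 (FA_R_K p) L p hp (by omega) hdeg hζ σ hσ)


end Fermat.Agent.R
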