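import Fermat.Agent.R.PIDCert

/-!
# Project R4 — `ℤ[ζ₁₁]` is a principal ideal domain

Minkowski constant `< 60`. Below `60` only the prime `23` has a prime factor of norm `≤ 59`
(apart from `11` itself); `(23, ζ - 4) = (1 + ζ + ζ³)`.
-/

set_option autoImplicit false

open Real Nat NumberField

namespace Fermat.Agent.R

theorem FA_R_pid11_bound :
    (4 / π) ^ ((11 - 1) / 2) *
      ((((11 - 1)! : ℕ) : ℝ) / (((11 - 1 : ℕ) : ℕ) : ℝ) ^ (11 - 1) * √(((11 : ℕ) : ℝ) ^ (11 - 2)))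
      < ((59 : ℕ) : ℝ) + 1 := by
  have h1 : (4 / π) ^ ((11 - 1) / 2) ≤ (4 / 3.14 : ℝ) ^ 5 := by
    have : (4 / π) ≤ (4 / 3.14 : ℝ) :=
      div_le_div_of_nonneg_left (by norm_num) (by norm_num) pi_gt_d2.le
    have h0 : (0 : ℝ) ≤ 4 / π := by positivity
    simpa using pow_le_pow_left₀ h0 this 5
  have h2 : √((11 : ℝ) ^ (11 - 2)) ≤ 48559 := by
    rw [Real.sqrt_le_iff]
    norm_num
  have h3 : (((11 - 1)! : ℕ) : ℝ) / (((11 - 1 : ℕ) : ℕ) : ℝ) ^ (11 - 1) = 3628800 / 10 ^ 10 := by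
    norm_num [Nat.factorial]
  calc (4 / π) ^ ((11 - 1) / 2) *
        ((((11 - 1)! : ℕ) : ℝ) / (((11 - 1 : ℕ) : ℕ) : ℝ) ^ (11 - 1) *
          √(((11 : ℕ) : ℝ) ^ (11 - 2)))
      = (4 / π) ^ ((11 - 1) / 2) * (3628800 / 10 ^ 10 * √((11 : ℝ) ^ (11 - 2))) := by
        rw [h3]; norm_num
    _ ≤ (4 / 3.14 : ℝ) ^ 5 * (3628800 / 10 ^ 10 * 48559) := by
        apply mul_le_mul h1 _ (by positivity) (by positivity)
        exact mul_le_mul_of_nonneg_left h2 (by norm_num)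
    _ < ((59 : ℕ) : ℝ) + 1 := by norm_num

theorem FA_R_pid11_root : ∑ i ∈ Finset.range 11, (((4 : ℤ)) : ZMod 23) ^ i = 0 := by
  decide

/-- The prime `(23, ζ - 4)` of `ℤ[ζ₁₁]` is generated by `1 + ζ + ζ³`. -/
theorem FA_R_pid11_23 (K : Type) [Field K] [NumberField K] [IsCyclotomicExtension {11} ℚ K] :
    ∃ P ∈ Ideal.primesOver (Ideal.span {((23 : ℕ) : ℤ)}) (𝓞 K), Submodule.IsPrincipal P := by
  have : Fact (Nat.Prime 11) := ⟨by norm_num⟩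
  have : Fact (Nat.Prime 23) := ⟨by norm_num⟩
  have hΦ := FA_R_zeta_sum 11 K
  simp only [Finset.sum_range_succ, Finset.sum_range_zero, zero_add, pow_zero, pow_one] at hΦ
  set ζ := FA_R_zeta 11 K with hζ
  refine FA_R_principal_prime_of_cert_linear 11 23 K 4 FA_R_pid11_root
    (1 + ζ + ζ ^ 3)
    (-2 - 14 * ζ - 17 * ζ ^ 2 - 12 * ζ ^ 3 - 5 * ζ ^ 4 - 9 * ζ ^ 5 - 10 * ζ ^ 6 - 16 * ζ ^ 7
      - 6 * ζ ^ 8 - 15 * ζ ^ 9)
    (1 + 3 * ζ + 3 * ζ ^ 2 + 2 * ζ ^ 3 + ζ ^ 4 + 2 * ζ ^ 5 + 2 * ζ ^ 6 + 3 * ζ ^ 7 + ζ ^ 8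
      + 3 * ζ ^ 9)
    3 (17 + 4 * ζ + ζ ^ 2) ?_ ?_ ?_
  · push_cast
    linear_combination (-25 + 9 * ζ - 15 * ζ ^ 2) * hΦ
  · push_cast
    linear_combination (5 - 2 * ζ + 3 * ζ ^ 2) * hΦ
  · push_cast
    ring

/-- Class number one for `ℚ(ζ₁₁)`. -/
theorem FA_R_pid11 : FA_R_PID 11 := by
  have : Fact (Nat.Prime 11) := ⟨by norm_num⟩
  refine FA_R_pid_of_witnesses 11 59 6 [2, 3, 5, 7] FA_R_pid11_bound (by norm_num) (by decide)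
    [23] (by decide) ?_
  intro q hq _
  have hq23 : q = 23 := by simpa using hq
  subst hq23
  have := FA_R_isCyclotomicExtension 11
  exact FA_R_pid11_23 (FA_R_K 11)

end Fermat.Agent.R
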