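import Fermat.Agent.R.PIDCert

/-!
# Project R4 — `ℤ[ζ₁₃]` is a principal ideal domain

Minkowski constant `< 308`. Below `308` the primes with a prime factor of norm `≤ 307` are `13`,
`3` (residue degree `3`) and `53, 79, 131, 157` (residue degree `1`).
Generators: `(3, ζ³ - ζ - 1) = (1 + ζ - ζ³)`, `(53, ζ - 36) = (1 + ζ + ζ³)`,
`(79, ζ - 64) = (1 + ζ - ζ⁴)`, `(131, ζ - 80) = (1 - ζ - ζ³)`, `(157, ζ - 75) = (1 - ζ + ζ² + ζ⁴)`.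
-/

set_option autoImplicit false

open Real Nat NumberField Polynomial

namespace Fermat.Agent.R

theorem FA_R_pid13_bound :
    (4 / π) ^ ((13 - 1) / 2) *
      ((((13 - 1)! : ℕ) : ℝ) / (((13 - 1 : ℕ) : ℕ) : ℝ) ^ (13 - 1) * √(((13 : ℕ) : ℝ) ^ (13 - 2)))
      < ((307 : ℕ) : ℝ) + 1 := by
  have h1 : (4 / π) ^ ((13 - 1) / 2) ≤ (4 / 3.14 : ℝ) ^ 6 := by
    have : (4 / π) ≤ (4 / 3.14 : ℝ) :=
      div_le_div_of_nonneg_left (by norm_num) (by norm_num) pi_gt_d2.le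
    have h0 : (0 : ℝ) ≤ 4 / π := by positivity
    simpa using pow_le_pow_left₀ h0 this 6
  have h2 : √((13 : ℝ) ^ (13 - 2)) ≤ 1338717 := by
    rw [Real.sqrt_le_iff]
    norm_num
  have h3 : (((13 - 1)! : ℕ) : ℝ) / (((13 - 1 : ℕ) : ℕ) : ℝ) ^ (13 - 1) =
      479001600 / 12 ^ 12 := by
    norm_num [Nat.factorial]
  calc (4 / π) ^ ((13 - 1) / 2) *
        ((((13 - 1)! : ℕ) : ℝ) / (((13 - 1 : ℕ) : ℕ) : ℝ) ^ (13 - 1) *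
          √(((13 : ℕ) : ℝ) ^ (13 - 2)))
      = (4 / π) ^ ((13 - 1) / 2) * (479001600 / 12 ^ 12 * √((13 : ℝ) ^ (13 - 2))) := by
        rw [h3]; norm_num
    _ ≤ (4 / 3.14 : ℝ) ^ 6 * (479001600 / 12 ^ 12 * 1338717) := by
        apply mul_le_mul h1 _ (by positivity) (by positivity)
        exact mul_le_mul_of_nonneg_left h2 (by norm_num)
    _ < ((307 : ℕ) : ℝ) + 1 := by norm_num

theorem FA_R_pid13_root53 : ∑ i ∈ Finset.range 13, (((36 : ℤ)) : ZMod 53) ^ i = 0 := by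
  decide

theorem FA_R_pid13_root79 : ∑ i ∈ Finset.range 13, (((64 : ℤ)) : ZMod 79) ^ i = 0 := by
  decide

theorem FA_R_pid13_root131 : ∑ i ∈ Finset.range 13, (((80 : ℤ)) : ZMod 131) ^ i = 0 := by
  decide

theorem FA_R_pid13_root157 : ∑ i ∈ Finset.range 13, (((75 : ℤ)) : ZMod 157) ^ i = 0 := by
  decide

theorem FA_R_fact13 : Fact (Nat.Prime 13) := ⟨by norm_num⟩

section

attribute [local instance] FA_R_fact13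

variable (K : Type) [Field K] [NumberField K] [IsCyclotomicExtension {13} ℚ K]

theorem FA_R_pid13_rel :
    1 + FA_R_zeta 13 K + FA_R_zeta 13 K ^ 2 + FA_R_zeta 13 K ^ 3 + FA_R_zeta 13 K ^ 4 +
      FA_R_zeta 13 K ^ 5 + FA_R_zeta 13 K ^ 6 + FA_R_zeta 13 K ^ 7 + FA_R_zeta 13 K ^ 8 +
      FA_R_zeta 13 K ^ 9 + FA_R_zeta 13 K ^ 10 + FA_R_zeta 13 K ^ 11 + FA_R_zeta 13 K ^ 12 = 0 := by
  have hΦ := FA_R_zeta_sum 13 K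
  simpa only [Finset.sum_range_succ, Finset.sum_range_zero, zero_add, pow_zero, pow_one] using hΦ

/-- The prime `(53, ζ - 36)` of `ℤ[ζ₁₃]` is generated by `1 + ζ + ζ³`. -/
theorem FA_R_pid13_53 :
    ∃ P ∈ Ideal.primesOver (Ideal.span {((53 : ℕ) : ℤ)}) (𝓞 K), Submodule.IsPrincipal P := by
  have : Fact (Nat.Prime 53) := ⟨by norm_num⟩
  have hΦ := FA_R_pid13_rel K
  set ζ := FA_R_zeta 13 K with hζ
  refine FA_R_principal_prime_of_cert_linear 13 53 K 36 FA_R_pid13_root53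
    (1 + ζ + ζ ^ 3)
    (1 - 24 * ζ - 35 * ζ ^ 2 - 25 * ζ ^ 3 - 10 * ζ ^ 4 - 14 * ζ ^ 5 - 20 * ζ ^ 6 - 29 * ζ ^ 7
      - 16 * ζ ^ 8 - 23 * ζ ^ 9 - 7 * ζ ^ 10 - 36 * ζ ^ 11)
    (17 * ζ + 24 * ζ ^ 2 + 17 * ζ ^ 3 + 7 * ζ ^ 4 + 10 * ζ ^ 5 + 14 * ζ ^ 6 + 20 * ζ ^ 7
      + 11 * ζ ^ 8 + 16 * ζ ^ 9 + 5 * ζ ^ 10 + 25 * ζ ^ 11)
    881 (1297 + 36 * ζ + ζ ^ 2) ?_ ?_ ?_
  · push_cast
    linear_combination (-52 + 29 * ζ - 36 * ζ ^ 2) * hΦ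
  · push_cast
    linear_combination (36 - 20 * ζ + 25 * ζ ^ 2) * hΦ
  · push_cast
    ring

/-- The prime `(79, ζ - 64)` of `ℤ[ζ₁₃]` is generated by `1 + ζ - ζ⁴`. -/
theorem FA_R_pid13_79 :
    ∃ P ∈ Ideal.primesOver (Ideal.span {((79 : ℕ) : ℤ)}) (𝓞 K), Submodule.IsPrincipal P := by
  have : Fact (Nat.Prime 79) := ⟨by norm_num⟩
  have hΦ := FA_R_pid13_rel K
  set ζ := FA_R_zeta 13 K with hζ
  refine FA_R_principal_prime_of_cert_linear 13 79 K 64 FA_R_pid13_root79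
    (1 + ζ - ζ ^ 4)
    (24 - 25 * ζ - 27 * ζ ^ 2 + 10 * ζ ^ 3 - 3 * ζ ^ 4 - 39 * ζ ^ 5 - 5 * ζ ^ 6 - 2 * ζ ^ 7
      - 18 * ζ ^ 8 - 38 * ζ ^ 9 + 16 * ζ ^ 10 - 35 * ζ ^ 11)
    (-19 + 21 * ζ + 22 * ζ ^ 2 - 8 * ζ ^ 3 + 3 * ζ ^ 4 + 32 * ζ ^ 5 + 4 * ζ ^ 6 + 2 * ζ ^ 7
      + 15 * ζ ^ 8 + 31 * ζ ^ 9 - 13 * ζ ^ 10 + 29 * ζ ^ 11)
    (-212369) (-262143 - 4096 * ζ - 64 * ζ ^ 2 - ζ ^ 3) ?_ ?_ ?_
  · push_cast
    linear_combination (-55 + 54 * ζ - 51 * ζ ^ 2 + 35 * ζ ^ 3) * hΦ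
  · push_cast
    linear_combination (45 - 44 * ζ + 42 * ζ ^ 2 - 29 * ζ ^ 3) * hΦ
  · push_cast
    ring

/-- The prime `(131, ζ - 80)` of `ℤ[ζ₁₃]` is generated by `1 - ζ - ζ³`. -/
theorem FA_R_pid13_131 :
    ∃ P ∈ Ideal.primesOver (Ideal.span {((131 : ℕ) : ℤ)}) (𝓞 K), Submodule.IsPrincipal P := by
  have : Fact (Nat.Prime 131) := ⟨by norm_num⟩
  have hΦ := FA_R_pid13_rel K
  set ζ := FA_R_zeta 13 K with hζ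
  refine FA_R_principal_prime_of_cert_linear 13 131 K 80 FA_R_pid13_root131
    (1 - ζ - ζ ^ 3)
    (111 + 78 * ζ + 17 * ζ ^ 2 + 67 * ζ ^ 3 + 84 * ζ ^ 4 + 40 * ζ ^ 5 + 46 * ζ ^ 6 + 69 * ζ ^ 7
      + 48 * ζ ^ 8 + 33 * ζ ^ 9 + 41 * ζ ^ 10 + 28 * ζ ^ 11)
    (-68 - 47 * ζ - 10 * ζ ^ 2 - 41 * ζ ^ 3 - 51 * ζ ^ 4 - 24 * ζ ^ 5 - 28 * ζ ^ 6 - 42 * ζ ^ 7
      - 29 * ζ ^ 8 - 20 * ζ ^ 9 - 25 * ζ ^ 10 - 17 * ζ ^ 11)
    (-3909) (-6401 - 80 * ζ - ζ ^ 2) ?_ ?_ ?_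
  · push_cast
    linear_combination (-20 - 13 * ζ - 28 * ζ ^ 2) * hΦ
  · push_cast
    linear_combination (12 + 8 * ζ + 17 * ζ ^ 2) * hΦ
  · push_cast
    ring

/-- The prime `(157, ζ - 75)` of `ℤ[ζ₁₃]` is generated by `1 - ζ + ζ² + ζ⁴`. -/
theorem FA_R_pid13_157 :
    ∃ P ∈ Ideal.primesOver (Ideal.span {((157 : ℕ) : ℤ)}) (𝓞 K), Submodule.IsPrincipal P := by
  have : Fact (Nat.Prime 157) := ⟨by norm_num⟩
  have hΦ := FA_R_pid13_rel K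
  set ζ := FA_R_zeta 13 K with hζ
  refine FA_R_principal_prime_of_cert_linear 13 157 K 75 FA_R_pid13_root157
    (1 - ζ + ζ ^ 2 + ζ ^ 4)
    (89 + 86 * ζ + 42 * ζ ^ 2 + 77 * ζ ^ 3 + 67 * ζ ^ 4 + 25 * ζ ^ 5 + 37 * ζ ^ 6 + 56 * ζ ^ 7
      + 73 * ζ ^ 8 + 113 * ζ ^ 9 + 124 * ζ ^ 10 + 76 * ζ ^ 11)
    (-43 - 41 * ζ - 20 * ζ ^ 2 - 37 * ζ ^ 3 - 32 * ζ ^ 4 - 12 * ζ ^ 5 - 18 * ζ ^ 6 - 27 * ζ ^ 7
      - 35 * ζ ^ 8 - 54 * ζ ^ 9 - 59 * ζ ^ 10 - 36 * ζ ^ 11)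
    201568 (421949 + 5626 * ζ + 75 * ζ ^ 2 + ζ ^ 3) ?_ ?_ ?_
  · push_cast
    linear_combination (-68 + 65 * ζ + 48 * ζ ^ 2 + 76 * ζ ^ 3) * hΦ
  · push_cast
    linear_combination (32 - 31 * ζ - 23 * ζ ^ 2 - 36 * ζ ^ 3) * hΦ
  · push_cast
    ring

/-- `X³ - X - 1` modulo `3`. -/
theorem FA_R_pid13_Qmap :
    (X ^ 3 - X - 1 : ℤ[X]).map (Int.castRingHom (ZMod 3)) = X ^ 3 - X - 1 := by
  simp

theorem FA_R_pid13_Q_natDegree : (X ^ 3 - X - 1 : (ZMod 3)[X]).natDegree = 3 := by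
  compute_degree!

theorem FA_R_pid13_Q_monic : (X ^ 3 - X - 1 : (ZMod 3)[X]).Monic := by
  monicity!

theorem FA_R_pid13_Q_irreducible : Irreducible (X ^ 3 - X - 1 : (ZMod 3)[X]) := by
  rw [FA_R_pid13_Q_monic.irreducible_iff_roots_eq_zero_of_degree_le_three
    (by rw [FA_R_pid13_Q_natDegree]; norm_num) (by rw [FA_R_pid13_Q_natDegree])]
  rw [Multiset.eq_zero_iff_forall_notMem]
  intro a ha
  rw [mem_roots FA_R_pid13_Q_monic.ne_zero, IsRoot.def] at ha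
  simp only [eval_sub, eval_pow, eval_X, eval_one] at ha
  revert a
  decide

theorem FA_R_pid13_Q_dvd : (X ^ 3 - X - 1 : (ZMod 3)[X]) ∣ cyclotomic 13 (ZMod 3) := by
  have h3 : (3 : (ZMod 3)[X]) = 0 := by
    have : ((3 : ℕ) : (ZMod 3)[X]) = 0 := by
      rw [← map_natCast (C : ZMod 3 →+* (ZMod 3)[X])]
      rw [ZMod.natCast_self, map_zero]
    exact_mod_cast this
  refine ⟨-1 - X ^ 2 - X ^ 3 + X ^ 5 - X ^ 7 + X ^ 8 + X ^ 9, ?_⟩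
  rw [cyclotomic_prime]
  simp only [Finset.sum_range_succ, Finset.sum_range_zero, zero_add, pow_zero, pow_one]
  linear_combination (X ^ 5 + X ^ 6 + X ^ 9 + X ^ 10 : (ZMod 3)[X]) * h3

/-- The prime `(3, ζ³ - ζ - 1)` of `ℤ[ζ₁₃]` is generated by `1 + ζ - ζ³`. -/
theorem FA_R_pid13_3 :
    ∃ P ∈ Ideal.primesOver (Ideal.span {((3 : ℕ) : ℤ)}) (𝓞 K), Submodule.IsPrincipal P := by
  have : Fact (Nat.Prime 3) := ⟨by norm_num⟩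
  have hΦ := FA_R_pid13_rel K
  have hae : aeval (FA_R_zeta 13 K) (X ^ 3 - X - 1 : ℤ[X]) =
      FA_R_zeta 13 K ^ 3 - FA_R_zeta 13 K - 1 := by
    simp
  set ζ := FA_R_zeta 13 K with hζ
  refine FA_R_principal_prime_of_cert 13 3 K (X ^ 3 - X - 1)
    (by rw [FA_R_pid13_Qmap]; exact FA_R_pid13_Q_monic)
    (by rw [FA_R_pid13_Qmap]; exact FA_R_pid13_Q_irreducible)
    (by rw [FA_R_pid13_Qmap]; exact FA_R_pid13_Q_dvd)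
    (1 + ζ - ζ ^ 3)
    (-1 - ζ ^ 2 - ζ ^ 3 - 2 * ζ ^ 5 - ζ ^ 7 - 2 * ζ ^ 8 + ζ ^ 9 - 3 * ζ ^ 10)
    (-1) 0 (-1) ?_ ?_ ?_
  · push_cast
    linear_combination (-4 + 3 * ζ) * hΦ
  · rw [hae]
    ring
  · rw [hae]
    ring

end

/-- Class number one for `ℚ(ζ₁₃)`. -/
theorem FA_R_pid13 : FA_R_PID 13 := by
  have : Fact (Nat.Prime 13) := ⟨by norm_num⟩
  have := FA_R_isCyclotomicExtension 13
  refine FA_R_pid_of_witnesses 13 307 9 [2, 3, 5, 7, 11, 13, 17] FA_R_pid13_bound (by norm_num)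
    (by decide) [3, 53, 79, 131, 157] (by decide +kernel) ?_
  intro q hq _
  simp only [List.mem_cons, List.not_mem_nil, or_false] at hq
  rcases hq with rfl | rfl | rfl | rfl | rfl
  · exact FA_R_pid13_3 (FA_R_K 13)
  · exact FA_R_pid13_53 (FA_R_K 13)
  · exact FA_R_pid13_79 (FA_R_K 13)
  · exact FA_R_pid13_131 (FA_R_K 13)
  · exact FA_R_pid13_157 (FA_R_K 13)

end Fermat.Agent.R
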