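import Fermat.Agent.R.PID7
import Fermat.Agent.R.PID11
import Fermat.Agent.R.PID13

/-!
# Project R4 — class number one for `ℚ(ζ_p)`, `p = 5, 7, 11, 13`
-/

set_option autoImplicit false

namespace Fermat.Agent.R

/-- Class number one for `ℚ(ζ₅)` (Mathlib's `five_pid`). -/
theorem FA_R_pid5 : FA_R_PID 5 := by
  have := FA_R_isCyclotomicExtension 5
  exact IsCyclotomicExtension.Rat.five_pid (FA_R_K 5)

/-- Target of track R4. -/
theorem FA_R_pid_target : FA_R_Target_PID := ⟨FA_R_pid7, FA_R_pid11, FA_R_pid13⟩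

/-- Class number one for the four exponents of Project R. -/
theorem FA_R_pid_of_mem {p : ℕ} (hp : p = 5 ∨ p = 7 ∨ p = 11 ∨ p = 13) : FA_R_PID p := by
  rcases hp with rfl | rfl | rfl | rfl
  · exact FA_R_pid5
  · exact FA_R_pid7
  · exact FA_R_pid11
  · exact FA_R_pid13

end Fermat.Agent.R
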