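import Mathlib

/-!
# Project R, item 69 — congruence upgrade

For a unit `u` of `ℤ[ζ_p]` with `u ≡ n mod p` (`n ∈ ℤ`), we have `u^(p-1) ≡ 1 mod λ^p`, `λ = ζ - 1`.
-/

set_option autoImplicit false

open Polynomial NumberField

namespace Fermat.Agent.R

section

variable {p : ℕ} [hp : Fact p.Prime] {K : Type} [Field K] [NumberField K]
  [IsCyclotomicExtension {p} ℚ K] {ζ : K} (hζ : IsPrimitiveRoot ζ p)

include hζ in
/-- Every ring automorphism of `𝓞 K` is trivial modulo `λ = ζ - 1`. -/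
theorem FA_R_aut_congr (σ : 𝓞 K ≃ₐ[ℤ] 𝓞 K) (x : 𝓞 K) :
    (hζ.toInteger - 1) ∣ σ x - x := by
  have hp' := hp.out
  have : NeZero p := ⟨hp'.ne_zero⟩
  let S : Subalgebra ℤ (𝓞 K) :=
    { carrier := {x | (hζ.toInteger - 1) ∣ σ x - x}
      mul_mem' := by
        intro a b ha hb
        have ha' : (hζ.toInteger - 1) ∣ σ a - a := ha
        have hb' : (hζ.toInteger - 1) ∣ σ b - b := hb
        show (hζ.toInteger - 1) ∣ σ (a * b) - a * b
        rw [map_mul]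
        have : σ a * σ b - a * b = σ a * (σ b - b) + (σ a - a) * b := by ring
        rw [this]
        exact dvd_add (Dvd.dvd.mul_left hb' _) (Dvd.dvd.mul_right ha' _)
      add_mem' := by
        intro a b ha hb
        have ha' : (hζ.toInteger - 1) ∣ σ a - a := ha
        have hb' : (hζ.toInteger - 1) ∣ σ b - b := hb
        show (hζ.toInteger - 1) ∣ σ (a + b) - (a + b)
        rw [map_add]
        have : σ a + σ b - (a + b) = (σ a - a) + (σ b - b) := by ring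
        rw [this]
        exact dvd_add ha' hb'
      algebraMap_mem' := by
        intro r
        show (hζ.toInteger - 1) ∣ σ (algebraMap ℤ (𝓞 K) r) - algebraMap ℤ (𝓞 K) r
        rw [σ.commutes, sub_self]
        exact dvd_zero _ }
  have hmem : hζ.toInteger ∈ S := by
    show (hζ.toInteger - 1) ∣ σ hζ.toInteger - hζ.toInteger
    have h1 : IsPrimitiveRoot (σ hζ.toInteger) p :=
      hζ.toInteger_isPrimitiveRoot.map_of_injective σ.injective
    obtain ⟨i, -, hi⟩ := hζ.toInteger_isPrimitiveRoot.eq_pow_of_pow_eq_one h1.pow_eq_one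
    have h2 : (hζ.toInteger - 1) ∣ σ hζ.toInteger - 1 := by
      rw [← hi]
      simpa using sub_dvd_pow_sub_pow hζ.toInteger 1 i
    have : σ hζ.toInteger - hζ.toInteger = (σ hζ.toInteger - 1) - (hζ.toInteger - 1) := by ring
    rw [this]
    exact dvd_sub h2 dvd_rfl
  have htop : S = ⊤ := by
    rw [eq_top_iff, ← hζ.integralPowerBasis.adjoin_gen_eq_top, hζ.integralPowerBasis_gen]
    exact Algebra.adjoin_le (by simpa using hmem)
  have : x ∈ S := htop ▸ Algebra.mem_top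
  exact this

end

section

variable {p : ℕ} [hp : Fact p.Prime] {K : Type} [Field K] [NumberField K]
  [IsCyclotomicExtension {p} ℚ K] {ζ : K} (hζ : IsPrimitiveRoot ζ p)

include hζ in
/-- `Tr(x) ≡ -x mod λ`. -/
theorem FA_R_trace_add_self (x : 𝓞 K) :
    (hζ.toInteger - 1) ∣ ((Algebra.trace ℤ (𝓞 K) x : ℤ) : 𝓞 K) + x := by
  classical
  have hp' := hp.out
  have : NeZero p := ⟨hp'.ne_zero⟩
  have hgal : IsGalois ℚ K := IsCyclotomicExtension.isGalois {p} ℚ K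
  -- the trace as a sum over the Galois group, inside `𝓞 K`
  have htr : ((Algebra.trace ℤ (𝓞 K) x : ℤ) : 𝓞 K) =
      ∑ σ : K ≃ₐ[ℚ] K, galRestrict ℤ ℚ K (𝓞 K) σ x := by
    apply RingOfIntegers.coe_injective
    have h1 : ((Algebra.trace ℤ (𝓞 K) x : ℤ) : K) = algebraMap ℚ K (Algebra.trace ℚ K (x : K)) := by
      rw [← Algebra.coe_trace_int]; simp
    have h2 := trace_eq_sum_automorphisms (K := ℚ) (L := K) (x : K)
    have h0 : (algebraMap (𝓞 K) K) ((Algebra.trace ℤ (𝓞 K) x : ℤ) : 𝓞 K) =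
        ((Algebra.trace ℤ (𝓞 K) x : ℤ) : K) := by simp
    rw [h0, h1, h2]
    simp only [map_sum]
    refine Finset.sum_congr rfl fun σ _ => ?_
    exact (algebraMap_galRestrict_apply ℤ σ x).symm
  have hcard : Fintype.card (K ≃ₐ[ℚ] K) = p - 1 := by
    rw [← Nat.card_eq_fintype_card, IsGalois.card_aut_eq_finrank,
      IsCyclotomicExtension.finrank K (Polynomial.cyclotomic.irreducible_rat hp'.pos),
      Nat.totient_prime hp']
  have hsum : ∑ σ : K ≃ₐ[ℚ] K, galRestrict ℤ ℚ K (𝓞 K) σ x =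
      ∑ σ : K ≃ₐ[ℚ] K, (galRestrict ℤ ℚ K (𝓞 K) σ x - x) + ((p - 1 : ℕ) : 𝓞 K) * x := by
    rw [Finset.sum_sub_distrib, Finset.sum_const, Finset.card_univ, hcard, nsmul_eq_mul]
    ring
  rw [htr, hsum]
  have h3 : (hζ.toInteger - 1) ∣ ∑ σ : K ≃ₐ[ℚ] K, (galRestrict ℤ ℚ K (𝓞 K) σ x - x) :=
    Finset.dvd_sum fun σ _ => FA_R_aut_congr hζ _ x
  have h4 : ((p - 1 : ℕ) : 𝓞 K) * x + x = (p : 𝓞 K) * x := by
    rw [Nat.cast_sub hp'.one_le]; push_cast; ring
  rw [add_assoc, h4]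
  exact dvd_add h3 (Dvd.dvd.mul_right hζ.toInteger_sub_one_dvd_prime' _)

end

section

variable {p : ℕ} [hp : Fact p.Prime] {K : Type} [Field K] [NumberField K]
  [IsCyclotomicExtension {p} ℚ K] {ζ : K} (hζ : IsPrimitiveRoot ζ p)

include hζ in
/-- A unit congruent to a rational integer mod `p` has `u^(p-1) ≡ 1 mod λ^p`. -/
theorem FA_R_upgrade (hp2 : p ≠ 2) (u : (𝓞 K)ˣ) (n : ℤ)
    (h : (p : 𝓞 K) ∣ (u : 𝓞 K) - (n : 𝓞 K)) :
    (hζ.toInteger - 1) ^ p ∣ (u : 𝓞 K) ^ (p - 1) - 1 := by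
  classical
  have hp' := hp.out
  have : NeZero p := ⟨hp'.ne_zero⟩
  set l : 𝓞 K := hζ.toInteger - 1 with hl
  have hlprime : Prime l := hζ.zeta_sub_one_prime'
  have hlp : l ∣ (p : 𝓞 K) := hζ.toInteger_sub_one_dvd_prime'
  -- (a) `p ∤ n`
  have hpn : ¬ (p : ℤ) ∣ n := by
    intro hdvd
    have h1 : l ∣ (n : 𝓞 K) :=
      (IsCyclotomicExtension.Rat.zeta_sub_one_dvd_intCast_iff' p hζ).mpr hdvd
    have h2 : l ∣ (u : 𝓞 K) := by
      have := dvd_add (hlp.trans h) h1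
      simpa using this
    exact hlprime.not_isUnit (isUnit_of_dvd_unit h2 u.isUnit)
  -- (b) Fermat
  have hcop : IsCoprime n (p : ℤ) :=
    ((Nat.prime_iff_prime_int.mp hp').coprime_iff_not_dvd.mpr hpn).symm
  have hfer : (p : ℤ) ∣ n ^ (p - 1) - 1 :=
    (Int.ModEq.pow_card_sub_one_eq_one hp' hcop).symm.dvd
  have hfer' : (p : 𝓞 K) ∣ (n : 𝓞 K) ^ (p - 1) - 1 := by
    obtain ⟨c, hc⟩ := hfer
    refine ⟨(c : 𝓞 K), ?_⟩
    have := congrArg (Int.cast : ℤ → 𝓞 K) hc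
    push_cast at this
    exact this
  -- (c)
  have hw : (p : 𝓞 K) ∣ (u : 𝓞 K) ^ (p - 1) - 1 := by
    have h1 : (p : 𝓞 K) ∣ (u : 𝓞 K) ^ (p - 1) - (n : 𝓞 K) ^ (p - 1) :=
      h.trans (sub_dvd_pow_sub_pow _ _ _)
    have := dvd_add h1 hfer'
    simpa using this
  obtain ⟨x, hx⟩ := hw
  -- (d) the norm of `u^(p-1)` is one
  have hnorm : Algebra.norm ℤ ((u : 𝓞 K) ^ (p - 1)) = 1 := by
    have hu : IsUnit (Algebra.norm ℤ (u : 𝓞 K)) := u.isUnit.map _
    have heven : Even (p - 1) := hp'.even_sub_one hp2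
    rw [map_pow]
    rcases Int.isUnit_iff.mp hu with h1 | h1
    · rw [h1, one_pow]
    · rw [h1, heven.neg_one_pow]
  -- (e)
  obtain ⟨r, hr⟩ := Algebra.norm_one_add_smul (A := ℤ) (B := 𝓞 K) (p : ℤ) x
  have h1 : (1 : 𝓞 K) + (p : ℤ) • x = (u : 𝓞 K) ^ (p - 1) := by
    rw [zsmul_eq_mul, Int.cast_natCast, ← hx]; ring
  rw [h1, hnorm] at hr
  have htr : (p : ℤ) ∣ Algebra.trace ℤ (𝓞 K) x := by
    have hp0 : (p : ℤ) ≠ 0 := by exact_mod_cast hp'.ne_zero
    refine ⟨-r, ?_⟩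
    apply mul_right_cancel₀ hp0
    linear_combination -hr
  -- (f)
  have hlx : l ∣ x := by
    have h2 := FA_R_trace_add_self hζ x
    have h3 : l ∣ ((Algebra.trace ℤ (𝓞 K) x : ℤ) : 𝓞 K) :=
      (IsCyclotomicExtension.Rat.zeta_sub_one_dvd_intCast_iff' p hζ).mpr htr
    simpa using dvd_sub h2 h3
  obtain ⟨y, hy⟩ := hlx
  obtain ⟨ε, hε⟩ := IsCyclotomicExtension.Rat.associated_zeta_sub_one_pow_prime p hζ
  refine ⟨ε * y, ?_⟩
  have hlpow : l ^ p = l ^ (p - 1) * l := by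
    rw [← pow_succ, Nat.sub_add_cancel hp'.one_le]
  rw [hx, hy, ← hε, hlpow]
  ring

end

end Fermat.Agent.R
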