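import Mathlib

set_option autoImplicit false

open Polynomial

namespace Fermat.Agent.R

/-- The Artin–Schreier-type polynomial `g = ((1 + lX)^p - u) / l^p`. -/
theorem FA_R_exists_poly {R : Type*} [CommRing R] [IsDomain R] {p : ℕ} (hp : p.Prime)
    (l ε u w : R) (hl : l ≠ 0) (hε : l ^ (p - 1) * ε = p) (hw : u - 1 = l ^ p * w) :
    ∃ g : R[X], g.Monic ∧ g.natDegree = p ∧
      C (l ^ p) * g = (1 + C l * X) ^ p - C u ∧
      C (l ^ (p - 1)) * derivative g = C (p : R) * (1 + C l * X) ^ (p - 1) := by
  obtain ⟨r, hr⟩ := exists_add_pow_prime_eq hp (1 : R[X]) (C l * X)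
  have hlp : l ^ p = l ^ (p - 1) * l := by
    rw [← pow_succ, Nat.sub_add_cancel hp.one_le]
  have hpl : (p : R) * l = l ^ p * ε := by rw [hlp, ← hε]; ring
  set g : R[X] := X ^ p + C ε * X * r - C w with hg
  have hF : C (l ^ p) * g = (1 + C l * X) ^ p - C u := by
    have hu : C u = C (l ^ p) * C w + 1 := by
      rw [← C_mul, ← hw]; simp
    have hpl' : (p : R[X]) * C l = C (l ^ p) * C ε := by
      rw [← C_mul, ← hpl, C_mul]; simp
    rw [hr, hu, hg, mul_pow, ← C_pow]
    linear_combination (-(X * r)) * hpl'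
  have hlp0 : l ^ p ≠ 0 := pow_ne_zero _ hl
  have hdegF : ((1 + C l * X) ^ p - C u).natDegree = p := by
    have h1 : (1 + C l * X : R[X]) = C l * X + C 1 := by simp [add_comm]
    have h2 : (C l * X + C 1 : R[X]).natDegree = 1 := natDegree_linear hl
    have h3 : ((1 + C l * X : R[X]) ^ p).natDegree = p := by
      rw [h1, natDegree_pow, h2, mul_one]
    rw [natDegree_sub_C, h3]
  have hlcF : ((1 + C l * X) ^ p - C u).leadingCoeff = l ^ p := by
    have h1 : (1 + C l * X : R[X]) = C l * X + C 1 := by simp [add_comm]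
    have h3 : ((1 + C l * X : R[X]) ^ p).natDegree = p := by
      rw [h1, natDegree_pow, natDegree_linear hl, mul_one]
    have hdeg : (C u : R[X]).degree < ((1 + C l * X : R[X]) ^ p).degree := by
      refine lt_of_le_of_lt degree_C_le ?_
      rw [degree_eq_natDegree (by
        intro h0; rw [h0] at h3; simp at h3; exact hp.ne_zero h3.symm), h3]
      exact_mod_cast hp.pos
    rw [leadingCoeff_sub_of_degree_lt hdeg, leadingCoeff_pow, h1, leadingCoeff_linear hl]
  have hg0 : g ≠ 0 := by
    intro h0
    rw [h0, mul_zero] at hF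
    have := congrArg natDegree hF
    rw [hdegF] at this
    simp at this
    exact hp.ne_zero this.symm
  have hdeg : g.natDegree = p := by
    have := congrArg natDegree hF
    rwa [natDegree_C_mul hlp0, hdegF] at this
  have hmonic : g.Monic := by
    have := congrArg leadingCoeff hF
    rw [leadingCoeff_mul, leadingCoeff_C, hlcF] at this
    exact mul_left_cancel₀ hlp0 (by rw [this, mul_one])
  refine ⟨g, hmonic, hdeg, hF, ?_⟩
  have hder : C (l ^ p) * derivative g =
      C (p : R) * (1 + C l * X) ^ (p - 1) * C l := by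
    have h := congrArg derivative hF
    rw [derivative_C_mul] at h
    rw [h]
    simp [derivative_pow]
  have hCl : (C l : R[X]) ≠ 0 := by simpa using hl
  apply mul_left_cancel₀ hCl
  rw [← mul_assoc, ← C_mul, mul_comm l, ← hlp, hder]
  ring

end Fermat.Agent.R
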