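import Mathlib
import Fermat.Agent.R.UnramifiedPoly

set_option autoImplicit false

open Polynomial NumberField IntermediateField

namespace Fermat.Agent.R

section

variable {p : ℕ} [hp : Fact p.Prime] {K : Type} [Field K] [NumberField K]
  [IsCyclotomicExtension {p} ℚ K] {ζ : K} (hζ : IsPrimitiveRoot ζ p)

include hζ in
/-- Core: the different of `K(u^{1/p})/K` is trivial when `u ≡ 1 mod λ^p`. -/
theorem FA_R_different_eq_top (u : (𝓞 K)ˣ)
    (hcong : (hζ.toInteger - 1) ^ p ∣ (u : 𝓞 K) - 1)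
    (L : Type) [Field L] [NumberField L] [Algebra K L]
    [IsSplittingField K L (X ^ p - C (((u : 𝓞 K) : K)))]
    (hirr : Irreducible (X ^ p - C (((u : 𝓞 K) : K)))) :
    differentIdeal (𝓞 K) (𝓞 L) = ⊤ := by
  classical
  have hp' := hp.out
  have : NeZero p := ⟨hp'.ne_zero⟩
  set l : 𝓞 K := hζ.toInteger - 1 with hl
  have hl0 : l ≠ 0 := hζ.zeta_sub_one_prime'.ne_zero
  obtain ⟨ε, hε⟩ := IsCyclotomicExtension.Rat.associated_zeta_sub_one_pow_prime p hζ
  obtain ⟨w, hw⟩ := hcong
  obtain ⟨g, hgm, hgd, hgF, hgD⟩ :=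
    FA_R_exists_poly hp' l (ε : 𝓞 K) (u : 𝓞 K) w hl0 hε hw
  -- the root `α`
  set α : L := rootOfSplitsXPowSubC (NeZero.pos p) (((u : 𝓞 K) : K)) L with hα
  have hαp : α ^ p = algebraMap K L ((u : 𝓞 K) : K) := rootOfSplitsXPowSubC_pow _ _
  have hαp' : α ^ p = algebraMap (𝓞 K) L (u : 𝓞 K) := by
    rw [hαp]; rfl
  have hζ' : (primitiveRoots p K).Nonempty :=
    ⟨ζ, (mem_primitiveRoots hp'.pos).mpr hζ⟩
  have hadj : Algebra.adjoin K {α} = ⊤ :=
    Algebra.adjoin_root_eq_top_of_isSplittingField hζ' hirr hαp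
  have hfin : Module.finrank K L = p := finrank_of_isSplittingField_X_pow_sub_C hζ' hirr L
  have : FiniteDimensional K L := Module.finite_of_finrank_pos (by rw [hfin]; exact hp'.pos)
  -- `β = (α - 1)/λ`
  set lL : L := algebraMap (𝓞 K) L l with hlL
  have hlL0 : lL ≠ 0 := by
    rw [hlL, Ne, FaithfulSMul.algebraMap_eq_zero_iff]; exact hl0
  set β : L := (α - 1) / lL with hβ
  have hαβ : 1 + lL * β = α := by
    rw [hβ]; field_simp; ring
  have hβ0 : aeval β g = 0 := by
    have h := congrArg (aeval β) hgF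
    simp only [map_mul, aeval_C, map_sub, map_pow, map_add, map_one, aeval_X] at h
    rw [← hlL, hαβ, hαp', sub_self] at h
    exact (mul_eq_zero.mp h).resolve_left (pow_ne_zero _ hlL0)
  have hβint : IsIntegral (𝓞 K) β := ⟨g, hgm, hβ0⟩
  have hβintZ : IsIntegral ℤ β := isIntegral_trans _ hβint
  have hαintZ : IsIntegral ℤ α := by
    refine IsIntegral.of_pow hp'.pos ?_
    rw [hαp']
    exact (RingOfIntegers.isIntegral (u : 𝓞 K)).algebraMap
  -- elements of `𝓞 L`
  set α' : 𝓞 L := ⟨α, hαintZ⟩ with hα'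
  set β' : 𝓞 L := ⟨β, hβintZ⟩ with hβ'
  have hα'c : algebraMap (𝓞 L) L α' = α := rfl
  have hβ'c : algebraMap (𝓞 L) L β' = β := rfl
  have hinj : Function.Injective (algebraMap (𝓞 L) L) := RingOfIntegers.coe_injective
  have hα'p : α' ^ p = algebraMap (𝓞 K) (𝓞 L) (u : 𝓞 K) := by
    apply hinj
    rw [map_pow, hα'c, hαp', ← IsScalarTower.algebraMap_apply]
  have hα'u : IsUnit α' := by
    have h : IsUnit (α' ^ p) := by rw [hα'p]; exact u.isUnit.map _
    exact (isUnit_pow_iff hp'.ne_zero).mp h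
  have hβ'0 : aeval β' g = 0 := by
    apply hinj
    rw [map_zero, ← aeval_algebraMap_apply, hβ'c, hβ0]
  -- adjoin
  have hadjβ : Algebra.adjoin K {algebraMap (𝓞 L) L β'} = ⊤ := by
    rw [hβ'c, eq_top_iff, ← hadj]
    apply Algebra.adjoin_le
    rintro x (rfl : x = α)
    rw [← hαβ]
    refine add_mem (one_mem _) (mul_mem ?_ (Algebra.subset_adjoin rfl))
    rw [hlL, IsScalarTower.algebraMap_apply (𝓞 K) K L]
    exact Subalgebra.algebraMap_mem _ _
  -- minimal polynomial
  have hβ'int : IsIntegral (𝓞 K) β' := ⟨g, hgm, hβ'0⟩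
  have hadjF : K⟮β⟯ = ⊤ := by
    apply IntermediateField.toSubalgebra_injective
    rw [IntermediateField.adjoin_simple_toSubalgebra_of_isAlgebraic
      (Algebra.IsAlgebraic.isAlgebraic β), IntermediateField.top_toSubalgebra]
    exact hadjβ
  have hdegK : (minpoly K β).natDegree = p := by
    rw [(Field.primitive_element_iff_minpoly_natDegree_eq K β).mp hadjF, hfin]
  have hmin : g = minpoly (𝓞 K) β' := by
    apply minpoly.IsIntegrallyClosed.unique_of_degree_le_degree_minpoly hgm hβ'0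
    have h1 := minpoly.isIntegrallyClosed_eq_field_fractions K L hβ'int
    rw [hβ'c] at h1
    have h2 : (minpoly (𝓞 K) β').natDegree = p := by
      rw [← hdegK, h1, (minpoly.monic hβ'int).natDegree_map]
    rw [degree_eq_natDegree hgm.ne_zero, degree_eq_natDegree (minpoly.ne_zero hβ'int), hgd, h2]
  -- derivative
  have hder : aeval β' (derivative g) = algebraMap (𝓞 K) (𝓞 L) (ε : 𝓞 K) * α' ^ (p - 1) := by
    apply hinj
    rw [← aeval_algebraMap_apply, hβ'c, map_mul, map_pow, hα'c,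
      ← IsScalarTower.algebraMap_apply]
    have h := congrArg (aeval β) hgD
    simp only [map_mul, aeval_C, map_pow, map_add, map_one, aeval_X, map_natCast] at h
    rw [← hlL, hαβ] at h
    have hpε : (p : L) = lL ^ (p - 1) * algebraMap (𝓞 K) L (ε : 𝓞 K) := by
      rw [hlL, ← map_pow, ← map_mul, hε, map_natCast]
    rw [hpε, mul_assoc] at h
    exact mul_left_cancel₀ (pow_ne_zero _ hlL0) h
  have hmem := aeval_derivative_mem_differentIdeal (𝓞 K) K L β' hadjβ
  rw [← hmin, hder] at hmem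
  exact Ideal.eq_top_of_isUnit_mem _ hmem ((ε.isUnit.map _).mul (hα'u.pow _))

end

end Fermat.Agent.R
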