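import Mathlib
import Fermat.Agent.R.UnramifiedDifferent
import Fermat.Agent.R.UnramifiedCongr
import Fermat.Agent.R.Hilbert94

set_option autoImplicit false

open Polynomial NumberField

namespace Fermat.Agent.R

attribute [local instance] FractionRing.liftAlgebra FractionRing.isScalarTower_liftAlgebra

/-- Trivial different ⟹ unramified everywhere. -/
theorem FA_R_unramified_of_different (K L : Type) [Field K] [Field L] [NumberField K]
    [NumberField L] [Algebra K L] (h : differentIdeal (𝓞 K) (𝓞 L) = ⊤) :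
    FA_R_Unramified K L := by
  intro P hP hP0
  have hsep : Algebra.IsSeparable (FractionRing (𝓞 K)) (FractionRing (𝓞 L)) := inferInstance
  have hunr : Algebra.IsUnramifiedAt (𝓞 K) P := by
    rw [← not_dvd_differentIdeal_iff, h, Ideal.dvd_iff_le, top_le_iff]
    exact hP.ne_top
  exact Ideal.ramificationIdx_eq_one_of_isUnramifiedAt


/-- Item 69: a unit `u ≡ n mod p` of `ℤ[ζ_p]` which is not a `p`-th power of a unit yields an
everywhere unramified Galois extension of degree `p`. -/
theorem FA_R_unramified : FA_R_Target_Unramified := by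
  intro p hp hp3 u n hcong hnot
  have : Fact p.Prime := ⟨hp⟩
  have hp2 : p ≠ 2 := by omega
  have : NeZero p := ⟨hp.ne_zero⟩
  have : NeZero ((p : ℕ) : ℚ) := ⟨by exact_mod_cast hp.ne_zero⟩
  have : IsCyclotomicExtension {p} ℚ (FA_R_K p) := CyclotomicField.isCyclotomicExtension p ℚ
  have hζ : IsPrimitiveRoot (IsCyclotomicExtension.zeta p ℚ (FA_R_K p)) p :=
    IsCyclotomicExtension.zeta_spec p ℚ (FA_R_K p)
  set w : (𝓞 (FA_R_K p))ˣ := u ^ (p - 1) with hw
  have hwc : (hζ.toInteger - 1) ^ p ∣ ((w : (𝓞 (FA_R_K p))ˣ) : 𝓞 (FA_R_K p)) - 1 := by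
    have := FA_R_upgrade hζ hp2 u n hcong
    simpa [hw] using this
  -- `w` is not a `p`-th power in `K`
  have hwpow : ∀ b : FA_R_K p, b ^ p ≠ (((w : (𝓞 (FA_R_K p))ˣ) : 𝓞 (FA_R_K p)) : FA_R_K p) := by
    intro b hb
    have hbint : IsIntegral ℤ b := by
      refine IsIntegral.of_pow hp.pos ?_
      rw [hb]
      exact RingOfIntegers.isIntegral_coe _
    set b' : 𝓞 (FA_R_K p) := ⟨b, hbint⟩ with hb'
    have hb'p : b' ^ p = ((w : (𝓞 (FA_R_K p))ˣ) : 𝓞 (FA_R_K p)) := by
      apply RingOfIntegers.coe_injective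
      exact hb
    have hb'u : IsUnit b' := by
      have h : IsUnit (b' ^ p) := by rw [hb'p]; exact w.isUnit
      exact (isUnit_pow_iff hp.ne_zero).mp h
    obtain ⟨v, hv⟩ := hb'u
    apply hnot
    refine ⟨u * v⁻¹, ?_⟩
    have h1 : v ^ p = u ^ (p - 1) := by
      apply Units.ext
      rw [Units.val_pow_eq_pow_val, hv, hb'p]
    rw [mul_pow, inv_pow, h1, eq_mul_inv_iff_mul_eq, ← pow_succ', Nat.sub_add_cancel hp.one_le]
  have hirr : Irreducible (X ^ p - C (((w : (𝓞 (FA_R_K p))ˣ) : 𝓞 (FA_R_K p)) : FA_R_K p)) :=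
    X_pow_sub_C_irreducible_of_prime hp hwpow
  have hζ' : (primitiveRoots p (FA_R_K p)).Nonempty :=
    ⟨_, (mem_primitiveRoots hp.pos).mpr hζ⟩
  let L := (X ^ p - C (((w : (𝓞 (FA_R_K p))ˣ) : 𝓞 (FA_R_K p)) : FA_R_K p)).SplittingField
  have hfin : Module.finrank (FA_R_K p) L = p :=
    finrank_of_isSplittingField_X_pow_sub_C hζ' hirr L
  have : FiniteDimensional (FA_R_K p) L := inferInstance
  have : NumberField L := NumberField.of_module_finite (FA_R_K p) L
  have hgal : IsGalois (FA_R_K p) L := isGalois_of_isSplittingField_X_pow_sub_C hζ' hirr L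
  refine ⟨L, inferInstance, inferInstance, inferInstance, hgal, hfin, ?_⟩
  exact FA_R_unramified_of_different (FA_R_K p) L (FA_R_different_eq_top hζ w hwc L hirr)

end Fermat.Agent.R
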