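import Fermat.Agent.R.Glue
import Fermat.Agent.R.PID
import Fermat.Agent.R.CaseI
import Fermat.Agent.R.Hilbert94
import Fermat.Agent.R.Unramified

/-!
# Project R, item 71 — final assembly modulo the two open targets

Everything except `FA_R_Target_CaseII` (item 66) and `FA_R_Target_Hilbert92` (item 67) is proved:
Case I (65), Hilbert 94 + Kummer assembly (68), unramifiedness (69), class number one (70).
Once the two targets are theorems, `S10` and `S11` are one-liners from `FA_R_no_frey_small_of`.
-/

set_option autoImplicit false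

namespace Fermat.Agent.R

/-- Fermat's Last Theorem for the exponents `5, 7, 11, 13`, modulo items 66 and 67. -/
theorem FA_R_flt_small_of (h2 : FA_R_Target_CaseII) (h92 : FA_R_Target_Hilbert92) {p : ℕ}
    (hp : p = 5 ∨ p = 7 ∨ p = 11 ∨ p = 13) : FermatLastTheoremFor p := by
  have hprime : p.Prime := by
    rcases hp with rfl | rfl | rfl | rfl <;> norm_num
  have hp5 : 5 ≤ p := by
    rcases hp with rfl | rfl | rfl | rfl <;> norm_num
  exact FA_R_flt_of_targets FA_R_caseI h2 (FA_R_kummer_of h92 FA_R_unramified) p hprime hp5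
    (FA_R_pid_of_mem hp)

/-- There is no Frey package with exponent `5, 7, 11, 13`, modulo items 66 and 67. -/
theorem FA_R_no_frey_small_of (h2 : FA_R_Target_CaseII) (h92 : FA_R_Target_Hilbert92)
    (P : FreyPackage) (hp : P.p = 5 ∨ P.p = 7 ∨ P.p = 11 ∨ P.p = 13) : False :=
  FA_R_no_frey P (FA_R_flt_small_of h2 h92 hp)

end Fermat.Agent.R
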