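import Fermat.Agent.R.Interface
import Fermat.Prelude.Def_FLTPrelim_FreyPackage

/-!
# Project R — glue: from the track targets to `FermatLastTheoremFor p` and to "no Frey package"
-/

set_option autoImplicit false

open NumberField

namespace Fermat.Agent.R

/-- A Frey package contradicts Fermat's Last Theorem for its exponent. -/
theorem FA_R_no_frey (P : FreyPackage) (h : FermatLastTheoremFor P.p) : False := by
  rw [fermatLastTheoremFor_iff_int] at h
  exact h P.a P.b P.c P.ha0 P.hb0 P.hc0 P.hFLT

/-- Class number one for `ℚ(ζ₅)` from Mathlib. -/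
theorem FA_R_PID_five : FA_R_PID 5 := by
  unfold FA_R_PID FA_R_K
  have : NeZero ((5 : ℕ) : ℚ) := ⟨by norm_num⟩
  have : IsCyclotomicExtension {5} ℚ (CyclotomicField 5 ℚ) :=
    CyclotomicField.isCyclotomicExtension 5 ℚ
  exact IsCyclotomicExtension.Rat.five_pid (CyclotomicField 5 ℚ)

/-- All tracks together give FLT for a prime `p ≥ 5` with class number one. -/
theorem FA_R_flt_of_targets (h1 : FA_R_Target_CaseI) (h2 : FA_R_Target_CaseII)
    (hK : FA_R_Target_Kummer) (p : ℕ) (hp : p.Prime) (hp5 : 5 ≤ p) (hpid : FA_R_PID p) :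
    FermatLastTheoremFor p :=
  FA_R_flt_of_cases p (h1 p hp hp5 hpid)
    (h2 p hp hp5 hpid (hK p hp (by omega) hpid))

/-- No Frey package with exponent `p`, given the tracks and class number one. -/
theorem FA_R_no_frey_of_targets (h1 : FA_R_Target_CaseI) (h2 : FA_R_Target_CaseII)
    (hK : FA_R_Target_Kummer) (P : FreyPackage) (hpid : FA_R_PID P.p) : False :=
  FA_R_no_frey P (FA_R_flt_of_targets h1 h2 hK P.p P.pp P.hp5 hpid)

end Fermat.Agent.R
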