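import Mathlib

/-!
# Project R, track R2a (item 67): abstract counting lemmas for Hilbert 92

Pure group theory / linear algebra over `ℤ` (no number fields).
-/

set_option autoImplicit false

open Module Polynomial

namespace Fermat.Agent.R


section LemmaB

/-- index of `m • (Fin n → ℤ)`. -/
theorem FA_R_index_nsmul_pi (n m : ℕ) :
    (nsmulAddMonoidHom m : (Fin n → ℤ) →+ (Fin n → ℤ)).range.index = m ^ n := by
  have h : (nsmulAddMonoidHom m : (Fin n → ℤ) →+ (Fin n → ℤ)).range =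
      AddSubgroup.pi Set.univ (fun _ : Fin n => AddSubgroup.zmultiples (m : ℤ)) := by
    ext x
    simp only [AddMonoidHom.mem_range, nsmulAddMonoidHom_apply, AddSubgroup.mem_pi, Set.mem_univ,
      forall_const, AddSubgroup.mem_zmultiples_iff]
    constructor
    · rintro ⟨y, rfl⟩ i
      exact ⟨y i, by simp [mul_comm]⟩
    · intro h
      choose y hy using h
      exact ⟨y, by ext i; simp [← hy i, mul_comm]⟩
  rw [h, AddSubgroup.index_pi]
  simp [Int.index_zmultiples]

theorem FA_R_ker_nsmul_pi (n m : ℕ) (hm : m ≠ 0) :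
    (nsmulAddMonoidHom m : (Fin n → ℤ) →+ (Fin n → ℤ)).ker = ⊥ := by
  rw [AddSubgroup.eq_bot_iff_forall]
  intro x hx
  rw [AddMonoidHom.mem_ker, nsmulAddMonoidHom_apply] at hx
  ext i
  have := congrFun hx i
  simpa [hm] using this

/-- transfer of index of range / card of kernel of `m •` along an additive equivalence -/
theorem FA_R_index_nsmul_range_congr {A B : Type*} [AddCommGroup A] [AddCommGroup B]
    (e : A ≃+ B) (m : ℕ) :
    (nsmulAddMonoidHom m : A →+ A).range.index = (nsmulAddMonoidHom m : B →+ B).range.index := by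
  have h : (nsmulAddMonoidHom m : B →+ B).range =
      AddSubgroup.map (e : A →+ B) (nsmulAddMonoidHom m : A →+ A).range := by
    ext x
    simp only [AddMonoidHom.mem_range, nsmulAddMonoidHom_apply, AddSubgroup.mem_map,
      AddMonoidHom.coe_coe, exists_exists_eq_and, map_nsmul]
    constructor
    · rintro ⟨y, rfl⟩
      exact ⟨e.symm y, by simp⟩
    · rintro ⟨y, rfl⟩
      exact ⟨e y, rfl⟩
  rw [h, AddSubgroup.index_map_equiv]

theorem FA_R_card_ker_nsmul_congr {A B : Type*} [AddCommGroup A] [AddCommGroup B]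
    (e : A ≃+ B) (m : ℕ) :
    Nat.card (nsmulAddMonoidHom m : A →+ A).ker = Nat.card (nsmulAddMonoidHom m : B →+ B).ker := by
  refine Nat.card_congr ⟨fun x => ⟨e x.1, ?_⟩, fun y => ⟨e.symm y.1, ?_⟩, ?_, ?_⟩
  · have := x.2
    rw [AddMonoidHom.mem_ker, nsmulAddMonoidHom_apply] at this ⊢
    rw [← map_nsmul, this, map_zero]
  · have := y.2
    rw [AddMonoidHom.mem_ker, nsmulAddMonoidHom_apply] at this ⊢
    rw [← map_nsmul, this, map_zero]
  · intro x; simp
  · intro y; simp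

theorem FA_R_finrank_prod_finite (F T : Type*) [AddCommGroup F] [AddCommGroup T]
    [Module.Finite ℤ F] [Finite T] : finrank ℤ (F × T) = finrank ℤ F := by
  have hT : Module.IsTorsion ℤ T := isAddTorsion_iff_isTorsion_int.mp isAddTorsion_of_finite
  have hfin : Module.Finite ℤ T := Module.Finite.of_finite
  have h1 := (LinearMap.ker (LinearMap.fst ℤ F T)).finrank_quotient_add_finrank
  have h2 : finrank ℤ ((F × T) ⧸ LinearMap.ker (LinearMap.fst ℤ F T)) = finrank ℤ F :=
    ((LinearMap.fst ℤ F T).quotKerEquivOfSurjective LinearMap.fst_surjective).finrank_eq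
  have h3 : finrank ℤ (LinearMap.ker (LinearMap.fst ℤ F T)) = 0 := by
    rw [Module.finrank_eq_zero_iff_isTorsion]
    intro x
    obtain ⟨a, ha⟩ := @hT x.1.2
    refine ⟨a, ?_⟩
    ext
    · have := x.2
      rw [LinearMap.mem_ker, LinearMap.fst_apply] at this
      simp [this]
    · simpa using ha
  omega

theorem FA_R_index_nsmul_range (A : Type*) [AddCommGroup A] [Module.Finite ℤ A]
    (m : ℕ) (hm : m ≠ 0) :
    (nsmulAddMonoidHom m : A →+ A).range.index
      = m ^ finrank ℤ A * Nat.card (nsmulAddMonoidHom m : A →+ A).ker := by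
  have hfg : AddGroup.FG A := Module.Finite.iff_addGroup_fg.mp inferInstance
  obtain ⟨n, ι, _, p, hp, e, ⟨f⟩⟩ := AddCommGroup.equiv_free_prod_directSum_zmod A
  have hne : ∀ i, NeZero (p i ^ e i) := fun i => ⟨pow_ne_zero _ (hp i).ne_zero⟩
  let f' : A ≃+ (Fin n → ℤ) × (∀ i, ZMod (p i ^ e i)) :=
    f.trans (AddEquiv.prodCongr Finsupp.addEquivFunOnFinite (DirectSum.addEquivProd _))
  have hrank : finrank ℤ A = n := by
    rw [(f'.toIntLinearEquiv).finrank_eq, FA_R_finrank_prod_finite]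
    simp
  rw [FA_R_index_nsmul_range_congr f' m, FA_R_card_ker_nsmul_congr f' m, hrank]
  have h1 : (nsmulAddMonoidHom m : (Fin n → ℤ) × (∀ i, ZMod (p i ^ e i)) →+ _) =
      (nsmulAddMonoidHom m : (Fin n → ℤ) →+ _).prodMap
        (nsmulAddMonoidHom m : (∀ i, ZMod (p i ^ e i)) →+ _) := by
    ext x <;> simp
  rw [h1, AddMonoidHom.range_prodMap, AddMonoidHom.ker_prodMap, AddSubgroup.index_prod,
    FA_R_index_nsmul_pi, FA_R_ker_nsmul_pi n m hm, AddSubgroup.index_range]
  congr 1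
  rw [Nat.card_congr (AddSubgroup.prodEquiv _ _).toEquiv, Nat.card_prod]
  simp

end LemmaB




/-- `∑_{i<p} X^i - p = (X - 1) * Q₁` in `ℤ[X]`. -/
theorem FA_R_poly_geom_sub (p : ℕ) :
    ∃ Q : ℤ[X], (∑ i ∈ Finset.range p, (X : ℤ[X]) ^ i) - (p : ℤ[X]) = (X - 1) * Q := by
  have h : (X - C (1 : ℤ)) ∣ (∑ i ∈ Finset.range p, (X : ℤ[X]) ^ i) - (p : ℤ[X]) := by
    rw [Polynomial.dvd_iff_isRoot]
    simp [Polynomial.eval_finsetSum]
  obtain ⟨Q, hQ⟩ := h
  exact ⟨Q, by simpa using hQ⟩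

/-- `(1 - X)^(p-1) = ∑_{i<p} X^i + p * Q₂` in `ℤ[X]` for `p` prime. -/
theorem FA_R_poly_one_sub_pow (p : ℕ) (hp : p.Prime) :
    ∃ Q : ℤ[X], (1 - X : ℤ[X]) ^ (p - 1) = (∑ i ∈ Finset.range p, (X : ℤ[X]) ^ i) + (p : ℤ[X]) * Q := by
  have : Fact p.Prime := ⟨hp⟩
  have key : Polynomial.map (Int.castRingHom (ZMod p))
      ((1 - X : ℤ[X]) ^ (p - 1) - ∑ i ∈ Finset.range p, (X : ℤ[X]) ^ i) = 0 := by
    have h1 : ((1 - X : (ZMod p)[X]) ^ (p - 1) - ∑ i ∈ Finset.range p, (X : (ZMod p)[X]) ^ i)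
        * (1 - X) = 0 := by
      have hpow : (1 - X : (ZMod p)[X]) ^ (p - 1) * (1 - X) = (1 - X) ^ p := by
        rw [← pow_succ, Nat.sub_add_cancel hp.one_le]
      have hfrob : (1 - X : (ZMod p)[X]) ^ p = 1 - X ^ p := by
        rw [sub_pow_char, one_pow]
      have hgeom : (∑ i ∈ Finset.range p, (X : (ZMod p)[X]) ^ i) * (1 - X) = 1 - X ^ p := by
        have := geom_sum_mul (X : (ZMod p)[X]) p
        linear_combination -this
      rw [sub_mul, hpow, hfrob, hgeom, sub_self]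
    have hne : (1 - X : (ZMod p)[X]) ≠ 0 := by
      intro h
      have := congrArg (fun q => Polynomial.coeff q 1) h
      simp [Polynomial.coeff_one] at this
    have := (mul_eq_zero.mp h1).resolve_right hne
    simpa [Polynomial.map_sub, Polynomial.map_pow, Polynomial.map_sum] using this
  have hdvd : C (p : ℤ) ∣ ((1 - X : ℤ[X]) ^ (p - 1) - ∑ i ∈ Finset.range p, (X : ℤ[X]) ^ i) := by
    rw [Polynomial.C_dvd_iff_dvd_coeff]
    intro i
    have := congrArg (fun q => Polynomial.coeff q i) key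
    simp only [Polynomial.coeff_map, Polynomial.coeff_zero, eq_intCast] at this
    exact (ZMod.intCast_zmod_eq_zero_iff_dvd _ _).mp this
  obtain ⟨Q, hQ⟩ := hdvd
  refine ⟨Q, ?_⟩
  have hC : (C (p : ℤ) : ℤ[X]) = (p : ℤ[X]) := by simp
  rw [hC] at hQ
  linear_combination hQ




variable {E : Type*} [AddCommGroup E]

theorem FA_R_relIndex_sup_dvd (H K N : AddSubgroup E) (h : H ≤ K) :
    (H ⊔ N).relIndex (K ⊔ N) ∣ H.relIndex K := by
  have h1 : K ⊔ N = (H ⊔ N) ⊔ K := by
    rw [sup_comm (H ⊔ N) K, ← sup_assoc, sup_eq_left.mpr h]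
  rw [h1, AddSubgroup.relIndex_sup_left]
  exact AddSubgroup.relIndex_dvd_of_le_left K le_sup_left

theorem FA_R_relIndex_map_pow (D : E →+ E) (M : AddSubgroup E) (hDM : M.map D ≤ M)
    (F : ℕ → (E →+ E)) (h0 : F 0 = AddMonoidHom.id E) (hsucc : ∀ k, F (k + 1) = (F k).comp D)
    (k : ℕ) :
    (M.map (F k)) ≤ M ∧ (M.map (F k)).relIndex M ∣ ((M.map D).relIndex M) ^ k := by
  induction k with
  | zero =>
    have : M.map (F 0) = M := by
      rw [h0]; exact AddSubgroup.map_id M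
    rw [this]
    simp
  | succ k ih =>
    obtain ⟨hle, hdvd⟩ := ih
    have hmap : M.map (F (k + 1)) = (M.map D).map (F k) := by
      rw [AddSubgroup.map_map, hsucc]
    have hle' : M.map (F (k + 1)) ≤ M.map (F k) := by
      rw [hmap]; exact AddSubgroup.map_mono hDM
    refine ⟨hle'.trans hle, ?_⟩
    rw [← AddSubgroup.relIndex_mul_relIndex _ _ _ hle' hle, pow_succ, mul_comm]
    refine mul_dvd_mul hdvd ?_
    rw [hmap, AddSubgroup.relIndex_map_map]
    exact FA_R_relIndex_sup_dvd _ _ _ hDM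




variable {E : Type*} [AddCommGroup E]

theorem FA_R_relIndex_nsmul (H : AddSubgroup E) [Module.Finite ℤ H] (m : ℕ) (hm : m ≠ 0) :
    (H.map (nsmulAddMonoidHom m : E →+ E)).relIndex H
      = m ^ finrank ℤ H * Nat.card ↥(H ⊓ (nsmulAddMonoidHom m : E →+ E).ker) := by
  have h1 : (H.map (nsmulAddMonoidHom m : E →+ E)).addSubgroupOf H =
      (nsmulAddMonoidHom m : H →+ H).range := by
    ext x
    simp only [AddSubgroup.mem_addSubgroupOf, AddSubgroup.mem_map, nsmulAddMonoidHom_apply,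
      AddMonoidHom.mem_range]
    constructor
    · rintro ⟨y, hy, hyx⟩
      exact ⟨⟨y, hy⟩, Subtype.ext (by simpa using hyx)⟩
    · rintro ⟨y, rfl⟩
      exact ⟨y.1, y.2, by simp⟩
  have h2 : Nat.card ↥(H ⊓ (nsmulAddMonoidHom m : E →+ E).ker) =
      Nat.card (nsmulAddMonoidHom m : H →+ H).ker := by
    refine Nat.card_congr ⟨fun x => ⟨⟨x.1, x.2.1⟩, ?_⟩, fun y => ⟨y.1.1, y.1.2, ?_⟩, ?_, ?_⟩
    · have : x.1 ∈ (nsmulAddMonoidHom m : E →+ E).ker := x.2.2
      rw [AddMonoidHom.mem_ker, nsmulAddMonoidHom_apply] at this ⊢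
      exact Subtype.ext (by simpa using this)
    · have h := y.2
      rw [AddMonoidHom.mem_ker, nsmulAddMonoidHom_apply] at h
      have h' : ((m • y.1 : H) : E) = 0 := by rw [h]; rfl
      show y.1.1 ∈ (nsmulAddMonoidHom m : E →+ E).ker
      rw [AddMonoidHom.mem_ker, nsmulAddMonoidHom_apply]
      rw [← h']
      exact (AddSubgroup.coe_nsmul _ _ _).symm
    · intro x; rfl
    · intro y; rfl
  rw [AddSubgroup.relIndex, h1, FA_R_index_nsmul_range H m hm, h2]




theorem FA_R_finrank_ker_add (E : Type*) [AddCommGroup E] [Module.Finite ℤ E] (p : ℕ) (hp : p ≠ 0)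
    (Nm D : E →ₗ[ℤ] E) (hDN : ∀ x, D (Nm x) = 0) (hN : ∀ x, D x = 0 → Nm x = p • x) :
    finrank ℤ (LinearMap.ker Nm) + finrank ℤ (LinearMap.ker D) = finrank ℤ E := by
  have h1 := (LinearMap.ker Nm).finrank_quotient_add_finrank
  have h2 : finrank ℤ (E ⧸ LinearMap.ker Nm) = finrank ℤ (LinearMap.range Nm) :=
    Nm.quotKerEquivRange.finrank_eq
  have h3 : finrank ℤ (LinearMap.range Nm) ≤ finrank ℤ (LinearMap.ker D) := by
    apply Submodule.finrank_mono
    rintro _ ⟨x, rfl⟩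
    exact hDN x
  let f : LinearMap.ker D →ₗ[ℤ] E := Nm ∘ₗ (LinearMap.ker D).subtype
  have h41 := (LinearMap.ker f).finrank_quotient_add_finrank
  have h42 : finrank ℤ (LinearMap.ker D ⧸ LinearMap.ker f) = finrank ℤ (LinearMap.range f) :=
    f.quotKerEquivRange.finrank_eq
  have h43 : finrank ℤ (LinearMap.range f) ≤ finrank ℤ (LinearMap.range Nm) := by
    apply Submodule.finrank_mono
    rintro _ ⟨x, rfl⟩
    exact ⟨x.1, rfl⟩
  have h44 : finrank ℤ (LinearMap.ker f) = 0 := by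
    rw [Module.finrank_eq_zero_iff_isTorsion]
    intro x
    refine ⟨⟨(p : ℤ), by simpa using hp⟩, ?_⟩
    have hx : f x.1 = 0 := x.2
    have hx' : Nm (x.1 : E) = 0 := hx
    rw [hN _ x.1.2] at hx'
    ext
    simpa using hx'
  omega


end Fermat.Agent.R
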