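import Mathlib
import Fermat.Agent.R.H92Abs

set_option autoImplicit false

open Module Polynomial

namespace Fermat.Agent.R

variable {E : Type*} [AddCommGroup E]

theorem FA_R_commute_aeval (s : Module.End ℤ E) (q : ℤ[X]) : Commute (aeval s q) s := by
  have := congrArg (aeval s) (mul_comm q X)
  simp only [map_mul, aeval_X] at this
  exact this

/-- Consequences of the polynomial identities for an endomorphism `s` with `s ^ p = 1`. -/
theorem FA_R_end_identities (p : ℕ) (hp : p.Prime) (s : Module.End ℤ E) (hs : s ^ p = 1) :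
    ∃ Q₁ Q₂ : Module.End ℤ E, Commute Q₁ s ∧ Commute Q₂ s ∧
      (∑ i ∈ Finset.range p, s ^ i) * (1 - s) = 0 ∧
      (p : Module.End ℤ E) = (∑ i ∈ Finset.range p, s ^ i) + (1 - s) * Q₁ ∧
      (1 - s) ^ (p - 1) = (∑ i ∈ Finset.range p, s ^ i) + (p : Module.End ℤ E) * Q₂ := by
  obtain ⟨q₁, hq₁⟩ := FA_R_poly_geom_sub p
  obtain ⟨q₂, hq₂⟩ := FA_R_poly_one_sub_pow p hp
  refine ⟨aeval s q₁, aeval s q₂, FA_R_commute_aeval s q₁, FA_R_commute_aeval s q₂, ?_, ?_, ?_⟩
  · have := geom_sum_mul s p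
    rw [hs, sub_self] at this
    have h2 : (∑ i ∈ Finset.range p, s ^ i) * (1 - s)
        = -((∑ i ∈ Finset.range p, s ^ i) * (s - 1)) := by
      noncomm_ring
    rw [h2, this, neg_zero]
  · have := congrArg (aeval s) hq₁
    simp only [map_sub, map_sum, map_pow, aeval_X, map_natCast, map_mul, map_one] at this
    have h3 : (s - 1) * aeval s q₁ = -((1 - s) * aeval s q₁) := by noncomm_ring
    rw [h3] at this
    have h4 : (p : Module.End ℤ E) = (∑ i ∈ Finset.range p, s ^ i)
        - ((∑ i ∈ Finset.range p, s ^ i) - (p : Module.End ℤ E)) := by abel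
    rw [h4, this]; abel
  · have := congrArg (aeval s) hq₂
    simpa only [map_sub, map_sum, map_pow, aeval_X, map_natCast, map_mul, map_one, map_add]
      using this

/-- bridge: finrank of the kernel as an additive subgroup / as a submodule -/
theorem FA_R_finrank_addSubgroup_ker (f : E →ₗ[ℤ] E) :
    finrank ℤ ↥(f.toAddMonoidHom.ker) = finrank ℤ ↥(LinearMap.ker f) := by
  let e : ↥(f.toAddMonoidHom.ker) ≃+ ↥(LinearMap.ker f) :=
    { toFun := fun x => ⟨x.1, x.2⟩
      invFun := fun x => ⟨x.1, x.2⟩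
      left_inv := fun _ => rfl
      right_inv := fun _ => rfl
      map_add' := fun _ _ => rfl }
  exact e.toIntLinearEquiv.finrank_eq

theorem FA_R_finite_addSubgroup_ker [Module.Finite ℤ E] (f : E →ₗ[ℤ] E) :
    Module.Finite ℤ ↥(f.toAddMonoidHom.ker) := by
  let e : ↥(f.toAddMonoidHom.ker) ≃+ ↥(LinearMap.ker f) :=
    { toFun := fun x => ⟨x.1, x.2⟩
      invFun := fun x => ⟨x.1, x.2⟩
      left_inv := fun _ => rfl
      right_inv := fun _ => rfl
      map_add' := fun _ _ => rfl }
  exact Module.Finite.equiv e.toIntLinearEquiv.symm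

theorem FA_R_finite_ker_nsmul [Module.Finite ℤ E] (p : ℕ) (hp : p ≠ 0) :
    Finite ↥(nsmulAddMonoidHom p : E →+ E).ker := by
  have hT : Module.IsTorsion ℤ ↥(Submodule.torsionBy ℤ E (p : ℤ)) := by
    intro x
    refine ⟨⟨(p : ℤ), by simpa using hp⟩, ?_⟩
    ext
    have := x.2
    rw [Submodule.mem_torsionBy_iff] at this
    simp [this]
  have hfin : Finite ↥(Submodule.torsionBy ℤ E (p : ℤ)) := Module.finite_of_fg_torsion _ hT
  refine Finite.of_injective
    (fun x : ↥(nsmulAddMonoidHom p : E →+ E).ker =>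
      (⟨x.1, by
        have := x.2
        rw [AddMonoidHom.mem_ker, nsmulAddMonoidHom_apply] at this
        rw [Submodule.mem_torsionBy_iff]
        simp [this]⟩ : ↥(Submodule.torsionBy ℤ E (p : ℤ)))) ?_
  intro x y h
  have h' := congrArg (fun z : ↥(Submodule.torsionBy ℤ E (p : ℤ)) => (z : E)) h
  exact Subtype.ext h'

end Fermat.Agent.R
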