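import Fermat.Agent.R.H92Units

/-!
# Project R, track R2a (item 67): the units fixed by a generator of `Gal(L/K)` are the units of `K`

`FA_R_finrank_fixed_units` : `finrank ℤ (ker (1 - σ)) = Units.rank K` on `Additive (𝓞 L)ˣ`.
-/

set_option autoImplicit false

open NumberField Module

namespace Fermat.Agent.R

variable {K L : Type} [Field K] [Field L] [NumberField K] [NumberField L] [Algebra K L]
  [IsGalois K L]

/-- The inclusion of the units of `𝓞 K` into the units of `𝓞 L`, additively. -/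
noncomputable def FA_R_unitIncl : Additive (𝓞 K)ˣ →ₗ[ℤ] Additive (𝓞 L)ˣ :=
  (MonoidHom.toAdditive
    (Units.map ((algebraMap (𝓞 K) (𝓞 L) : 𝓞 K →+* 𝓞 L) : 𝓞 K →* 𝓞 L))).toIntLinearMap

omit [IsGalois K L] in
theorem FA_R_unitIncl_coe (x : Additive (𝓞 K)ˣ) :
    ((((FA_R_unitIncl (K := K) (L := L) x).toMul : (𝓞 L)ˣ) : 𝓞 L) : L)
      = algebraMap K L (((x.toMul : (𝓞 K)ˣ) : 𝓞 K) : K) := rfl

omit [IsGalois K L] in
theorem FA_R_unitIncl_injective : Function.Injective (FA_R_unitIncl (K := K) (L := L)) := by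
  intro x y h
  have h1 := congrArg (fun z : Additive (𝓞 L)ˣ => (((z.toMul : (𝓞 L)ˣ) : 𝓞 L) : L)) h
  simp only [FA_R_unitIncl_coe] at h1
  have h2 := (algebraMap K L).injective h1
  have h3 : ((x.toMul : (𝓞 K)ˣ) : 𝓞 K) = ((y.toMul : (𝓞 K)ˣ) : 𝓞 K) := RingOfIntegers.ext h2
  have h4 : x.toMul = y.toMul := Units.ext h3
  exact Additive.toMul.injective h4

theorem FA_R_mem_ker_iff (σ : L ≃ₐ[K] L) (x : Additive (𝓞 L)ˣ) :
    x ∈ LinearMap.ker (1 - FA_R_unitEnd σ) ↔
      σ (((x.toMul : (𝓞 L)ˣ) : 𝓞 L) : L) = (((x.toMul : (𝓞 L)ˣ) : 𝓞 L) : L) := by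
  rw [LinearMap.mem_ker, LinearMap.sub_apply, sub_eq_zero, Module.End.one_apply,
    FA_R_unitEnd_apply]
  constructor
  · intro h
    have h1 := congrArg (fun z : Additive (𝓞 L)ˣ => (((z.toMul : (𝓞 L)ˣ) : 𝓞 L) : L)) h
    simp only [toMul_ofMul] at h1
    rw [FA_R_unitAut_coe] at h1
    exact h1.symm
  · intro h
    apply Additive.toMul.injective
    apply Units.ext
    apply RingOfIntegers.ext
    rw [toMul_ofMul, FA_R_unitAut_coe]
    exact h.symm

theorem FA_R_unitIncl_range (σ : L ≃ₐ[K] L) (hσ : ∀ x, x ∈ Subgroup.zpowers σ) :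
    LinearMap.range (FA_R_unitIncl (K := K) (L := L)) = LinearMap.ker (1 - FA_R_unitEnd σ) := by
  apply le_antisymm
  · rintro _ ⟨x, rfl⟩
    rw [FA_R_mem_ker_iff, FA_R_unitIncl_coe, AlgEquiv.commutes]
  · intro x hx
    rw [FA_R_mem_ker_iff] at hx
    set u : (𝓞 L)ˣ := x.toMul with hu
    -- every element of the Galois group fixes `u`
    have hfix : ∀ τ : L ≃ₐ[K] L, τ ((u : 𝓞 L) : L) = ((u : 𝓞 L) : L) := by
      intro τ
      have hle : Subgroup.zpowers σ ≤ MulAction.stabilizer (L ≃ₐ[K] L) (((u : 𝓞 L) : L)) := by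
        rw [Subgroup.zpowers_le, MulAction.mem_stabilizer_iff]
        exact hx
      have := hle (hσ τ)
      rwa [MulAction.mem_stabilizer_iff] at this
    have hbot : (((u : 𝓞 L) : L)) ∈ (⊥ : IntermediateField K L) :=
      (IsGalois.mem_bot_iff_fixed _).mpr hfix
    obtain ⟨a, ha⟩ := IntermediateField.mem_bot.mp hbot
    have hint : IsIntegral ℤ a := by
      rw [← isIntegral_algebraMap_iff (algebraMap K L).injective, ha]
      exact (u : 𝓞 L).isIntegral_coe
    set y : 𝓞 K := ⟨a, hint⟩ with hy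
    have hyu : algebraMap (𝓞 K) (𝓞 L) y = (u : 𝓞 L) := RingOfIntegers.ext ha
    -- the inverse
    have hfix' : ∀ τ : L ≃ₐ[K] L, τ (((u⁻¹ : (𝓞 L)ˣ) : 𝓞 L) : L)
        = (((u⁻¹ : (𝓞 L)ˣ) : 𝓞 L) : L) := by
      intro τ
      have h1 : (((u : 𝓞 L) : L)) * ((((u⁻¹ : (𝓞 L)ˣ) : 𝓞 L) : L)) = 1 := by
        have := congrArg (fun z : 𝓞 L => (z : L)) (Units.mul_inv u)
        simpa using this
      have hu0 : (((u : 𝓞 L) : L)) ≠ 0 := left_ne_zero_of_mul_eq_one h1
      have h2 := congrArg τ h1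
      rw [map_mul, map_one, hfix τ] at h2
      exact mul_left_cancel₀ hu0 (h2.trans h1.symm)
    have hbot' : ((((u⁻¹ : (𝓞 L)ˣ) : 𝓞 L) : L)) ∈ (⊥ : IntermediateField K L) :=
      (IsGalois.mem_bot_iff_fixed _).mpr hfix'
    obtain ⟨a', ha'⟩ := IntermediateField.mem_bot.mp hbot'
    have hint' : IsIntegral ℤ a' := by
      rw [← isIntegral_algebraMap_iff (algebraMap K L).injective, ha']
      exact ((u⁻¹ : (𝓞 L)ˣ) : 𝓞 L).isIntegral_coe
    set y' : 𝓞 K := ⟨a', hint'⟩ with hy'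
    have hyy' : y * y' = 1 := by
      apply RingOfIntegers.ext
      apply (algebraMap K L).injective
      show algebraMap K L (a * a') = algebraMap K L 1
      rw [map_mul, ha, ha', map_one]
      have := congrArg (fun z : 𝓞 L => (z : L)) (Units.mul_inv u)
      simpa using this
    let v : (𝓞 K)ˣ := ⟨y, y', hyy', by rw [mul_comm]; exact hyy'⟩
    refine ⟨Additive.ofMul v, ?_⟩
    apply Additive.toMul.injective
    apply Units.ext
    apply RingOfIntegers.ext
    rw [FA_R_unitIncl_coe]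
    exact ha

/-- The units of `L` fixed by a generator of the Galois group have the rank of the units
of `K`. -/
theorem FA_R_finrank_fixed_units (σ : L ≃ₐ[K] L) (hσ : ∀ x, x ∈ Subgroup.zpowers σ) :
    Module.finrank ℤ ↥(LinearMap.ker (1 - FA_R_unitEnd σ)) = NumberField.Units.rank K := by
  rw [← FA_R_unitIncl_range σ hσ,
    ← LinearEquiv.finrank_eq (LinearEquiv.ofInjective _ FA_R_unitIncl_injective)]
  exact NumberField.Units.finrank_eq K

end Fermat.Agent.R
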