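import Mathlib
import Fermat.Agent.R.H92Abs
import Fermat.Agent.R.H92Alg

set_option autoImplicit false

open Module Polynomial

namespace Fermat.Agent.R

variable {E : Type*} [AddCommGroup E]

theorem FA_R_hilbert92_arith (p r m a b d cM c0 : ℕ) (hp : 2 ≤ p)
    (hm : m + r + 1 = p * (r + 1))
    (ha : a = p ^ m * cM) (hb : b = p ^ r * c0)
    (h1 : a ≤ d ^ (p - 1)) (h2 : d ≤ b) (hc0 : c0 ≤ cM) (hcM : cM ≤ p) (hcM1 : 1 ≤ cM) : False := by
  obtain ⟨k, rfl⟩ : ∃ k, p = k + 2 := ⟨p - 2, by omega⟩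
  have hm' : m = r * (k + 1) + (k + 1) := by
    have : (k + 2) * (r + 1) = r * (k + 1) + (k + 1) + r + 1 := by ring
    omega
  have hk : k + 2 - 1 = k + 1 := by omega
  rw [hk] at h1
  have h3 : d ^ (k + 1) ≤ b ^ (k + 1) := Nat.pow_le_pow_left h2 _
  have h4 : b ^ (k + 1) = (k + 2) ^ (r * (k + 1)) * (c0 ^ k * c0) := by
    rw [hb, mul_pow, ← pow_mul, pow_succ]
  have h5 : c0 ^ k * c0 ≤ (k + 2) ^ k * cM :=
    Nat.mul_le_mul (Nat.pow_le_pow_left (hc0.trans hcM) _) hc0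
  have h6 : a = (k + 2) ^ (r * (k + 1)) * ((k + 2) ^ k * (k + 2) * cM) := by
    rw [ha, hm', pow_add, pow_succ (k + 2) k]; ring
  have h7 : (k + 2) ^ k * cM < (k + 2) ^ k * (k + 2) * cM := by
    have hpos : 0 < (k + 2) ^ k * cM := Nat.mul_pos (by positivity) hcM1
    nlinarith
  have hpos2 : 0 < (k + 2) ^ (r * (k + 1)) := by positivity
  have h8 : b ^ (k + 1) < a := by
    rw [h4, h6]
    exact Nat.mul_lt_mul_of_pos_left (lt_of_le_of_lt h5 h7) hpos2
  omega

/-- **Abstract Hilbert 92** (counting argument). -/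
theorem FA_R_hilbert92_abstract [Module.Finite ℤ E] (p : ℕ) (hp : p.Prime)
    (s : Module.End ℤ E) (hs : s ^ p = 1)
    (hrank : finrank ℤ E + 1 = p * (finrank ℤ (LinearMap.ker (1 - s)) + 1))
    (hcard : Nat.card (nsmulAddMonoidHom p : E →+ E).ker ≤ p) :
    ∃ η : E, (∑ i ∈ Finset.range p, s ^ i) η = 0 ∧ ∀ ε : E, η ≠ ε - s ε := by
  by_contra hcon
  push Not at hcon
  obtain ⟨Q₁, Q₂, hc1, hc2, hND, hpQ, hDQ⟩ := FA_R_end_identities p hp s hs
  set D : Module.End ℤ E := 1 - s with hD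
  set Nm : Module.End ℤ E := ∑ i ∈ Finset.range p, s ^ i with hNm
  -- commutation facts
  have hsN : Commute s Nm := by
    rw [hNm]; exact Commute.sum_right _ _ _ (fun i _ => (Commute.refl s).pow_right i)
  have hDNc : Commute D Nm := by
    rw [hD]; exact (Commute.one_left Nm).sub_left hsN
  have hDN : D * Nm = 0 := by rw [hDNc.eq]; exact hND
  have hQ1N : Commute Q₁ Nm := by
    rw [hNm]; exact Commute.sum_right _ _ _ (fun i _ => hc1.pow_right i)
  have hQ2N : Commute Q₂ Nm := by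
    rw [hNm]; exact Commute.sum_right _ _ _ (fun i _ => hc2.pow_right i)
  -- pointwise facts
  have hND' : ∀ x, Nm (D x) = 0 := fun x => by
    have := congrArg (fun f : Module.End ℤ E => f x) hND; simpa using this
  have hDN' : ∀ x, D (Nm x) = 0 := fun x => by
    have := congrArg (fun f : Module.End ℤ E => f x) hDN; simpa using this
  have hfix : ∀ x, D x = 0 → ∀ i : ℕ, (s ^ i) x = x := by
    intro x hx i
    have hsx : s x = x := by
      have : x - s x = 0 := by simpa [hD] using hx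
      exact (sub_eq_zero.mp this).symm
    induction i with
    | zero => simp
    | succ i ih => rw [pow_succ, Module.End.mul_apply, hsx, ih]
  have hN0 : ∀ x, D x = 0 → Nm x = p • x := by
    intro x hx
    rw [hNm, LinearMap.sum_apply]
    simp [hfix x hx]
  -- the groups
  let Dg : E →+ E := D.toAddMonoidHom
  let Ng : E →+ E := Nm.toAddMonoidHom
  let P : E →+ E := nsmulAddMonoidHom p
  let M : AddSubgroup E := Ng.ker
  let E₀ : AddSubgroup E := Dg.ker
  have hMmem : ∀ x, x ∈ M ↔ Nm x = 0 := fun x => Iff.rfl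
  have hE₀mem : ∀ x, x ∈ E₀ ↔ D x = 0 := fun x => Iff.rfl
  have hPapp : ∀ x, P x = p • x := fun x => rfl
  have : Module.Finite ℤ ↥M := FA_R_finite_addSubgroup_ker Nm
  have : Module.Finite ℤ ↥E₀ := FA_R_finite_addSubgroup_ker D
  have : Finite ↥P.ker := FA_R_finite_ker_nsmul p hp.ne_zero
  -- ranks
  have hrk := FA_R_finrank_ker_add E p hp.ne_zero Nm D hDN' hN0
  have hrM : finrank ℤ ↥M = finrank ℤ ↥(LinearMap.ker Nm) := FA_R_finrank_addSubgroup_ker Nm
  have hrE₀ : finrank ℤ ↥E₀ = finrank ℤ ↥(LinearMap.ker D) := FA_R_finrank_addSubgroup_ker D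
  -- indices via Lemma B
  have ha := FA_R_relIndex_nsmul M p hp.ne_zero
  have hb := FA_R_relIndex_nsmul E₀ p hp.ne_zero
  -- cardinalities of p-torsion
  have hc0M : E₀ ⊓ P.ker ≤ M ⊓ P.ker := by
    intro x hx
    refine ⟨(hMmem x).mpr ?_, hx.2⟩
    rw [hN0 x hx.1]
    exact hx.2
  have hcard0M : Nat.card ↥(E₀ ⊓ P.ker) ≤ Nat.card ↥(M ⊓ P.ker) := by
    have : Finite ↥(M ⊓ P.ker) :=
      Finite.of_injective (fun x : ↥(M ⊓ P.ker) => (⟨x.1, x.2.2⟩ : ↥P.ker))
        (fun x y h => Subtype.ext (congrArg (fun z : ↥P.ker => (z : E)) h))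
    exact AddSubgroup.card_le_of_le hc0M
  have hcardM : Nat.card ↥(M ⊓ P.ker) ≤ p :=
    (AddSubgroup.card_le_of_le inf_le_right).trans hcard
  have hcardM1 : 1 ≤ Nat.card ↥(M ⊓ P.ker) := by
    have : Finite ↥(M ⊓ P.ker) :=
      Finite.of_injective (fun x : ↥(M ⊓ P.ker) => (⟨x.1, x.2.2⟩ : ↥P.ker))
        (fun x y h => Subtype.ext (congrArg (fun z : ↥P.ker => (z : E)) h))
    exact Nat.card_pos
  -- inclusions
  have hDM : M.map Dg ≤ M := by
    rintro _ ⟨x, -, rfl⟩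
    exact hND' x
  have hPD : M.map P ≤ M.map Dg := by
    rintro _ ⟨x, hx, rfl⟩
    refine ⟨Q₁ x, (hMmem _).mpr ?_, ?_⟩
    · have := congrArg (fun f : Module.End ℤ E => f x) hQ1N.eq
      simp only [Module.End.mul_apply] at this
      rw [← this, (hMmem x).mp hx, map_zero]
    · have := congrArg (fun f : Module.End ℤ E => f x) hpQ
      simp only [LinearMap.add_apply, Module.End.mul_apply] at this
      rw [(hMmem x).mp hx, zero_add] at this
      show D (Q₁ x) = p • x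
      rw [← this]
      simp
  let F : ℕ → (E →+ E) := fun k => (D ^ k).toAddMonoidHom
  have hF0 : F 0 = AddMonoidHom.id E := by
    ext x; simp [F]
  have hFs : ∀ k, F (k + 1) = (F k).comp Dg := by
    intro k; ext x; simp [F, Dg, pow_succ]
  have hFP : M.map (F (p - 1)) ≤ M.map P := by
    rintro _ ⟨x, hx, rfl⟩
    refine ⟨Q₂ x, (hMmem _).mpr ?_, ?_⟩
    · have := congrArg (fun f : Module.End ℤ E => f x) hQ2N.eq
      simp only [Module.End.mul_apply] at this
      rw [← this, (hMmem x).mp hx, map_zero]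
    · have := congrArg (fun f : Module.End ℤ E => f x) hDQ
      simp only [LinearMap.add_apply, Module.End.mul_apply] at this
      rw [(hMmem x).mp hx, zero_add] at this
      rw [hPapp]
      show p • Q₂ x = (D ^ (p - 1)) x
      rw [this]
      simp
  obtain ⟨hFle, hFdvd⟩ := FA_R_relIndex_map_pow Dg M hDM F hF0 hFs (p - 1)
  -- a ≠ 0
  have ha0 : (M.map P).relIndex M ≠ 0 := by
    rw [ha]
    exact Nat.mul_ne_zero (pow_ne_zero _ hp.ne_zero) (Nat.one_le_iff_ne_zero.mp hcardM1)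
  have hb0 : (E₀.map P).relIndex E₀ ≠ 0 := by
    rw [hb]
    have : 1 ≤ Nat.card ↥(E₀ ⊓ P.ker) := by
      have : Finite ↥(E₀ ⊓ P.ker) :=
        Finite.of_injective (fun x : ↥(E₀ ⊓ P.ker) => (⟨x.1, x.2.2⟩ : ↥P.ker))
          (fun x y h => Subtype.ext (congrArg (fun z : ↥P.ker => (z : E)) h))
      exact Nat.card_pos
    exact Nat.mul_ne_zero (pow_ne_zero _ hp.ne_zero) (Nat.one_le_iff_ne_zero.mp this)
  have hda : (M.map Dg).relIndex M ∣ (M.map P).relIndex M :=
    AddSubgroup.relIndex_dvd_of_le_left M hPD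
  have hd0 : (M.map Dg).relIndex M ≠ 0 := fun h => ha0 (by rw [h] at hda; exact zero_dvd_iff.mp hda)
  have hae : (M.map P).relIndex M ∣ (M.map (F (p - 1))).relIndex M :=
    AddSubgroup.relIndex_dvd_of_le_left M hFP
  have h1 : (M.map P).relIndex M ≤ ((M.map Dg).relIndex M) ^ (p - 1) :=
    Nat.le_of_dvd (Nat.pos_of_ne_zero (pow_ne_zero _ hd0)) (hae.trans hFdvd)
  -- d ≤ b
  have hMrange : M = Dg.range := by
    apply le_antisymm
    · intro x hx
      obtain ⟨ε, hε⟩ := hcon x ((hMmem x).mp hx)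
      exact ⟨ε, by simp [Dg, hD, hε]⟩
    · rintro _ ⟨x, rfl⟩
      exact hND' x
  have hd_eq : (M.map Dg).relIndex M = (M ⊔ E₀).index := by
    have h := AddSubgroup.relIndex_map_map Dg M ⊤
    rw [← AddMonoidHom.range_eq_map, ← hMrange, top_sup_eq, AddSubgroup.relIndex_top_right] at h
    exact h
  have hNgE₀ : AddSubgroup.map Ng (M ⊔ E₀) = AddSubgroup.map P E₀ := by
    rw [AddSubgroup.map_sup, (AddSubgroup.map_eq_bot_iff M).mpr le_rfl, bot_sup_eq]
    ext y
    constructor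
    · rintro ⟨x, hx, rfl⟩
      exact ⟨x, hx, (hN0 x hx).symm⟩
    · rintro ⟨x, hx, rfl⟩
      exact ⟨x, hx, hN0 x hx⟩
  have hd_eq2 : (AddSubgroup.map P E₀).relIndex Ng.range = (M ⊔ E₀).index := by
    have h := AddSubgroup.relIndex_map_map Ng (M ⊔ E₀) ⊤
    rw [hNgE₀, ← AddMonoidHom.range_eq_map, top_sup_eq, AddSubgroup.relIndex_top_right] at h
    rw [h]
    congr 1
    exact sup_eq_left.mpr le_sup_left
  have hNrange : Ng.range ≤ E₀ := by
    rintro _ ⟨x, rfl⟩
    exact hDN' x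
  have h2 : (M.map Dg).relIndex M ≤ (E₀.map P).relIndex E₀ := by
    rw [hd_eq, ← hd_eq2]
    exact AddSubgroup.relIndex_le_of_le_right hNrange hb0
  refine FA_R_hilbert92_arith p (finrank ℤ ↥E₀) (finrank ℤ ↥M) _ _ _ _ _ hp.two_le ?_ ha hb h1 h2
    hcard0M hcardM hcardM1
  rw [hrM, hrE₀]
  omega

end Fermat.Agent.R
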