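import Mathlib

/-!
# Project R, track R2a (item 67): the Galois action on units, as `ℤ`-linear endomorphisms
-/

set_option autoImplicit false

open NumberField Module

namespace Fermat.Agent.R

variable {K L : Type} [Field K] [Field L] [NumberField K] [NumberField L] [Algebra K L]
  [IsGalois K L]

/-- The action of `τ ∈ Gal(L/K)` on the units of `𝓞 L`. -/
noncomputable def FA_R_unitAut (τ : L ≃ₐ[K] L) : (𝓞 L)ˣ →* (𝓞 L)ˣ :=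
  Units.map ((galRestrict (𝓞 K) K L (𝓞 L) τ : 𝓞 L ≃ₐ[𝓞 K] 𝓞 L) : 𝓞 L →* 𝓞 L)

theorem FA_R_unitAut_coe (τ : L ≃ₐ[K] L) (u : (𝓞 L)ˣ) :
    (((FA_R_unitAut τ u : (𝓞 L)ˣ) : 𝓞 L) : L) = τ ((u : 𝓞 L) : L) :=
  algebraMap_galRestrict_apply (𝓞 K) τ (u : 𝓞 L)

theorem FA_R_unitAut_one (u : (𝓞 L)ˣ) : FA_R_unitAut (1 : L ≃ₐ[K] L) u = u := by
  apply Units.ext
  apply RingOfIntegers.ext
  rw [FA_R_unitAut_coe]
  rfl

theorem FA_R_unitAut_mul (τ₁ τ₂ : L ≃ₐ[K] L) (u : (𝓞 L)ˣ) :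
    FA_R_unitAut (τ₁ * τ₂) u = FA_R_unitAut τ₁ (FA_R_unitAut τ₂ u) := by
  apply Units.ext
  apply RingOfIntegers.ext
  rw [FA_R_unitAut_coe, FA_R_unitAut_coe, FA_R_unitAut_coe]
  rfl

/-- The action of `τ ∈ Gal(L/K)` on `Additive (𝓞 L)ˣ` as a `ℤ`-linear endomorphism. -/
noncomputable def FA_R_unitEnd (τ : L ≃ₐ[K] L) : Module.End ℤ (Additive (𝓞 L)ˣ) :=
  (MonoidHom.toAdditive (FA_R_unitAut τ)).toIntLinearMap

theorem FA_R_unitEnd_apply (τ : L ≃ₐ[K] L) (x : Additive (𝓞 L)ˣ) :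
    FA_R_unitEnd τ x = Additive.ofMul (FA_R_unitAut τ x.toMul) := rfl

theorem FA_R_unitEnd_one : FA_R_unitEnd (1 : L ≃ₐ[K] L) = 1 := by
  ext x
  rw [FA_R_unitEnd_apply, FA_R_unitAut_one]
  rfl

theorem FA_R_unitEnd_mul (τ₁ τ₂ : L ≃ₐ[K] L) :
    FA_R_unitEnd (τ₁ * τ₂) = FA_R_unitEnd τ₁ * FA_R_unitEnd τ₂ := by
  ext x
  rw [FA_R_unitEnd_apply, FA_R_unitAut_mul]
  rfl

theorem FA_R_unitEnd_pow (τ : L ≃ₐ[K] L) (k : ℕ) :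
    FA_R_unitEnd (τ ^ k) = (FA_R_unitEnd τ) ^ k := by
  induction k with
  | zero => rw [pow_zero, pow_zero, FA_R_unitEnd_one]
  | succ k ih => rw [pow_succ, pow_succ, FA_R_unitEnd_mul, ih]

end Fermat.Agent.R
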