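import Mathlib
import Fermat.Agent.R.H92Units

set_option autoImplicit false

open NumberField Module

namespace Fermat.Agent.R

variable {K L : Type} [Field K] [Field L] [NumberField K] [NumberField L] [Algebra K L]
  [IsGalois K L]

theorem FA_R_rank_relation (p : ℕ) (hodd : Odd p) (hKL : Module.finrank K L = p) :
    Units.rank L + 1 = p * (Units.rank K + 1) := by
  have hunr : IsUnramifiedAtInfinitePlaces K L :=
    IsUnramifiedAtInfinitePlaces_of_odd_finrank (by rw [hKL]; exact hodd)
  have h := IsUnramifiedAtInfinitePlaces.card_infinitePlace K L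
  rw [hKL] at h
  have hK : 0 < Fintype.card (InfinitePlace K) := Fintype.card_pos
  have hL : 0 < Fintype.card (InfinitePlace L) := Fintype.card_pos
  unfold Units.rank
  rw [Nat.sub_add_cancel hL, Nat.sub_add_cancel hK, h, mul_comm]

omit [NumberField K] [Algebra K L] [IsGalois K L] in
theorem FA_R_card_ker_nsmul_units (p : ℕ) (hp : p ≠ 0) :
    Nat.card (nsmulAddMonoidHom p : Additive (𝓞 L)ˣ →+ Additive (𝓞 L)ˣ).ker ≤ p := by
  haveI : NeZero p := ⟨hp⟩
  refine le_trans (le_of_eq ?_) (card_rootsOfUnity (𝓞 L) p)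
  refine Nat.card_congr
    ⟨fun x => ⟨x.1.toMul, ?_⟩, fun y => ⟨Additive.ofMul y.1, ?_⟩, fun _ => rfl, fun _ => rfl⟩
  · have := x.2
    rw [AddMonoidHom.mem_ker, nsmulAddMonoidHom_apply] at this
    rw [mem_rootsOfUnity]
    exact this
  · have := y.2
    rw [mem_rootsOfUnity] at this
    rw [AddMonoidHom.mem_ker, nsmulAddMonoidHom_apply]
    exact this

end Fermat.Agent.R
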