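import Fermat.Agent.R.H92Main
import Fermat.Agent.R.H92Units
import Fermat.Agent.R.H92Rank
import Fermat.Agent.R.H92Fixed
import Fermat.Agent.R.Hilbert94

/-!
# Project R, item 67: Hilbert's Satz 92

`FA_R_hilbert92 : FA_R_Target_Hilbert92`: for a cyclic extension `L/K` of number fields of odd prime
degree `p` with generator `σ`, there is a unit `η` of `𝓞 L` of relative norm one which is not of the
form `ε / σ ε`.  Proof: counting argument `FA_R_hilbert92_abstract` applied to `Additive (𝓞 L)ˣ`.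
-/

set_option autoImplicit false

open NumberField Module

namespace Fermat.Agent.R

variable {K L : Type} [Field K] [Field L] [NumberField K] [NumberField L] [Algebra K L]
  [IsGalois K L]

theorem FA_R_prod_of_sum (σ : L ≃ₐ[K] L) (p : ℕ) (η : Additive (𝓞 L)ˣ)
    (h : (∑ i ∈ Finset.range p, (FA_R_unitEnd σ) ^ i) η = 0) :
    ∏ i ∈ Finset.range p, (σ ^ i) (((Additive.toMul η : (𝓞 L)ˣ) : 𝓞 L) : L) = 1 := by
  have h1 : ∑ i ∈ Finset.range p, FA_R_unitEnd (σ ^ i) η = 0 := by
    rw [← h, LinearMap.sum_apply]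
    refine Finset.sum_congr rfl (fun i _ => ?_)
    rw [FA_R_unitEnd_pow]
  have h2 : ∏ i ∈ Finset.range p, FA_R_unitAut (σ ^ i) (Additive.toMul η) = 1 := by
    have := congrArg Additive.toMul h1
    rw [toMul_sum] at this
    simpa [FA_R_unitEnd_apply] using this
  have h3 := congrArg (fun u : (𝓞 L)ˣ => ((u : 𝓞 L) : L)) h2
  simp only [Units.coe_prod, map_prod, Units.val_one, map_one] at h3
  rw [← h3]
  refine Finset.prod_congr rfl (fun i _ => ?_)
  exact (FA_R_unitAut_coe _ _).symm

theorem FA_R_hilbert92 : FA_R_Target_Hilbert92 := by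
  intro K L _ _ _ _ _ _ p hp hp2 hKL _ σ hσ
  classical
  have hodd : Odd p := hp.odd_of_ne_two hp2
  have hfd : FiniteDimensional K L := Module.finite_of_finrank_pos (by rw [hKL]; exact hp.pos)
  have hord : orderOf σ = p := by
    rw [orderOf_eq_card_of_forall_mem_zpowers hσ, IsGalois.card_aut_eq_finrank, hKL]
  have hσp : σ ^ p = 1 := by rw [← hord]; exact pow_orderOf_eq_one σ
  have hs : (FA_R_unitEnd σ) ^ p = 1 := by rw [← FA_R_unitEnd_pow, hσp, FA_R_unitEnd_one]
  have hrank : finrank ℤ (Additive (𝓞 L)ˣ) + 1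
      = p * (finrank ℤ (LinearMap.ker (1 - FA_R_unitEnd σ)) + 1) := by
    rw [Units.finrank_eq, FA_R_finrank_fixed_units σ hσ, FA_R_rank_relation p hodd hKL]
  obtain ⟨η, hη1, hη2⟩ := FA_R_hilbert92_abstract p hp (FA_R_unitEnd σ) hs hrank
    (FA_R_card_ker_nsmul_units p hp.ne_zero)
  refine ⟨Additive.toMul η, ?_, ?_⟩
  · apply (algebraMap K L).injective
    rw [Algebra.norm_eq_prod_automorphisms, map_one, ← FA_R_prod_of_sum σ p η hη1]
    have himg := IsCyclic.image_range_orderOf hσ
    rw [hord] at himg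
    have hinj : Set.InjOn (fun i => σ ^ i) (Finset.range p : Set ℕ) := by
      have := pow_injOn_Iio_orderOf (x := σ)
      rw [hord] at this
      simpa using this
    rw [← Finset.prod_image (f := fun τ : L ≃ₐ[K] L => τ (((Additive.toMul η : (𝓞 L)ˣ) : 𝓞 L) : L)) hinj]
    refine Finset.prod_congr ?_ (fun _ _ => rfl)
    convert himg.symm
  · intro ε hε
    apply hη2 (Additive.ofMul ε)
    have h1 : Additive.toMul η = ε * (FA_R_unitAut σ ε)⁻¹ := by
      have hne : σ (((ε : 𝓞 L) : L)) ≠ 0 := by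
        rw [← FA_R_unitAut_coe]
        exact RingOfIntegers.coe_ne_zero_iff.mpr (Units.ne_zero _)
      rw [eq_div_iff hne, ← FA_R_unitAut_coe] at hε
      have h2 : (((Additive.toMul η * FA_R_unitAut σ ε : (𝓞 L)ˣ) : 𝓞 L) : L) = ((ε : 𝓞 L) : L) := by
        simpa using hε
      exact eq_mul_inv_of_mul_eq (Units.ext (RingOfIntegers.ext h2))
    rw [FA_R_unitEnd_apply, sub_eq_add_neg]
    apply Additive.toMul.injective
    rw [h1]
    rfl

end Fermat.Agent.R
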