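import Mathlib

/-!
# Project R — Fermat's Last Theorem for the exponents 5, 7, 11, 13 (Kummer)

Purpose: a `FreyPackage` with `p ∈ {5, 7, 11, 13}` cannot exist, which makes S10 and S11 vacuous.
This file only fixes the interfaces between the tracks (pure `Prop` definitions, no proofs).
`K p := CyclotomicField p ℚ` throughout; class number one is used instead of regularity.
-/

set_option autoImplicit false

open NumberField

namespace Fermat.Agent.R

/-- The cyclotomic field used by every track. -/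
abbrev FA_R_K (p : ℕ) : Type := CyclotomicField p ℚ

/-- Class number one for `ℚ(ζ_p)` (track R4 proves it for `p = 7, 11, 13`; Mathlib has `5`). -/
def FA_R_PID (p : ℕ) : Prop := IsPrincipalIdealRing (𝓞 (FA_R_K p))

/-- Kummer's lemma: a unit of `ℤ[ζ_p]` congruent to a rational integer modulo `p` is a
`p`-th power of a unit (track R2). -/
def FA_R_KummerLemma (p : ℕ) : Prop :=
  ∀ (u : (𝓞 (FA_R_K p))ˣ) (n : ℤ),
    (p : 𝓞 (FA_R_K p)) ∣ ((u : 𝓞 (FA_R_K p)) - (n : 𝓞 (FA_R_K p))) →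
      ∃ v : (𝓞 (FA_R_K p))ˣ, u = v ^ p

/-- Case I (track R1): no coprime solution with `p ∤ abc`. -/
def FA_R_CaseI (p : ℕ) : Prop :=
  ∀ a b c : ℤ, ({a, b, c} : Finset ℤ).gcd id = 1 → ¬ (p : ℤ) ∣ a * b * c →
    a ^ p + b ^ p ≠ c ^ p

/-- Case II (track R3): no coprime solution in nonzero integers with `p ∣ abc`. -/
def FA_R_CaseII (p : ℕ) : Prop :=
  ∀ a b c : ℤ, a ≠ 0 → b ≠ 0 → c ≠ 0 → ({a, b, c} : Finset ℤ).gcd id = 1 →
    (p : ℤ) ∣ a * b * c → a ^ p + b ^ p ≠ c ^ p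

/-- Target of track R1. -/
def FA_R_Target_CaseI : Prop :=
  ∀ p : ℕ, p.Prime → 5 ≤ p → FA_R_PID p → FA_R_CaseI p

/-- Target of track R3. -/
def FA_R_Target_CaseII : Prop :=
  ∀ p : ℕ, p.Prime → 5 ≤ p → FA_R_PID p → FA_R_KummerLemma p → FA_R_CaseII p

/-- Target of track R2 (Hilbert 90/92/94 + unramifiedness of `K(u^{1/p})/K`). -/
def FA_R_Target_Kummer : Prop :=
  ∀ p : ℕ, p.Prime → 3 ≤ p → FA_R_PID p → FA_R_KummerLemma p

/-- Target of track R4. -/
def FA_R_Target_PID : Prop := FA_R_PID 7 ∧ FA_R_PID 11 ∧ FA_R_PID 13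

/-- Glue: Case I + Case II give Mathlib's `FermatLastTheoremFor p`. -/
theorem FA_R_flt_of_cases (p : ℕ) (h1 : FA_R_CaseI p) (h2 : FA_R_CaseII p) :
    FermatLastTheoremFor p := by
  rw [fermatLastTheoremFor_iff_int]
  refine fermatLastTheoremWith_of_fermatLastTheoremWith_coprime ?_
  intro a b c ha hb hc hgcd heq
  by_cases hdvd : (p : ℤ) ∣ a * b * c
  · exact h2 a b c ha hb hc hgcd hdvd heq
  · exact h1 a b c hgcd hdvd heq

end Fermat.Agent.R
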