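import Fermat.Agent.R.PIDCommon

/-!
# Project R4 — `ℤ[ζ₇]` is a principal ideal domain

Minkowski constant `< 5`; the primes `2` and `3` have residue degree `3` and `6`.
-/

set_option autoImplicit false

open Real Nat

namespace Fermat.Agent.R

/-- Class number one for `ℚ(ζ₇)`. -/
theorem FA_R_pid7 : FA_R_PID 7 := by
  have : Fact (Nat.Prime 7) := ⟨by norm_num⟩
  refine FA_R_pid_of_witnesses 7 4 3 [2, 3] ?_ (by norm_num) (by decide) [] ?_ ?_
  · have h1 : (4 / π) ^ ((7 - 1) / 2) ≤ (4 / 3 : ℝ) ^ 3 := by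
      have : (4 / π) ≤ (4 / 3 : ℝ) :=
        div_le_div_of_nonneg_left (by norm_num) (by norm_num) pi_gt_three.le
      have h0 : (0 : ℝ) ≤ 4 / π := by positivity
      simpa using pow_le_pow_left₀ h0 this 3
    have h2 : √((7 : ℝ) ^ (7 - 2)) ≤ 130 := by
      rw [Real.sqrt_le_iff]
      norm_num
    have h3 : (((7 - 1)! : ℕ) : ℝ) / (((7 - 1 : ℕ) : ℕ) : ℝ) ^ (7 - 1) = 720 / 46656 := by
      norm_num [Nat.factorial]
    have h4 : (0 : ℝ) ≤ √((7 : ℝ) ^ (7 - 2)) := Real.sqrt_nonneg _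
    have h5 : (0 : ℝ) ≤ (4 / π) ^ ((7 - 1) / 2) := by positivity
    calc (4 / π) ^ ((7 - 1) / 2) *
          ((((7 - 1)! : ℕ) : ℝ) / (((7 - 1 : ℕ) : ℕ) : ℝ) ^ (7 - 1) * √(((7 : ℕ) : ℝ) ^ (7 - 2)))
        = (4 / π) ^ ((7 - 1) / 2) * (720 / 46656 * √((7 : ℝ) ^ (7 - 2))) := by
          rw [h3]; norm_num
      _ ≤ (4 / 3 : ℝ) ^ 3 * (720 / 46656 * 130) := by
          apply mul_le_mul h1 _ (by positivity) (by positivity)
          exact mul_le_mul_of_nonneg_left h2 (by norm_num)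
      _ < ((4 : ℕ) : ℝ) + 1 := by norm_num
  · decide
  · simp

end Fermat.Agent.R
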