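import Fermat.Agent.R.PIDCommon

/-!
# Project R4 — certificates for principal primes of `ℤ[ζ_p]`

`FA_R_principal_prime_of_cert`: let `Q ∈ ℤ[X]` reduce to a monic irreducible factor of `Φ_p` mod `q`.
By Kummer–Dedekind `(q, Q(ζ))` is a prime above `q`. It is principal, generated by `α`, as soon as
`α ∣ q`, `α ∣ Q(ζ)` and `α ∈ (q, Q(ζ))`; the three facts are given by explicit elements.
-/

set_option autoImplicit false

open NumberField Polynomial Ideal RingOfIntegers IsCyclotomicExtension IsCyclotomicExtension.Rat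
  NumberField.Ideal

namespace Fermat.Agent.R

section

variable (p q : ℕ) [hp : Fact p.Prime] [hq : Fact q.Prime] (K : Type) [Field K] [NumberField K]
  [hK : IsCyclotomicExtension {p} ℚ K]

/-- `ζ_p` as an element of the ring of integers. -/
noncomputable abbrev FA_R_zeta : 𝓞 K := (zeta_spec p ℚ K).toInteger

theorem FA_R_zeta_sum : ∑ i ∈ Finset.range p, (FA_R_zeta p K) ^ i = 0 :=
  (zeta_spec p ℚ K).toInteger_isPrimitiveRoot.geom_sum_eq_zero hp.out.one_lt

theorem FA_R_principal_prime_of_cert (Q : ℤ[X])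
    (hQm : (Q.map (Int.castRingHom (ZMod q))).Monic)
    (hQi : Irreducible (Q.map (Int.castRingHom (ZMod q))))
    (hQd : Q.map (Int.castRingHom (ZMod q)) ∣ cyclotomic p (ZMod q))
    (α β γ u v : 𝓞 K)
    (h1 : α * β = (q : 𝓞 K)) (h2 : α * γ = aeval (FA_R_zeta p K) Q)
    (h3 : α = u * (q : 𝓞 K) + v * aeval (FA_R_zeta p K) Q) :
    ∃ P ∈ primesOver (span {(q : ℤ)}) (𝓞 K), Submodule.IsPrincipal P := by
  set θ := FA_R_zeta p K with hθ
  have h₁ : ¬ q ∣ exponent θ := by
    rw [exponent_eq_one_iff.mpr <| adjoin_singleton_eq_top (zeta_spec p ℚ K)]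
    exact hq.out.not_dvd_one
  have hQ : Q.map (Int.castRingHom (ZMod q)) ∈ monicFactorsMod θ q := by
    rw [Multiset.mem_toFinset, Polynomial.mem_normalizedFactors_iff
      (map_monic_ne_zero (minpoly.monic θ.isIntegral))]
    refine ⟨hQi, hQm, ?_⟩
    have hmin : minpoly ℤ θ = cyclotomic p ℤ := by
      rw [cyclotomic_eq_minpoly (zeta_spec p ℚ K) hp.out.pos,
        ← (zeta_spec p ℚ K).coe_toInteger, ← RingOfIntegers.minpoly_coe]
      rfl
    rw [hmin, map_cyclotomic_int]
    exact hQd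
  refine ⟨_, ((primesOverSpanEquivMonicFactorsMod h₁).symm ⟨_, hQ⟩).prop, ?_⟩
  rw [primesOverSpanEquivMonicFactorsMod_symm_apply_eq_span h₁ hQ]
  have hspan : span {(q : 𝓞 K), aeval θ Q} = span {α} := by
    apply le_antisymm
    · rw [span_le]
      intro x hx
      rcases hx with rfl | hx
      · exact mem_span_singleton.mpr ⟨β, h1.symm⟩
      · rw [Set.mem_singleton_iff] at hx
        subst hx
        exact mem_span_singleton.mpr ⟨γ, h2.symm⟩
    · rw [span_singleton_le_iff_mem, h3]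
      exact mem_span_pair.mpr ⟨u, v, rfl⟩
  rw [hspan]
  exact ⟨⟨α, rfl⟩⟩

/-- The case of a prime of residue degree one: `Q = X - r`. -/
theorem FA_R_principal_prime_of_cert_linear (r : ℤ)
    (hr : ∑ i ∈ Finset.range p, (r : ZMod q) ^ i = 0)
    (α β γ u v : 𝓞 K)
    (h1 : α * β = (q : 𝓞 K)) (h2 : α * γ = FA_R_zeta p K - (r : 𝓞 K))
    (h3 : α = u * (q : 𝓞 K) + v * (FA_R_zeta p K - (r : 𝓞 K))) :
    ∃ P ∈ primesOver (span {(q : ℤ)}) (𝓞 K), Submodule.IsPrincipal P := by
  have hmap : (X - C r : ℤ[X]).map (Int.castRingHom (ZMod q)) = X - C (r : ZMod q) := by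
    simp
  have hae : aeval (FA_R_zeta p K) (X - C r : ℤ[X]) = FA_R_zeta p K - (r : 𝓞 K) := by
    simp
  refine FA_R_principal_prime_of_cert p q K (X - C r) ?_ ?_ ?_ α β γ u v h1 (by rw [hae, h2])
    (by rw [hae]; exact h3)
  · rw [hmap]; exact monic_X_sub_C _
  · rw [hmap]; exact irreducible_X_sub_C _
  · rw [hmap, dvd_iff_isRoot, IsRoot.def, cyclotomic_prime, eval_geom_sum]
    exact hr

end

end Fermat.Agent.R
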