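import Fermat.Agent.R.Interface

/-!
# Project R4 — class number one for `ℚ(ζ_p)`: common scaffolding

`FA_R_pid_of_witnesses`: to prove `FA_R_PID p` it is enough to bound the Minkowski constant by `B + 1`,
to check by computation that every prime `q ≤ B`, `q ≠ p`, outside a finite list `L` has
`q ^ f > B` (`f` the order of `q` mod `p`), and to exhibit a principal prime above every `q ∈ L`.
The computation is stated with bounded quantifiers only (`ds` = trial divisors standing in for
primality, `J` = bound for the exponent), so that it can be discharged by `decide`.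
-/

set_option autoImplicit false

open NumberField Module Ideal Nat Real IsCyclotomicExtension.Rat InfinitePlace

namespace Fermat.Agent.R

/-- The cyclotomic field of the interface is a cyclotomic extension for the algebra structure that
instance search finds first. -/
theorem FA_R_isCyclotomicExtension (p : ℕ) : IsCyclotomicExtension {p} ℚ (FA_R_K p) := by
  have h : (DivisionRing.toRatAlgebra : Algebra ℚ (CyclotomicField p ℚ)) =
      CyclotomicField.algebra p ℚ := Subsingleton.elim _ _
  unfold FA_R_K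
  rw [h]
  infer_instance

/-- The finite computation behind `FA_R_pid_of_witnesses` as a boolean function:
for every `q ≤ B` that passes trial division by `ds`, is different from `p` and is not in `L`,
no power `q ^ j`, `1 ≤ j < J`, `q ^ j ≤ B`, is congruent to `1` modulo `p`. -/
def FA_R_check (p B J : ℕ) (ds L : List ℕ) : Bool :=
  (List.range (B + 1)).all fun q =>
    !(decide (2 ≤ q)) || !(ds.all fun d => !(q % d == 0) || d == q) || q == p || L.contains q ||
      (List.range J).all fun j => j == 0 || !(decide (q ^ j ≤ B)) || !(q ^ j % p == 1)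

theorem FA_R_check_spec {p B J : ℕ} {ds L : List ℕ} (h : FA_R_check p B J ds L = true)
    {q : ℕ} (hq : q < B + 1) (hq2 : 2 ≤ q) (hds : ∀ d ∈ ds, d ∣ q → d = q) (hqp : q ≠ p)
    (hqL : q ∉ L)
    {j : ℕ} (hj : j < J) (hj1 : 1 ≤ j) (hjB : q ^ j ≤ B) : q ^ j % p ≠ 1 := by
  unfold FA_R_check at h
  rw [List.all_eq_true] at h
  have h1 := h q (List.mem_range.mpr hq)
  simp only [Bool.or_eq_true, Bool.not_eq_true', List.all_eq_false, List.all_eq_true,
    beq_iff_eq, List.contains_iff_mem, List.mem_range, decide_eq_false_iff_not,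
    beq_eq_false_iff_ne, ne_eq, not_le, not_or, not_not] at h1
  rcases h1 with (((h1 | h1) | h1) | h1) | h1
  · omega
  · obtain ⟨d, hd, hd2⟩ := h1
    exact absurd (hds d hd (Nat.dvd_of_mod_eq_zero hd2.1)) hd2.2
  · exact absurd h1 hqp
  · exact absurd h1 hqL
  · rcases h1 j hj with (h2 | h2) | h2
    · omega
    · omega
    · exact h2

section general

variable (p : ℕ) [hp : Fact p.Prime] (K : Type) [Field K] [NumberField K]
  [hK : IsCyclotomicExtension {p} ℚ K]

/-- Closed form of the Minkowski constant of `ℚ(ζ_p)`. -/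
theorem FA_R_minkowski_eq :
    (4 / π) ^ nrComplexPlaces K *
      ((finrank ℚ K)! / (finrank ℚ K) ^ (finrank ℚ K) * √|discr K|)
    = (4 / π) ^ ((p - 1) / 2) *
        (((p - 1)! : ℝ) / ((p - 1 : ℕ) : ℝ) ^ (p - 1) * √((p : ℝ) ^ (p - 2))) := by
  rw [discr_prime p K,
    IsCyclotomicExtension.finrank (n := p) K
      (Polynomial.cyclotomic.irreducible_rat hp.out.pos),
    nrComplexPlaces_eq_totient_div_two p, totient_prime hp.out]
  congr 3
  rw [← Int.cast_abs, abs_mul, abs_pow, abs_neg, abs_one, one_pow, one_mul, abs_pow,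
    Int.abs_natCast]
  push_cast
  rfl

include hK in
/-- Scaffolding: class number one from a bound on the Minkowski constant, a finite computation and
finitely many principal primes. -/
theorem FA_R_pid_of_witnesses_general (B J : ℕ) (ds : List ℕ)
    (hB : (4 / π) ^ ((p - 1) / 2) *
        (((p - 1)! : ℝ) / ((p - 1 : ℕ) : ℝ) ^ (p - 1) * √((p : ℝ) ^ (p - 2))) < B + 1)
    (hJ : B < 2 ^ J) (hds : ∀ d ∈ ds, 2 ≤ d)
    (L : List ℕ) (hcheck : FA_R_check p B J ds L = true)
    (hL : ∀ q ∈ L, q.Prime → ∃ P ∈ primesOver (span {(q : ℤ)}) (𝓞 K), Submodule.IsPrincipal P) :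
    IsPrincipalIdealRing (𝓞 K) := by
  have : IsGalois ℚ K := IsCyclotomicExtension.isGalois {p} ℚ K
  have hfloor : ⌊(4 / π) ^ nrComplexPlaces K *
      ((finrank ℚ K)! / (finrank ℚ K) ^ (finrank ℚ K) * √|discr K|)⌋₊ ≤ B := by
    rw [FA_R_minkowski_eq p K]
    apply Nat.le_of_lt_succ
    rw [Nat.floor_lt (by positivity)]
    exact_mod_cast hB
  refine RingOfIntegers.isPrincipalIdealRing_of_isPrincipal_of_lt_or_isPrincipal_of_mem_primesOver_of_mem_Icc
    (fun q hq hqp ↦ ?_)
  have hqB : q ≤ B := (Finset.mem_Icc.mp hq).2.trans hfloor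
  by_cases hqp' : q = p
  · subst hqp'
    have hζ := hK.zeta_spec
    exact ⟨span {hζ.toInteger - 1},
      ⟨isPrime_span_zeta_sub_one' q hζ, by
        have h1 : IsCyclotomicExtension {q ^ (0 + 1)} ℚ K := by rwa [zero_add, pow_one]
        have hζ' : IsPrimitiveRoot (IsCyclotomicExtension.zeta q ℚ K) (q ^ (0 + 1)) := by
          rwa [zero_add, pow_one]
        exact liesOver_span_zeta_sub_one q 0 hζ'⟩, Or.inr ⟨⟨_, rfl⟩⟩⟩
  by_cases hqL : q ∈ L
  · obtain ⟨P, hP, hPp⟩ := hL q hqL hqp
    exact ⟨P, hP, Or.inr hPp⟩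
  · have : Fact q.Prime := ⟨hqp⟩
    obtain ⟨⟨P, hP1, hP2⟩⟩ := (span {(q : ℤ)}).nonempty_primesOver (S := 𝓞 K)
    refine ⟨P, ⟨hP1, hP2⟩, Or.inl ?_⟩
    have hndvd : ¬ q ∣ p := fun h ↦ hqp' ((Nat.prime_dvd_prime_iff_eq hqp hp.out).mp h)
    rw [inertiaDeg_eq_of_not_dvd q K P hndvd]
    by_contra hcon
    rw [not_lt] at hcon
    set f := orderOf (q : ZMod p) with hf
    have hcop : q.Coprime p := (Nat.coprime_primes hqp hp.out).mpr hqp'
    have hfpos : 1 ≤ f := by
      rw [hf, ← ZMod.coe_unitOfCoprime q hcop, orderOf_units]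
      exact orderOf_pos _
    have hpow : ((q ^ f : ℕ) : ZMod p) = 1 := by
      rw [Nat.cast_pow, hf]; exact pow_orderOf_eq_one _
    have hmod : q ^ f % p = 1 := by
      have h1 : ((q ^ f : ℕ) : ZMod p) = ((1 : ℕ) : ZMod p) := by rw [hpow, Nat.cast_one]
      rw [ZMod.natCast_eq_natCast_iff'] at h1
      rw [h1, Nat.mod_eq_of_lt hp.out.one_lt]
    have hfB : q ^ f ≤ B := hcon.trans hfloor
    have hfJ : f < J := by
      by_contra hJf
      rw [not_lt] at hJf
      have h1 : 2 ^ J ≤ q ^ f :=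
        (Nat.pow_le_pow_right (by norm_num) hJf).trans (Nat.pow_le_pow_left hqp.two_le f)
      omega
    refine FA_R_check_spec hcheck (Nat.lt_succ_of_le hqB) hqp.two_le (fun d hd hdq ↦ ?_) hqp' hqL
      hfJ hfpos hfB hmod
    exact ((Nat.dvd_prime hqp).mp hdq).resolve_left (by have := hds d hd; omega)

end general

/-- Scaffolding for the field of the interface. -/
theorem FA_R_pid_of_witnesses (p : ℕ) [hp : Fact p.Prime] (B J : ℕ) (ds : List ℕ)
    (hB : (4 / π) ^ ((p - 1) / 2) *
        (((p - 1)! : ℝ) / ((p - 1 : ℕ) : ℝ) ^ (p - 1) * √((p : ℝ) ^ (p - 2))) < B + 1)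
    (hJ : B < 2 ^ J) (hds : ∀ d ∈ ds, 2 ≤ d)
    (L : List ℕ) (hcheck : FA_R_check p B J ds L = true)
    (hL : ∀ q ∈ L, q.Prime →
      ∃ P ∈ primesOver (span {(q : ℤ)}) (𝓞 (FA_R_K p)), Submodule.IsPrincipal P) :
    FA_R_PID p :=
  haveI := FA_R_isCyclotomicExtension p
  FA_R_pid_of_witnesses_general p (FA_R_K p) B J ds hB hJ hds L hcheck hL

end Fermat.Agent.R
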